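import Fermat.Statements.S13
import Fermat.Agent.S05.Frey

/-!
# S13: interface (statements of the blocks, as `Prop`-valued definitions)

`V = E[p]` for the Frey curve, `GQ` the absolute Galois group of the rationals.
-/

set_option autoImplicit false

namespace Fermat.Agent.S13

open WeierstrassCurve WeierstrassCurve.Affine WeierstrassCurve.Affine.Point

/-- the algebraic closure of the rationals. -/
abbrev Qb := AlgebraicClosure ℚ

/-- the absolute Galois group. -/
noncomputable abbrev GQ := Qb ≃ₐ[ℚ] Qb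

/-- the `p`-torsion module of the Frey curve. -/
noncomputable abbrev Tors (P : FreyPackage) := Submodule.torsionBy ℤ (P.freyCurve⁄Qb).Point P.p

/-- [T] the torsion module has `p ^ 2` elements. -/
def Stmt_card : Prop := ∀ P : FreyPackage, Nat.card (Tors P) = P.p ^ 2

/-- [L2] inertia at `2` acts unipotently. -/
def Stmt_two : Prop :=
  ∀ (P : FreyPackage) (A : ValuationSubring Qb), A.LiesOverPrime 2 →
    ∀ σ ∈ A.inertiaSubgroupIn ℚ, ∀ x : Tors P, σ • (σ • x - x) = σ • x - x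

/-- [Lp] the dichotomy at `p` for a stable line. -/
def Stmt_atp : Prop :=
  ∀ (P : FreyPackage) (A : ValuationSubring Qb), A.LiesOverPrime P.p →
    ∀ L : Submodule (ZMod P.p) (Tors P), IsGaloisStable ℚ L → Nat.card L = P.p →
      (∀ σ ∈ A.inertiaSubgroupIn ℚ, ∀ x : Tors P, σ • x - x ∈ L) ∨
      (∀ σ ∈ A.inertiaSubgroupIn ℚ, ∀ x ∈ L, σ • x = x)

/-- [L2] no rational point of order `p`. -/
def Stmt_noRat : Prop :=
  ∀ (P : FreyPackage) (x : Tors P), (∀ σ : GQ, σ • x = x) → x = 0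

/-- [G] an open normal subgroup containing one inertia group over every prime is everything. -/
def Stmt_minkowski : Prop :=
  ∀ H : Subgroup GQ, H.Normal → IsOpen (H : Set GQ) →
    (∀ q : ℕ, q.Prime → ∃ A : ValuationSubring Qb, A.LiesOverPrime q ∧
      A.inertiaSubgroupIn ℚ ≤ H) → H = ⊤

/-- [T] model level: the number of `p`-torsion points. -/
def Stmt_model_card : Prop :=
  ∀ (u w : ℤ), w ≠ 0 → u ^ 2 - 4 * w ≠ 0 → ∀ p : ℕ, p.Prime → p ≠ 2 →
    Nat.card {R : ((S05.mcQ (u : ℚ) (w : ℚ))⁄Qb).Point // p • R = 0} = p ^ 2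

/-- [T] model level: the Gauss norm bound for the `x`-coordinates of the `p`-torsion points in the
kernel of reduction. -/
def Stmt_model_gauss : Prop :=
  ∀ (u w : ℤ), w ≠ 0 → u ^ 2 - 4 * w ≠ 0 → ∀ p : ℕ, p.Prime → p ≠ 2 →
    ∀ (A : ValuationSubring Qb) (S : Finset Qb),
      (∀ ξ ∈ S, 1 < A.valuation ξ ∧ ∃ (y : Qb) (h : ((S05.mcQ (u : ℚ) (w : ℚ))⁄Qb).Nonsingular ξ y),
        p • (Point.some ξ y h : ((S05.mcQ (u : ℚ) (w : ℚ))⁄Qb).Point) = 0) →
      A.valuation (p : Qb) * ∏ ξ ∈ S, A.valuation ξ ≤ 1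

end Fermat.Agent.S13
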