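import Mathlib
import Fermat.Agent.S13.Interface
import Fermat.Agent.S54.Frob95

/-!
# S13, block [G]: an open normal subgroup of `G_ℚ` containing an inertia group over every prime
is everything (Minkowski + lifting of inertia elements to the algebraic closure).
-/

set_option autoImplicit false

namespace Fermat.Agent.S13.Mink

open Fermat.Agent.S54.Frob95
open scoped Pointwise

section Setup

variable (H : Subgroup GQ)

/-- The algebraic integers fixed by `H`. -/
noncomputable abbrev OH : Subalgebra ℤ Zbar := FixedPoints.subalgebra ℤ Zbar H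

instance instSMulCommOH : SMulCommClass H (OH H) Zbar :=
  ⟨fun h a b => by
    change h • ((a : Zbar) * b) = (a : Zbar) * (h • b)
    rw [smul_mul', a.2 h]⟩

instance instIsInvariantOH : Algebra.IsInvariant (OH H) Zbar H :=
  ⟨fun x h => ⟨⟨x, h⟩, rfl⟩⟩

theorem mem_OH (a : Zbar) : a ∈ OH H ↔ ∀ h : H, h • a = a := Iff.rfl

variable {H}

theorem smul_mem_OH [hN : H.Normal] (x : GQ) {a : Zbar} (ha : a ∈ OH H) : x • a ∈ OH H := by
  intro h
  have h1 : x⁻¹ * (h : GQ) * x ∈ H := hN.conj_mem' _ h.2 x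
  have h2 : (x⁻¹ * (h : GQ) * x) • a = a := ha ⟨_, h1⟩
  change (h : GQ) • x • a = x • a
  calc (h : GQ) • x • a = x • ((x⁻¹ * (h : GQ) * x) • a) := by
        simp only [← mul_smul]; congr 1; group
    _ = x • a := by rw [h2]

theorem ideal_mul_smul (x y : GQ) (Q : Ideal Zbar) : (x * y) • Q = x • y • Q :=
  (Ideal.pointwiseDistribMulAction (M := GQ) (R := Zbar)).mul_smul x y Q

theorem ideal_inv_smul {x : GQ} {Q : Ideal Zbar} (h : x • Q = Q) : x⁻¹ • Q = Q := by
  have h1 : x⁻¹ • (x • Q) = Q := by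
    rw [← ideal_mul_smul, inv_mul_cancel]
    exact (Ideal.pointwiseDistribMulAction (M := GQ) (R := Zbar)).one_smul Q
  rwa [h] at h1

/-- Lifting an element which is "inertial on the `H`-fixed integers" to a genuine inertia element
of the prime `Q` of `Zbar`, modulo `H`. -/
theorem exists_mul_mem_inertia [hN : H.Normal] (hH : IsClosed (H : Set GQ))
    (Q : Ideal Zbar) [Q.IsPrime] (g : GQ)
    (hg : ∀ a ∈ OH H, g • a - a ∈ Q) :
    ∃ h ∈ H, (h * g) • Q = Q ∧ ∀ b : Zbar, (h * g) • b - b ∈ Q := by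
  have : CompactSpace H := isCompact_iff_compactSpace.mp hH.isCompact
  have hunder : Q.under (OH H) = (g • Q).under (OH H) := by
    ext a
    rw [Ideal.mem_comap, Ideal.mem_comap]
    change (a : Zbar) ∈ Q ↔ (a : Zbar) ∈ g • Q
    rw [Ideal.mem_pointwise_smul_iff_inv_smul_mem]
    have h1 := hg (g⁻¹ • (a : Zbar)) (smul_mem_OH g⁻¹ a.2)
    rw [smul_inv_smul] at h1
    constructor
    · intro h
      have := Q.sub_mem h h1
      simpa using this
    · intro h
      have := Q.add_mem h h1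
      simpa using this
  obtain ⟨h, hh⟩ := Algebra.IsInvariant.exists_smul_of_under_eq_of_profinite
    (A := OH H) (G := H) Q (g • Q) hunder
  have hh' : g • Q = (h : GQ) • Q := hh
  -- first correction
  set g₁ : GQ := (h : GQ)⁻¹ * g with hg₁
  have hstab : g₁ • Q = Q := by
    rw [hg₁, ideal_mul_smul, hh', ← ideal_mul_smul, inv_mul_cancel]
    exact (Ideal.pointwiseDistribMulAction (M := GQ) (R := Zbar)).one_smul Q
  have hg₁a : ∀ a ∈ OH H, g₁ • a - a ∈ Q := by
    intro a ha
    have h1 : (h⁻¹ : H) • (g • a) = g • a := smul_mem_OH g ha h⁻¹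
    have h2 : g₁ • a = g • a := by
      rw [hg₁, mul_smul]
      exact h1
    rw [h2]
    exact hg a ha
  let f : (Zbar ⧸ Q) ≃+* (Zbar ⧸ Q) :=
    (Ideal.Quotient.stabilizerHom Q (Q.under ℤ) GQ ⟨g₁, hstab⟩).toRingEquiv
  have hf : ∀ b : Zbar, f (Ideal.Quotient.mk Q b) = Ideal.Quotient.mk Q (g₁ • b) := fun b => rfl
  let φ : (Zbar ⧸ Q) ≃ₐ[OH H ⧸ Q.under (OH H)] (Zbar ⧸ Q) :=
    AlgEquiv.ofRingEquiv (f := f) (by
      intro r
      obtain ⟨a, rfl⟩ := Ideal.Quotient.mk_surjective r
      change f (Ideal.Quotient.mk Q (a : Zbar)) = Ideal.Quotient.mk Q (a : Zbar)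
      rw [hf]
      exact Ideal.Quotient.eq.mpr (hg₁a a a.2))
  obtain ⟨h', hh'⟩ := Ideal.Quotient.stabilizerHom_surjective_of_profinite (G := H)
    (Q.under (OH H)) Q φ
  have hh'Q : ((h' : H) : GQ) • Q = Q := h'.2
  have hh'b : ∀ b : Zbar, ((h' : H) : GQ) • b - g₁ • b ∈ Q := by
    intro b
    have h1 := DFunLike.congr_fun hh' (Ideal.Quotient.mk Q b)
    rw [Ideal.Quotient.stabilizerHom_apply] at h1
    exact Ideal.Quotient.eq.mp h1
  refine ⟨((h' : H) : GQ)⁻¹ * (h : GQ)⁻¹, H.mul_mem (H.inv_mem h'.1.2) (H.inv_mem h.2), ?_, ?_⟩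
  · rw [mul_assoc, ← hg₁, ideal_mul_smul, hstab]
    exact ideal_inv_smul hh'Q
  · intro b
    rw [mul_assoc, ← hg₁, mul_smul]
    have h1 : ((h' : H) : GQ)⁻¹ • (g₁ • b - ((h' : H) : GQ) • b) ∈ ((h' : H) : GQ)⁻¹ • Q := by
      rw [Ideal.smul_mem_pointwise_smul_iff]
      have := Q.neg_mem (hh'b b)
      simpa using this
    have h2 : ((h' : H) : GQ)⁻¹ • Q = Q := ideal_inv_smul hh'Q
    rw [h2, smul_sub, inv_smul_smul] at h1
    exact h1

end Setup

section Convert

/-- An inertia element of the prime `primeOf V` of `Zbar` lies in the inertia subgroup of `V`. -/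
theorem mem_inertiaSubgroupIn (V : ValuationSubring (AlgebraicClosure ℚ)) {l : ℕ}
    (hl : l.Prime) (hlV : V.LiesOverPrime l) (σ : GQ)
    (hσQ : σ • primeOf V = primeOf V) (hσ : ∀ b : Zbar, σ • b - b ∈ primeOf V) :
    σ ∈ V.inertiaSubgroupIn ℚ := by
  have hσinv : σ⁻¹ • primeOf V = primeOf V := ideal_inv_smul hσQ
  have hdec : σ ∈ V.decompositionSubgroup ℚ := by
    rw [MulAction.mem_stabilizer_iff]
    apply le_antisymm
    · rw [ValuationSubring.pointwise_smul_subset_iff]
      intro x hx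
      rw [ValuationSubring.mem_inv_pointwise_smul_iff]
      exact map_mem_of_stabilizer V hl hlV σ hσQ x hx
    · intro x hx
      rw [ValuationSubring.mem_pointwise_smul_iff_inv_smul_mem]
      exact map_mem_of_stabilizer V hl hlV σ⁻¹ hσinv x hx
  refine ⟨⟨σ, hdec⟩, ?_, rfl⟩
  change (⟨σ, hdec⟩ : V.decompositionSubgroup ℚ) ∈ V.inertiaSubgroup ℚ
  rw [ValuationSubring.inertiaSubgroup, MonoidHom.mem_ker]
  ext xbar
  obtain ⟨x, rfl⟩ := IsLocalRing.residue_surjective xbar
  change (⟨σ, hdec⟩ : V.decompositionSubgroup ℚ) • IsLocalRing.residue V x = IsLocalRing.residue V x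
  rw [← IsLocalRing.ResidueField.residue_smul, ← sub_eq_zero, ← map_sub,
    IsLocalRing.residue_eq_zero_iff, ← ValuationSubring.coe_mem_nonunits_iff]
  change σ (x : AlgebraicClosure ℚ) - (x : AlgebraicClosure ℚ) ∈ V.nonunits
  obtain ⟨s, hs, hsu, hsx⟩ := exists_unit_mul_isIntegral V hl hlV x x.2
  have hs1 : V.valuation s = 1 := val_eq_one V (mem_of_isIntegral V hs) hsu
  have h1 := (mem_primeOf V _).mp (hσ ⟨s, hs⟩)
  have h2 := (mem_primeOf V _).mp (hσ ⟨s * x, hsx⟩)
  have h1' : σ s - s ∈ V.nonunits := h1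
  have h2' : σ (s * x) - (s * x) ∈ V.nonunits := h2
  have hσs1 : V.valuation (σ s) = 1 := by
    refine val_eq_one V (mem_of_isIntegral V (map_isIntegral_int σ hs)) ?_
    have h3 : σ s = s + (σ s - s) := by ring
    rw [h3]
    refine not_mem_nonunits_add V ?_ h1'
    rw [ValuationSubring.mem_nonunits_iff, hs1]
    exact lt_irrefl _
  have hkey : (σ (x : AlgebraicClosure ℚ) - (x : AlgebraicClosure ℚ)) * σ s =
      (σ (s * x) - (s * x)) + (-(σ s - s)) * (x : AlgebraicClosure ℚ) := by
    rw [map_mul]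
    ring
  have h4 : (σ (x : AlgebraicClosure ℚ) - (x : AlgebraicClosure ℚ)) * σ s ∈ V.nonunits := by
    rw [hkey]
    exact add_mem h2' (mul_mem_nonunits V (neg_mem h1') x.2)
  rw [ValuationSubring.mem_nonunits_iff] at h4 ⊢
  rwa [map_mul, hσs1, mul_one] at h4

end Convert

section Finite

variable (H : Subgroup GQ)

/-- The fixed field of `H`. -/
noncomputable abbrev KH : IntermediateField ℚ (AlgebraicClosure ℚ) := IntermediateField.fixedField H

noncomputable instance instAlgebraOHKH : Algebra (OH H) (KH H) :=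
  RingHom.toAlgebra
    { toFun := fun a => ⟨((a : Zbar) : AlgebraicClosure ℚ), fun h => congrArg Subtype.val (a.2 h)⟩
      map_one' := rfl
      map_mul' := fun _ _ => rfl
      map_zero' := rfl
      map_add' := fun _ _ => rfl }

theorem algebraMap_OH_KH (a : OH H) :
    ((algebraMap (OH H) (KH H) a : KH H) : AlgebraicClosure ℚ) = ((a : Zbar) : AlgebraicClosure ℚ) :=
  rfl

instance instIsIntegralClosureOH : IsIntegralClosure (OH H) ℤ (KH H) where
  algebraMap_injective a b hab := by
    apply Subtype.ext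
    apply Subtype.ext
    exact congrArg (fun z : KH H => (z : AlgebraicClosure ℚ)) hab
  isIntegral_iff {x} := by
    constructor
    · intro hx
      have hx' : IsIntegral ℤ (x : AlgebraicClosure ℚ) :=
        hx.map (IsScalarTower.toAlgHom ℤ (KH H) (AlgebraicClosure ℚ))
      refine ⟨⟨⟨x, hx'⟩, fun h => Subtype.ext (x.2 h)⟩, rfl⟩
    · rintro ⟨a, rfl⟩
      have h1 : IsIntegral ℤ ((algebraMap (OH H) (KH H) a : KH H) : AlgebraicClosure ℚ) :=
        (a : Zbar).2
      exact (isIntegral_algebraMap_iff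
        (algebraMap (KH H) (AlgebraicClosure ℚ)).injective).mp h1

variable {H}

theorem KH_fixingSubgroup (hH : IsClosed (H : Set GQ)) : (KH H).fixingSubgroup = H :=
  InfiniteGalois.fixingSubgroup_fixedField ⟨H, hH⟩

theorem mem_of_forall_OH (hH : IsClosed (H : Set GQ)) (g : GQ)
    (hg : ∀ a ∈ OH H, g • a = a) : g ∈ H := by
  rw [← KH_fixingSubgroup hH, IntermediateField.mem_fixingSubgroup_iff]
  intro x hx
  have halg : IsAlgebraic ℤ x :=
    (IsFractionRing.isAlgebraic_iff ℤ ℚ (AlgebraicClosure ℚ)).mpr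
      (Algebra.IsAlgebraic.isAlgebraic x)
  obtain ⟨n, hn0, hn⟩ := halg.exists_integral_multiple
  have hmem : (⟨n • x, hn⟩ : Zbar) ∈ OH H := by
    intro h
    apply Subtype.ext
    change (h : GQ) (n • x) = n • x
    rw [map_zsmul]
    congr 1
    exact hx h
  have h1 := congrArg Subtype.val (hg _ hmem)
  change g (n • x) = n • x at h1
  rw [map_zsmul] at h1
  exact smul_right_injective _ hn0 h1

theorem isGaloisGroup_OH [hN : H.Normal] (hH : IsClosed (H : Set GQ)) :
    IsGaloisGroup (GQ ⧸ H) ℤ (OH H) where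
  faithful := ⟨by
    intro x y hxy
    obtain ⟨g₁, rfl⟩ := QuotientGroup.mk_surjective x
    obtain ⟨g₂, rfl⟩ := QuotientGroup.mk_surjective y
    rw [QuotientGroup.eq]
    apply mem_of_forall_OH hH
    intro a ha
    have h1 := congrArg Subtype.val (hxy ⟨a, ha⟩)
    change g₁ • a = g₂ • a at h1
    rw [mul_smul, ← h1, inv_smul_smul]⟩
  commutes := inferInstance
  isInvariant := inferInstance

theorem exists_ramified [hN : H.Normal] (hopen : IsOpen (H : Set GQ)) (hne : H ≠ ⊤) :
    ∃ q : ℕ, q.Prime ∧ ∀ (P : Ideal (OH H)) [P.IsPrime], (q : OH H) ∈ P →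
      ∃ g : GQ, g ∉ H ∧ ∀ a : OH H, (⟨g • (a : Zbar), smul_mem_OH g a.2⟩ : OH H) - a ∈ P := by
  have hclosed : IsClosed (H : Set GQ) := Subgroup.isClosed_of_isOpen H hopen
  have hfix := KH_fixingSubgroup hclosed
  have hfd : FiniteDimensional ℚ (KH H) := by
    rw [← InfiniteGalois.isOpen_iff_finite, hfix]
    exact hopen
  have hnf : NumberField (KH H) := { to_charZero := inferInstance, to_finiteDimensional := hfd }
  have hgal : IsGalois ℚ (KH H) := by
    have h0 : (DivisionRing.toRatAlgebra : Algebra ℚ (KH H)) = IntermediateField.algebra' _ :=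
      Subsingleton.elim _ _
    rw [h0, ← InfiniteGalois.normal_iff_isGalois, hfix]
    exact hN
  have hic : @IsIntegralClosure (OH H) ℤ (KH H) _ _ _ (Ring.toIntAlgebra _) _ := by
    convert instIsIntegralClosureOH H
    exact Subsingleton.elim _ _
  have hrank : 1 < Module.finrank ℚ (KH H) := by
    by_contra hcon
    have h1 : Module.finrank ℚ (KH H) = 1 := by
      have := Module.finrank_pos (R := ℚ) (M := KH H)
      omega
    have h2 : KH H = ⊥ := IntermediateField.finrank_eq_one_iff.mp h1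
    rw [h2, IntermediateField.fixingSubgroup_bot] at hfix
    exact hne hfix.symm
  obtain ⟨q, hq, hram⟩ := NumberField.exists_not_isUnramifiedAt_int_of_isGalois
    (K := KH H) (𝒪 := OH H) hrank
  refine ⟨q, hq, fun P _ hqP => ?_⟩
  have h1 := hram P inferInstance hqP
  have := (IsIntegralClosure.algebraMap_injective (OH H) ℤ (KH H)).isDomain
  have := IsIntegralClosure.isDedekindDomain ℤ ℚ (KH H) (OH H)
  have := IsIntegralClosure.isFractionRing_of_finite_extension ℤ ℚ (KH H) (OH H)
  have := IsIntegralClosure.finite ℤ ℚ (KH H) (OH H)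
  have := CharZero.of_module (R := OH H) (KH H)
  rw [← Ideal.ramificationIdx_eq_one_iff] at h1
  have := isGaloisGroup_OH (H := H) hclosed
  have : Finite (GQ ⧸ H) := Subgroup.quotient_finite_of_isOpen H hopen
  have h2 := Ideal.card_inertia_eq_ramificationIdxIn (G := GQ ⧸ H) (P.under ℤ) P
  rw [Ideal.ramificationIdxIn_eq_ramificationIdx (P.under ℤ) P (GQ ⧸ H)] at h2
  have h3 : Nat.card (Ideal.inertia (GQ ⧸ H) P) ≠ 1 := by
    rw [h2]
    convert h1 using 3
    exact Subsingleton.elim _ _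
  have h4 : Ideal.inertia (GQ ⧸ H) P ≠ ⊥ := by
    intro h5
    apply h3
    rw [h5]
    exact Subgroup.card_bot
  obtain ⟨⟨x, hx⟩, hx1⟩ := Subgroup.ne_bot_iff_exists_ne_one.mp h4
  obtain ⟨g, rfl⟩ := QuotientGroup.mk_surjective x
  refine ⟨g, fun hgH => hx1 (Subtype.ext ((QuotientGroup.eq_one_iff g).mpr hgH)), fun a => ?_⟩
  exact hx a

end Finite

section Main

/-- **Minkowski, Galois form.** An open normal subgroup of `G_ℚ` which, for every prime `q`,
contains the inertia subgroup of some valuation subring over `q`, is everything. -/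
theorem eq_top_of_exists_inertia_le (H : Subgroup GQ) [H.Normal] (hopen : IsOpen (H : Set GQ))
    (hin : ∀ q : ℕ, q.Prime → ∃ A : ValuationSubring (AlgebraicClosure ℚ), A.LiesOverPrime q ∧
      A.inertiaSubgroupIn ℚ ≤ H) : H = ⊤ := by
  by_contra hne
  obtain ⟨q, hq, hram⟩ := exists_ramified hopen hne
  obtain ⟨V, hV, hVH⟩ := hin q hq
  have hclosed := Subgroup.isClosed_of_isOpen H hopen
  have hqP : (q : OH H) ∈ (primeOf V).under (OH H) := by
    rw [Ideal.mem_comap, mem_primeOf]
    have hV' : (q : AlgebraicClosure ℚ) ∈ V.nonunits := hV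
    simpa using hV'
  obtain ⟨g, hgH, hg⟩ := hram ((primeOf V).under (OH H)) hqP
  obtain ⟨h, hh, hQ, hb⟩ := exists_mul_mem_inertia hclosed (primeOf V) g
    (fun a ha => hg ⟨a, ha⟩)
  have h1 := hVH (mem_inertiaSubgroupIn V hq hV (h * g) hQ hb)
  exact hgH ((H.mul_mem_cancel_left hh).mp h1)

/-- **Minkowski, Galois form.** An open normal subgroup of `G_ℚ` containing all inertia subgroups
is everything. -/
theorem eq_top_of_inertia_le (H : Subgroup GQ) [H.Normal] (hopen : IsOpen (H : Set GQ))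
    (hin : ∀ q : ℕ, q.Prime → ∀ A : ValuationSubring (AlgebraicClosure ℚ), A.LiesOverPrime q →
      A.inertiaSubgroupIn ℚ ≤ H) : H = ⊤ := by
  refine eq_top_of_exists_inertia_le H hopen fun q hq => ?_
  obtain ⟨V, hV⟩ := exists_valuationSubring q hq
  exact ⟨V, hV, hin q hq V hV⟩

/-- A subgroup of `G_ℚ` containing the pointwise stabiliser of a finite set is open. -/
theorem isOpen_of_finset (H : Subgroup GQ) (S : Finset (AlgebraicClosure ℚ))
    (hS : ∀ σ : GQ, (∀ s ∈ S, σ s = s) → σ ∈ H) : IsOpen (H : Set GQ) := by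
  have hfd : FiniteDimensional ℚ (IntermediateField.adjoin ℚ (S : Set (AlgebraicClosure ℚ))) :=
    IntermediateField.finiteDimensional_adjoin
      (fun x _ => (Algebra.IsAlgebraic.isAlgebraic x).isIntegral)
  refine Subgroup.isOpen_mono (H₁ := (IntermediateField.adjoin ℚ
    (S : Set (AlgebraicClosure ℚ))).fixingSubgroup) ?_
    (IntermediateField.fixingSubgroup_isOpen _)
  intro σ hσ
  apply hS
  intro s hs
  exact (IntermediateField.mem_fixingSubgroup_iff _ σ).mp hσ s
    (IntermediateField.subset_adjoin _ _ hs)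

end Main

end Fermat.Agent.S13.Mink

namespace Fermat.Agent.S13

/-- Block [G] of the interface. -/
theorem stmt_minkowski : Stmt_minkowski := fun H hN hopen hin =>
  haveI := hN
  Mink.eq_top_of_exists_inertia_le H hopen hin

end Fermat.Agent.S13
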