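import Mathlib

/-!
# S13: elementary group theory for the assembly
-/

set_option autoImplicit false

namespace Fermat.Agent.S13

/-- in a group of exponent `p`, `k • x = 0` with `x ≠ 0` forces `p ∣ k`. -/
theorem asm_dvd_of_zsmul_eq_zero {V : Type*} [AddCommGroup V] {p : ℕ} (hp : p.Prime)
    {x : V} (hpx : p • x = 0) (hx : x ≠ 0) {k : ℤ} (hk : k • x = 0) : (p : ℤ) ∣ k := by
  have := Fact.mk hp
  have h1 : addOrderOf x = p := addOrderOf_eq_prime hpx hx
  rw [← h1]
  exact addOrderOf_dvd_iff_zsmul_eq_zero.mpr hk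

theorem asm_zsmul_eq_zero_of_dvd {V : Type*} [AddCommGroup V] {p : ℕ}
    {x : V} (hpx : p • x = 0) {k : ℤ} (hk : (p : ℤ) ∣ k) : k • x = 0 := by
  obtain ⟨m, rfl⟩ := hk
  rw [mul_comm, mul_smul, natCast_zsmul, hpx, smul_zero]

/-- A "square zero" additive endomorphism of a group of order `p ^ 2` and exponent `p` preserving a
subgroup `L` of order `p` kills `L` and maps everything into `L`. -/
theorem asm_unipotent {V : Type*} [AddCommGroup V] {p : ℕ} (hp : p.Prime)
    (hV : Nat.card V = p ^ 2) (hpV : ∀ x : V, p • x = 0) (L : AddSubgroup V)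
    (hL : Nat.card L = p) (N : V →+ V) (hNN : ∀ x, N (N x) = 0) (hNL : ∀ x ∈ L, N x ∈ L) :
    (∀ x ∈ L, N x = 0) ∧ ∀ x, N x ∈ L := by
  have := Fact.mk hp
  have hpZ : Prime (p : ℤ) := Nat.prime_iff_prime_int.1 hp
  have h1 : ∀ x ∈ L, N x = 0 := by
    intro x hx
    by_cases hx0 : x = 0
    · rw [hx0, map_zero]
    have hx0' : (⟨x, hx⟩ : L) ≠ 0 := fun h => hx0 (congrArg Subtype.val h)
    have hmem : (⟨N x, hNL x hx⟩ : L) ∈ AddSubgroup.zmultiples (⟨x, hx⟩ : L) :=
      mem_zmultiples_of_prime_card hL hx0'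
    obtain ⟨k, hk⟩ := AddSubgroup.mem_zmultiples_iff.1 hmem
    have hk' : k • x = N x := congrArg Subtype.val hk
    have h2 : (k * k) • x = 0 := by
      rw [mul_smul, hk', ← map_zsmul, hk', hNN]
    have h3 : (p : ℤ) ∣ k := by
      rcases hpZ.dvd_or_dvd (asm_dvd_of_zsmul_eq_zero hp (hpV x) hx0 h2) with h | h <;> exact h
    rw [← hk', asm_zsmul_eq_zero_of_dvd (hpV x) h3]
  refine ⟨h1, fun x => ?_⟩
  have hQ : Nat.card (V ⧸ L) = p := by
    have := AddSubgroup.card_eq_card_quotient_mul_card_addSubgroup L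
    rw [hV, hL, sq] at this
    exact (Nat.eq_of_mul_eq_mul_right hp.pos this).symm
  by_cases hx : x ∈ L
  · rw [h1 x hx]; exact L.zero_mem
  have hx0 : (QuotientAddGroup.mk x : V ⧸ L) ≠ 0 := by
    rwa [Ne, QuotientAddGroup.eq_zero_iff]
  have hmem : (QuotientAddGroup.mk (N x) : V ⧸ L) ∈
      AddSubgroup.zmultiples (QuotientAddGroup.mk x : V ⧸ L) :=
    mem_zmultiples_of_prime_card hQ hx0
  obtain ⟨k, hk⟩ := AddSubgroup.mem_zmultiples_iff.1 hmem
  have hl : N x - k • x ∈ L := by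
    rw [← QuotientAddGroup.eq_zero_iff, QuotientAddGroup.mk_sub, QuotientAddGroup.mk_zsmul, hk,
      sub_self]
  have h2 : k • N x = 0 := by
    have e : N x = k • x + (N x - k • x) := by abel
    have := hNN x
    rw [e, map_add, map_zsmul, h1 _ hl, add_zero] at this
    exact this
  have h3 : (k * k) • (QuotientAddGroup.mk x : V ⧸ L) = 0 := by
    rw [mul_smul, hk, ← QuotientAddGroup.mk_zsmul, h2]
    rfl
  have hpx : p • (QuotientAddGroup.mk x : V ⧸ L) = 0 := by
    rw [← QuotientAddGroup.mk_nsmul, hpV]; rfl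
  have h4 : (p : ℤ) ∣ k := by
    rcases hpZ.dvd_or_dvd (asm_dvd_of_zsmul_eq_zero hp hpx hx0 h3) with h | h <;> exact h
  have h5 : k • x = 0 := asm_zsmul_eq_zero_of_dvd (hpV x) h4
  rwa [h5, sub_zero] at hl

end Fermat.Agent.S13
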