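import Fermat.Agent.S13.Interface
import Fermat.Agent.S13.GroupAux
import Fermat.Agent.S05

/-!
# S13: assembly of the blocks
-/

set_option autoImplicit false

namespace Fermat.Agent.S13

open WeierstrassCurve WeierstrassCurve.Affine WeierstrassCurve.Affine.Point

theorem asm_exists_valuationSubring (l : ℕ) (hl : l.Prime) :
    ∃ V : ValuationSubring Qb, V.LiesOverPrime l := by
  let A : Subring Qb := (Int.castRingHom Qb).range
  let lA : A := ⟨(l : Qb), ⟨(l : ℤ), by simp⟩⟩
  have hI : Ideal.span {lA} ≠ ⊤ := by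
    intro h
    rw [Ideal.span_singleton_eq_top] at h
    obtain ⟨⟨_, ⟨n, rfl⟩⟩, hn⟩ := isUnit_iff_exists_inv.mp h
    have h1 : ((l : ℤ) * n : ℤ) = 1 := by
      have h2 := congrArg Subtype.val hn
      have h3 : ((l : Qb)) * ((n : ℤ) : Qb) = 1 := h2
      exact_mod_cast h3
    have h4 : IsUnit (l : ℤ) := IsUnit.of_mul_eq_one _ h1
    exact (Nat.prime_iff_prime_int.mp hl).not_isUnit h4
  obtain ⟨V, -, hV⟩ := Ideal.image_subset_nonunits_valuationSubring _ hI
  exact ⟨V, hV ⟨lA, Ideal.subset_span rfl, rfl⟩⟩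

theorem asm_isAlgebraic : Algebra.IsAlgebraic ℚ Qb := by
  have h : (DivisionRing.toRatAlgebra : Algebra ℚ Qb) = AlgebraicClosure.instAlgebra ℚ :=
    Subsingleton.elim _ _
  rw [h]
  infer_instance

variable {P : FreyPackage}

/-- the subgroup acting trivially on `V / L`. -/
def asmH2 (L : Submodule (ZMod P.p) (Tors P)) (hL : IsGaloisStable ℚ L) : Subgroup GQ where
  carrier := {σ | ∀ x : Tors P, σ • x - x ∈ L}
  one_mem' := by
    intro x
    simp
  mul_mem' := by
    intro σ τ hσ hτ x
    have : (σ * τ) • x - x = σ • (τ • x - x) + (σ • x - x) := by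
      rw [mul_smul, smul_sub]; abel
    rw [this]
    exact L.add_mem (hL σ _ (hτ x)) (hσ x)
  inv_mem' := by
    intro σ hσ x
    have : σ⁻¹ • x - x = -(σ⁻¹ • (σ • x - x)) := by
      rw [smul_sub, inv_smul_smul]; abel
    rw [this]
    exact L.neg_mem (hL σ⁻¹ _ (hσ x))

/-- the subgroup acting trivially on `L`. -/
def asmH1 (L : Submodule (ZMod P.p) (Tors P)) : Subgroup GQ where
  carrier := {σ | ∀ x ∈ L, σ • x = x}
  one_mem' := by
    intro x _
    simp
  mul_mem' := by
    intro σ τ hσ hτ x hx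
    rw [mul_smul, hτ x hx, hσ x hx]
  inv_mem' := by
    intro σ hσ x hx
    rw [inv_smul_eq_iff, hσ x hx]

theorem asmH2_normal (L : Submodule (ZMod P.p) (Tors P)) (hL : IsGaloisStable ℚ L) :
    (asmH2 L hL).Normal := by
  constructor
  intro σ hσ g x
  have : (g * σ * g⁻¹) • x - x = g • (σ • (g⁻¹ • x) - g⁻¹ • x) := by
    rw [smul_sub, mul_smul, mul_smul, smul_inv_smul]
  rw [this]
  exact hL g _ (hσ _)

theorem asmH1_normal (L : Submodule (ZMod P.p) (Tors P)) (hL : IsGaloisStable ℚ L) :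
    (asmH1 L).Normal := by
  constructor
  intro σ hσ g x hx
  rw [mul_smul, mul_smul, hσ _ (hL g⁻¹ x hx), smul_inv_smul]

/-- the stabiliser of a point is open. -/
theorem asm_isOpen_stabilizer (Q : (P.freyCurve⁄Qb).Point) :
    IsOpen ((MulAction.stabilizer GQ Q : Subgroup GQ) : Set GQ) := by
  rcases Q with _ | ⟨x, y, h⟩
  · have : (MulAction.stabilizer GQ (Point.zero : (P.freyCurve⁄Qb).Point)) = ⊤ := by
      ext σ
      simp only [MulAction.mem_stabilizer_iff, Subgroup.mem_top, iff_true]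
      rfl
    rw [this]
    exact isOpen_univ
  · have := asm_isAlgebraic
    have h1 := stabilizer_isOpen_of_isIntegral (K := ℚ) (L := Qb) x
    have h2 := stabilizer_isOpen_of_isIntegral (K := ℚ) (L := Qb) y
    have h3 : IsOpen (((MulAction.stabilizer GQ x ⊓ MulAction.stabilizer GQ y : Subgroup GQ)) :
        Set GQ) := h1.inter h2
    refine Subgroup.isOpen_mono ?_ h3
    intro σ hσ
    rw [Subgroup.mem_inf, MulAction.mem_stabilizer_iff, MulAction.mem_stabilizer_iff] at hσ
    rw [MulAction.mem_stabilizer_iff, algEquiv_smul_def, Point.map_some]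
    simp only [Point.some.injEq]
    exact hσ

theorem asm_isOpen_of_fix_le [Finite (Tors P)] (H : Subgroup GQ)
    (hH : ∀ σ : GQ, (∀ x : Tors P, σ • x = x) → σ ∈ H) : IsOpen (H : Set GQ) := by
  have h3 : IsOpen (((⨅ x : Tors P, MulAction.stabilizer GQ (x : (P.freyCurve⁄Qb).Point) :
      Subgroup GQ)) : Set GQ) := by
    rw [Subgroup.coe_iInf]
    exact isOpen_iInter_of_finite fun x => asm_isOpen_stabilizer _
  refine Subgroup.isOpen_mono ?_ h3
  intro σ hσ
  rw [Subgroup.mem_iInf] at hσ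
  exact hH σ fun x => Subtype.ext (MulAction.mem_stabilizer_iff.1 (hσ x))

theorem asm_nsmul_eq_zero (x : Tors P) : P.p • x = 0 := by
  have := Submodule.smul_torsionBy ((P.p : ℕ) : ℤ) x
  rwa [natCast_zsmul] at this

theorem asm_card_line (hcard : Nat.card (Tors P) = P.p ^ 2) (L : Submodule (ZMod P.p) (Tors P))
    (hb : L ≠ ⊥) (ht : L ≠ ⊤) : Nat.card L = P.p := by
  have hfin : Finite (Tors P) := Nat.finite_of_card_ne_zero (by
    rw [hcard]; exact pow_ne_zero 2 P.pp.ne_zero)
  have hdvd : Nat.card L.toAddSubgroup ∣ Nat.card (Tors P) :=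
    AddSubgroup.card_addSubgroup_dvd_card _
  rw [hcard, Nat.dvd_prime_pow P.pp] at hdvd
  obtain ⟨m, hm, hc⟩ := hdvd
  interval_cases m
  · exfalso
    apply hb
    have := AddSubgroup.eq_bot_of_card_eq _ (hc.trans (pow_zero _))
    rw [eq_bot_iff]
    intro x hx
    have hx' : x ∈ L.toAddSubgroup := hx
    rw [this] at hx'
    exact hx'
  · simpa using hc
  · exfalso
    apply ht
    have := AddSubgroup.eq_top_of_card_eq _ (hc.trans hcard.symm)
    rw [eq_top_iff]
    intro x _
    have hx' : x ∈ L.toAddSubgroup := by rw [this]; trivial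
    exact hx'

/-- **Assembly**: the five blocks imply S13. -/
theorem result_of (h1 : Stmt_card) (h2 : Stmt_two) (h3 : Stmt_atp) (h4 : Stmt_noRat)
    (h5 : Stmt_minkowski) (P : FreyPackage)
    (hred : ¬ GaloisRepIsIrreducible (K := Qb) ℚ P.freyCurve P.p) :
    HasGaloisStableCofixedLine (K := Qb) ℚ P.freyCurve P.p := by
  have hp := P.pp
  have hcard := h1 P
  have hfin : Finite (Tors P) := Nat.finite_of_card_ne_zero (by
    rw [hcard]; exact pow_ne_zero 2 hp.ne_zero)
  have hnt : Nontrivial (Tors P) := by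
    apply Finite.one_lt_card_iff_nontrivial.1
    rw [hcard]
    exact Nat.one_lt_pow two_ne_zero hp.one_lt
  obtain ⟨L, hLs, hLb, hLt⟩ : ∃ L : Submodule (ZMod P.p) (Tors P),
      IsGaloisStable ℚ L ∧ L ≠ ⊥ ∧ L ≠ ⊤ := by
    by_contra hcon
    push Not at hcon
    refine hred ⟨hnt, fun N hN => ?_⟩
    by_cases hb : N = ⊥
    · exact Or.inl hb
    · exact Or.inr (hcon N hN hb)
  have hLcard : Nat.card L = P.p := asm_card_line hcard L hLb hLt
  -- the two subgroups are open
  have hO1 : IsOpen ((asmH1 L : Subgroup GQ) : Set GQ) :=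
    asm_isOpen_of_fix_le _ fun σ hσ x _ => hσ x
  have hO2 : IsOpen ((asmH2 L hLs : Subgroup GQ) : Set GQ) :=
    asm_isOpen_of_fix_le _ fun σ hσ x => by rw [hσ x, sub_self]; exact L.zero_mem
  -- inertia away from `p`
  have hin : ∀ q : ℕ, q.Prime → q ≠ P.p → ∀ A : ValuationSubring Qb, A.LiesOverPrime q →
      A.inertiaSubgroupIn ℚ ≤ asmH1 L ⊓ asmH2 L hLs := by
    intro q hq hqp A hA σ hσ
    by_cases hq2 : q = 2
    · subst hq2
      let N : Tors P →+ Tors P :=
        DistribSMul.toAddMonoidHom (Tors P) σ - AddMonoidHom.id (Tors P)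
      have hN : ∀ x, N x = σ • x - x := fun x => rfl
      have hu := asm_unipotent hp hcard asm_nsmul_eq_zero L.toAddSubgroup hLcard N
        (fun x => by rw [hN, hN, h2 P A hA σ hσ x, sub_self])
        (fun x hx => by rw [hN]; exact L.sub_mem (hLs σ x hx) hx)
      refine ⟨fun x hx => ?_, fun x => ?_⟩
      · have := hu.1 x hx
        rw [hN] at this
        exact sub_eq_zero.1 this
      · have := hu.2 x
        rw [hN] at this
        exact this
    · have hfix := S05.result P hq hq2 hqp A hA σ hσ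
      refine ⟨fun x _ => hfix x, fun x => ?_⟩
      have e : σ • x = x := hfix x
      rw [e, sub_self]
      exact L.zero_mem
  obtain ⟨A₀, hA₀⟩ := asm_exists_valuationSubring P.p hp
  rcases h3 P A₀ hA₀ L hLs hLcard with hcase | hcase
  · -- `H2 = ⊤`
    have htop : asmH2 L hLs = ⊤ := by
      apply h5 _ (asmH2_normal L hLs) hO2
      intro q hq
      by_cases hqp : q = P.p
      · subst hqp
        exact ⟨A₀, hA₀, fun σ hσ => hcase σ hσ⟩
      · obtain ⟨A, hA⟩ := asm_exists_valuationSubring q hq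
        exact ⟨A, hA, (hin q hq hqp A hA).trans inf_le_right⟩
    refine ⟨L, hLs, hLb, hLt, fun σ x => ?_⟩
    have : σ ∈ asmH2 L hLs := by rw [htop]; trivial
    exact this x
  · -- `H1 = ⊤`: contradiction
    exfalso
    have htop : asmH1 L = ⊤ := by
      apply h5 _ (asmH1_normal L hLs) hO1
      intro q hq
      by_cases hqp : q = P.p
      · subst hqp
        exact ⟨A₀, hA₀, fun σ hσ => hcase σ hσ⟩
      · obtain ⟨A, hA⟩ := asm_exists_valuationSubring q hq
        exact ⟨A, hA, (hin q hq hqp A hA).trans inf_le_left⟩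
    apply hLb
    rw [eq_bot_iff]
    intro x hx
    have : x = 0 := h4 P x fun σ => by
      have : σ ∈ asmH1 L := by rw [htop]; trivial
      exact this x hx
    rw [this]
    exact Submodule.zero_mem _

end Fermat.Agent.S13
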