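import Fermat.Agent.S13.Interface

/-!
# S13 / T9 : `Stmt_card` from `Stmt_model_card` (the transfer map is bijective)
-/

set_option autoImplicit false

namespace Fermat.Agent.S13

open WeierstrassCurve WeierstrassCurve.Affine WeierstrassCurve.Affine.Point

section general

variable {K : Type*} [Field K] [DecidableEq K]
variable {W₁ W₂ : WeierstrassCurve.Affine K} {ρ : K}

omit [DecidableEq K] in
/-- converse of `S05.IsTransfer.nonsingular`. -/
theorem T9_nonsingular_of (H : S05.IsTransfer W₁ W₂ ρ) {x y : K}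
    (h : W₂.Nonsingular (4 * x + ρ) (8 * y + 4 * x)) : W₁.Nonsingular x y := by
  rw [nonsingular_iff'] at h ⊢
  obtain ⟨he, hd⟩ := h
  rw [H.mc.equation_iff] at he
  rw [H.mc.a₁, H.mc.a₃] at hd
  have h2 := H.two
  have r1 := H.r1
  have r2 := H.r2
  have r3 := H.r3
  refine ⟨?_, ?_⟩
  · rw [equation_iff, H.a₁, H.a₃, H.a₆]
    rw [r2] at r3 he
    rw [r1] at r3 he
    have : (2 : K) ^ 6 * (y ^ 2 + 1 * x * y + 0 * y - (x ^ 3 + W₁.a₂ * x ^ 2 + W₁.a₄ * x + 0)) = 0 := by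
      linear_combination he + r3
    rcases mul_eq_zero.1 this with h | h
    · exact absurd h (pow_ne_zero 6 h2)
    · exact sub_eq_zero.1 h
  · rw [H.a₁, H.a₃]
    by_contra hc
    push Not at hc
    obtain ⟨c1, c2⟩ := hc
    rcases hd with hd | hd
    · apply hd
      rw [r2, r1]
      linear_combination 16 * c1 - 8 * c2
    · apply hd
      linear_combination 8 * c2

theorem T9_hom_surjective (H : S05.IsTransfer W₁ W₂ ρ) : Function.Surjective H.hom := by
  have h2 := H.two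
  have h4 : (4 : K) ≠ 0 := by
    have : (4 : K) = 2 ^ 2 := by norm_num
    rw [this]; exact pow_ne_zero 2 h2
  have h8 : (8 : K) ≠ 0 := by
    have : (8 : K) = 2 ^ 3 := by norm_num
    rw [this]; exact pow_ne_zero 3 h2
  rintro (_ | ⟨X, Y, h⟩)
  · exact ⟨0, rfl⟩
  · have e1 : 4 * ((X - ρ) / 4) + ρ = X := by field_simp; ring
    have e2 : 8 * ((Y - (X - ρ)) / 8) + 4 * ((X - ρ) / 4) = Y := by field_simp; ring
    have h' : W₂.Nonsingular (4 * ((X - ρ) / 4) + ρ) (8 * ((Y - (X - ρ)) / 8) + 4 * ((X - ρ) / 4)) := by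
      rw [e1, e2]; exact h
    refine ⟨Point.some _ _ (T9_nonsingular_of H h'), ?_⟩
    rw [S05.IsTransfer.hom_some]
    simp only [Point.some.injEq]
    exact ⟨e1, e2⟩

/-- the transfer map as an additive equivalence. -/
noncomputable def T9_equiv (H : S05.IsTransfer W₁ W₂ ρ) : W₁.Point ≃+ W₂.Point :=
  AddEquiv.ofBijective H.hom ⟨H.hom_injective, T9_hom_surjective H⟩

end general

theorem stmt_card (h : Stmt_model_card) : Stmt_card := by
  intro P
  have hw : (-(P.a * P.b)) ^ P.p ≠ 0 := pow_ne_zero _ (neg_ne_zero.2 (mul_ne_zero P.ha0 P.hb0))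
  have hdisc : (P.b ^ P.p - P.a ^ P.p) ^ 2 - 4 * (-(P.a * P.b)) ^ P.p ≠ 0 := by
    have e : (P.b ^ P.p - P.a ^ P.p) ^ 2 - 4 * (-(P.a * P.b)) ^ P.p = (P.c ^ P.p) ^ 2 := by
      rw [P.hp_odd.neg_pow, mul_pow, ← P.hFLT]; ring
    rw [e]
    exact pow_ne_zero _ (pow_ne_zero _ P.hc0)
  have hp2 : P.p ≠ 2 := by have := P.hp5; omega
  have hcard := h (P.b ^ P.p - P.a ^ P.p) ((-(P.a * P.b)) ^ P.p) hw hdisc P.p P.pp hp2
  have H := S05.isTransfer_frey P ((P.b ^ P.p - P.a ^ P.p : ℤ) : ℚ)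
      (((-(P.a * P.b)) ^ P.p : ℤ) : ℚ) 0
      (by simp only [FreyPackage.freyCurve]; push_cast; ring)
      (by simp only [FreyPackage.freyCurve]; push_cast; rw [P.hp_odd.neg_pow, mul_pow]; ring)
      (by ring)
  rw [← hcard]
  refine Nat.card_congr ?_
  refine (T9_equiv H).toEquiv.subtypeEquiv ?_
  intro x
  rw [Submodule.mem_torsionBy_iff, Nat.cast_smul_eq_nsmul]
  change _ ↔ P.p • (T9_equiv H) x = 0
  rw [← map_nsmul, AddEquiv.map_eq_zero_iff]

end Fermat.Agent.S13
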