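import Mathlib

/-!
# S13 / T2 : the abstract sequence lemma

`x k` plays the role of the `x`-coordinate of `k • P` for a non-torsion point `P`, `h k` the role of
the value at `P` of the `k`-th division polynomial.
-/

set_option autoImplicit false

namespace Fermat.Agent.S13

variable {K : Type*} [Field K]

/-- The key relation `x_m - x_n = - h_{m+n} h_{m-n} / (h_m h_n)^2`. -/
theorem seq_main (x h : ℤ → K)
    (hne : ∀ k : ℤ, 0 < k → h k ≠ 0)
    (hrec : ∀ k : ℤ, 0 < k → h (k + 1) * h (k - 1) = (x 1 - x k) * h k ^ 2)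
    (h1 : h 1 = 1)
    (hdup : ∀ m : ℤ, 2 < m →
      (x 2 - x m) * h 2 ^ 2 = (x (m + 1) - x 1) * (x (m - 1) - x 1) * (x 1 - x m) ^ 2)
    (hΘ : ∀ m n : ℤ, 1 < n → n + 1 < m →
      (x m - x (n + 1)) * (x m - x (n - 1)) * (x n - x 1) ^ 2 =
        (x m - x n) ^ 2 * (x 1 - x (m + n)) * (x 1 - x (m - n))) :
    ∀ n : ℕ, 0 < n → ∀ m : ℤ, (n : ℤ) < m →
      (x m - x n) * h m ^ 2 * h n ^ 2 = -(h (m + n) * h (m - n)) := by
  intro n
  induction n using Nat.strong_induction_on with
  | _ n ih =>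
    intro hn m hm
    rcases Nat.lt_or_ge n 2 with hn2 | hn2
    · -- n = 1
      obtain rfl : n = 1 := by omega
      have := hrec m (by push_cast at hm; omega)
      push_cast
      rw [h1]
      linear_combination this
    rcases Nat.lt_or_ge n 3 with hn3 | hn3
    · -- n = 2
      obtain rfl : n = 2 := by omega
      push_cast at hm ⊢
      have e0 := hdup m hm
      have e1 := hrec (m + 1) (by omega)
      have e2 := hrec (m - 1) (by omega)
      have e3 := hrec m (by omega)
      have r1 : m + 1 + 1 = m + 2 := by ring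
      have r2 : m + 1 - 1 = m := by ring
      have r3 : m - 1 + 1 = m := by ring
      have r4 : m - 1 - 1 = m - 2 := by ring
      rw [r1, r2] at e1
      rw [r3, r4] at e2
      have n1 := hne (m + 1) (by omega)
      have n2 := hne (m - 1) (by omega)
      have n3 := hne m (by omega)
      generalize h (m + 1) = p1 at *
      generalize h (m - 1) = p2 at *
      generalize h m = a at *
      generalize h (m + 2) = p3 at *
      generalize h (m - 2) = p4 at *
      generalize h 2 = b at *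
      have f1 : x (m + 1) - x 1 = -(p3 * a) / p1 ^ 2 := by
        field_simp; linear_combination e1
      have f2 : x (m - 1) - x 1 = -(a * p4) / p2 ^ 2 := by
        field_simp; linear_combination e2
      have f3 : x 1 - x m = p1 * p2 / a ^ 2 := by
        field_simp; linear_combination -e3
      rw [f1, f2, f3] at e0
      have : (x 2 - x m) * b ^ 2 * a ^ 2 = p3 * p4 := by
        rw [e0]; field_simp
      linear_combination -this
    · -- n ≥ 3 : step from n - 2, n - 1
      obtain ⟨k, rfl⟩ : ∃ k, n = k + 3 := ⟨n - 3, by omega⟩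
      push_cast at hm ⊢
      -- apply `hΘ` with `n := k + 2`
      have e0 := hΘ m (k + 2) (by omega) (by omega)
      have i1 := ih (k + 1) (by omega) (by omega) m (by push_cast; omega)
      have i2 := ih (k + 2) (by omega) (by omega) m (by push_cast; omega)
      push_cast at i1 i2
      have e2 := hrec (k + 2) (by omega)
      have e4 := hrec (m + (k + 2)) (by omega)
      have e5 := hrec (m - (k + 2)) (by omega)
      have r1 : (k : ℤ) + 2 + 1 = k + 3 := by ring
      have r2 : (k : ℤ) + 2 - 1 = k + 1 := by ring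
      have r3 : m + ((k : ℤ) + 2) + 1 = m + (k + 3) := by ring
      have r4 : m + ((k : ℤ) + 2) - 1 = m + (k + 1) := by ring
      have r5 : m - ((k : ℤ) + 2) + 1 = m - (k + 1) := by ring
      have r6 : m - ((k : ℤ) + 2) - 1 = m - (k + 3) := by ring
      rw [r1, r2] at e0 e2
      rw [r3, r4] at e4
      rw [r5, r6] at e5
      have na := hne m (by omega)
      have nb := hne (k + 2) (by omega)
      have n1 := hne (m + (k + 1)) (by omega)
      have n2 := hne (m - (k + 1)) (by omega)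
      have n3 := hne (k + 3) (by omega)
      have n4 := hne (k + 1) (by omega)
      have n5 := hne (m + (k + 2)) (by omega)
      have n6 := hne (m - (k + 2)) (by omega)
      generalize h m = a at *
      generalize h (k + 2) = b at *
      generalize h (m + (k + 1)) = p1 at *
      generalize h (m - (k + 1)) = p2 at *
      generalize h (k + 3) = p3 at *
      generalize h (k + 1) = p4 at *
      generalize h (m + (k + 2)) = p5 at *
      generalize h (m - (k + 2)) = p6 at *
      generalize h (m + (k + 3)) = p7 at *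
      generalize h (m - (k + 3)) = p8 at *
      have f1 : x m - x (k + 1) = -(p1 * p2) / (a ^ 2 * p4 ^ 2) := by
        field_simp; linear_combination i1
      have f2 : x (k + 2) - x 1 = -(p3 * p4) / b ^ 2 := by
        field_simp; linear_combination e2
      have f3 : x m - x (k + 2) = -(p5 * p6) / (a ^ 2 * b ^ 2) := by
        field_simp; linear_combination i2
      have f4 : x 1 - x (m + (k + 2)) = p7 * p1 / p5 ^ 2 := by
        field_simp; linear_combination -e4
      have f5 : x 1 - x (m - (k + 2)) = p2 * p8 / p6 ^ 2 := by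
        field_simp; linear_combination -e5
      rw [f1, f2, f3, f4, f5] at e0
      field_simp at e0
      linear_combination -e0

/-- The odd recurrence. -/
theorem seq_odd (x h : ℤ → K)
    (hrec : ∀ k : ℤ, 0 < k → h (k + 1) * h (k - 1) = (x 1 - x k) * h k ^ 2)
    (h1 : h 1 = 1)
    (hmain : ∀ n : ℕ, 0 < n → ∀ m : ℤ, (n : ℤ) < m →
      (x m - x n) * h m ^ 2 * h n ^ 2 = -(h (m + n) * h (m - n)))
    (m : ℕ) (hm : 0 < m) :
    h (2 * m + 1) = h (m + 2) * h m ^ 3 - h (m - 1) * h (m + 1) ^ 3 := by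
  have e1 := hmain m hm (m + 1) (by omega)
  have e2 := hrec (m + 1) (by omega)
  have e3 := hrec m (by omega)
  have r1 : (m : ℤ) + 1 + m = 2 * m + 1 := by ring
  have r2 : (m : ℤ) + 1 - m = 1 := by ring
  have r3 : (m : ℤ) + 1 + 1 = m + 2 := by ring
  have r4 : (m : ℤ) + 1 - 1 = m := by ring
  rw [r1, r2, h1] at e1
  rw [r3, r4] at e2
  linear_combination e1 - h m ^ 2 * e2 + h (m + 1) ^ 2 * e3

/-- The even recurrence. -/
theorem seq_even (x h : ℤ → K)
    (hrec : ∀ k : ℤ, 0 < k → h (k + 1) * h (k - 1) = (x 1 - x k) * h k ^ 2)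
    (hmain : ∀ n : ℕ, 0 < n → ∀ m : ℤ, (n : ℤ) < m →
      (x m - x n) * h m ^ 2 * h n ^ 2 = -(h (m + n) * h (m - n)))
    (m : ℕ) (hm : 1 < m) :
    h (2 * m) * h 2 = h (m - 1) ^ 2 * h m * h (m + 2) - h (m - 2) * h m * h (m + 1) ^ 2 := by
  obtain ⟨k, rfl⟩ : ∃ k, m = k + 1 := ⟨m - 1, by omega⟩
  have e1 := hmain k (by omega) (k + 2) (by omega)
  have e2 := hrec (k + 2) (by omega)
  have e3 := hrec k (by omega)
  have r1 : (k : ℤ) + 2 + k = 2 * ((k + 1 : ℕ) : ℤ) := by push_cast; ring
  have r2 : (k : ℤ) + 2 - k = 2 := by ring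
  have r3 : (k : ℤ) + 2 + 1 = ((k + 1 : ℕ) : ℤ) + 2 := by push_cast; ring
  have r4 : (k : ℤ) + 2 - 1 = ((k + 1 : ℕ) : ℤ) := by push_cast; ring
  have r5 : (k : ℤ) + 1 = ((k + 1 : ℕ) : ℤ) := by push_cast; ring
  have r6 : (k : ℤ) - 1 = ((k + 1 : ℕ) : ℤ) - 2 := by push_cast; ring
  have r7 : (k : ℤ) = ((k + 1 : ℕ) : ℤ) - 1 := by push_cast; ring
  have r8 : (k : ℤ) + 2 = ((k + 1 : ℕ) : ℤ) + 1 := by push_cast; ring
  rw [r1, r2] at e1
  rw [r3, r4] at e2
  rw [r5, r6] at e3
  rw [r8] at e1 e2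
  generalize ((k + 1 : ℕ) : ℤ) = M at *
  rw [r7] at e1 e3
  linear_combination e1 - h (M - 1) ^ 2 * e2 + h (M + 1) ^ 2 * e3

/-- A sequence satisfying the hypotheses of `seq_main` is the normalised EDS with the same
initial values. -/
theorem seq_eq_normEDS (x h : ℤ → K)
    (hrec : ∀ k : ℤ, 0 < k → h (k + 1) * h (k - 1) = (x 1 - x k) * h k ^ 2)
    (h0 : h 0 = 0) (h1 : h 1 = 1)
    (hmain : ∀ n : ℕ, 0 < n → ∀ m : ℤ, (n : ℤ) < m →
      (x m - x n) * h m ^ 2 * h n ^ 2 = -(h (m + n) * h (m - n)))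
    (b c d : K) (hb : b ≠ 0) (h2 : h 2 = b) (h3 : h 3 = c) (h4 : h 4 = d * b) (n : ℕ) :
    h n = normEDS b c d n := by
  induction n using normEDSRec with
  | zero => simpa using h0
  | one => simpa using h1
  | two => simpa using h2
  | three => simpa using h3
  | four => simpa using h4
  | even m i1 i2 i3 i4 i5 =>
    have e := seq_even x h hrec hmain (m + 3) (by omega)
    have e' := normEDS_even b c d ((m + 3 : ℕ) : ℤ)
    have r1 : ((m + 3 : ℕ) : ℤ) - 1 = ((m + 2 : ℕ) : ℤ) := by push_cast; ring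
    have r2 : ((m + 3 : ℕ) : ℤ) + 2 = ((m + 5 : ℕ) : ℤ) := by push_cast; ring
    have r3 : ((m + 3 : ℕ) : ℤ) - 2 = ((m + 1 : ℕ) : ℤ) := by push_cast; ring
    have r4 : ((m + 3 : ℕ) : ℤ) + 1 = ((m + 4 : ℕ) : ℤ) := by push_cast; ring
    have r5 : 2 * ((m + 3 : ℕ) : ℤ) = ((2 * (m + 3) : ℕ) : ℤ) := by push_cast; ring
    rw [r1, r2, r3, r4, r5] at e e'
    rw [i1, i2, i3, i4, i5, ← e', h2] at e
    exact mul_right_cancel₀ hb e
  | odd m i1 i2 i3 i4 =>
    have e := seq_odd x h hrec h1 hmain (m + 2) (by omega)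
    have e' := normEDS_odd b c d ((m + 2 : ℕ) : ℤ)
    have r1 : ((m + 2 : ℕ) : ℤ) - 1 = ((m + 1 : ℕ) : ℤ) := by push_cast; ring
    have r2 : ((m + 2 : ℕ) : ℤ) + 2 = ((m + 4 : ℕ) : ℤ) := by push_cast; ring
    have r4 : ((m + 2 : ℕ) : ℤ) + 1 = ((m + 3 : ℕ) : ℤ) := by push_cast; ring
    have r5 : 2 * ((m + 2 : ℕ) : ℤ) + 1 = ((2 * (m + 2) + 1 : ℕ) : ℤ) := by push_cast; ring
    rw [r1, r2, r4, r5] at e e'
    rw [i1, i2, i3, i4, ← e'] at e
    exact e

end Fermat.Agent.S13
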