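import Fermat.Agent.S13.Theta
import Fermat.Agent.S13.SeqLemma

/-!
# S13 / T3 : multiplication by `n` on non-torsion points via Mathlib's division polynomials

For a non-torsion point `P = (x, y)` of a Weierstrass curve `W` over a field and `n ≥ 1`:
`ΨSq_n(x) ≠ 0` and `x(nP) ΨSq_n(x) = Φ_n(x)`.
-/

set_option autoImplicit false

namespace Fermat.Agent.S13

open WeierstrassCurve WeierstrassCurve.Affine Polynomial

variable {K : Type*} [Field K]

/-! ### The auxiliary sequence -/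

/-- the sequence `h` with `h (n+1) h (n-1) = (x 1 - x n) h n ^ 2` -/
noncomputable def hN (x : ℤ → K) (b : K) : ℕ → K
  | 0 => 0
  | 1 => 1
  | 2 => b
  | (n + 3) => (x 1 - x ((n + 2 : ℕ) : ℤ)) * hN x b (n + 2) ^ 2 / hN x b (n + 1)

theorem hN_ne_zero (x : ℤ → K) (b : K) (hb : b ≠ 0) (hx : ∀ k : ℤ, 1 < k → x 1 ≠ x k) (n : ℕ) :
    hN x b (n + 1) ≠ 0 ∧ hN x b (n + 2) ≠ 0 := by
  induction n with
  | zero => exact ⟨by simp [hN], by simpa [hN] using hb⟩
  | succ n ih =>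
    refine ⟨ih.2, ?_⟩
    show hN x b (n + 3) ≠ 0
    rw [hN]
    exact div_ne_zero (mul_ne_zero (sub_ne_zero.2 (hx _ (by push_cast; omega)))
      (pow_ne_zero 2 ih.2)) ih.1

/-- the sequence `hN` indexed by `ℤ` -/
noncomputable def hZ (x : ℤ → K) (b : K) (k : ℤ) : K := hN x b k.toNat

theorem hZ_natCast (x : ℤ → K) (b : K) (n : ℕ) : hZ x b n = hN x b n := by
  simp [hZ]

theorem hZ_ne_zero (x : ℤ → K) (b : K) (hb : b ≠ 0) (hx : ∀ k : ℤ, 1 < k → x 1 ≠ x k) (k : ℤ)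
    (hk : 0 < k) : hZ x b k ≠ 0 := by
  obtain ⟨n, rfl⟩ : ∃ n : ℕ, k = (n + 1 : ℕ) := ⟨(k - 1).toNat, by push_cast; omega⟩
  rw [hZ_natCast]
  exact (hN_ne_zero x b hb hx n).1

theorem hZ_rec (x : ℤ → K) (b : K) (hb : b ≠ 0) (hx : ∀ k : ℤ, 1 < k → x 1 ≠ x k) (k : ℤ)
    (hk : 0 < k) : hZ x b (k + 1) * hZ x b (k - 1) = (x 1 - x k) * hZ x b k ^ 2 := by
  obtain ⟨n, rfl⟩ : ∃ n : ℕ, k = (n + 1 : ℕ) := ⟨(k - 1).toNat, by push_cast; omega⟩
  have r1 : ((n + 1 : ℕ) : ℤ) + 1 = ((n + 2 : ℕ) : ℤ) := by push_cast; ring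
  have r2 : ((n + 1 : ℕ) : ℤ) - 1 = (n : ℤ) := by push_cast; ring
  rw [r1, r2, hZ_natCast, hZ_natCast, hZ_natCast]
  cases n with
  | zero => simp [hN]
  | succ n =>
    show hN x b (n + 3) * hN x b (n + 1) = _
    rw [hN]
    have := (hN_ne_zero x b hb hx n).1
    field_simp

/-! ### Multiples of a non-torsion point -/

variable [DecidableEq K] {W : WeierstrassCurve.Affine K}

theorem dp_zsmul_ne_zero {P : W.Point} (hP : ∀ n : ℕ, 0 < n → n • P ≠ 0) (k : ℤ) (hk : k ≠ 0) :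
    k • P ≠ 0 := by
  intro h0
  rcases lt_or_gt_of_ne hk with h | h
  · refine hP (-k).toNat (by omega) ?_
    rw [← natCast_zsmul, Int.toNat_of_nonneg (by omega), neg_zsmul, h0, neg_zero]
  · refine hP k.toNat (by omega) ?_
    rw [← natCast_zsmul, Int.toNat_of_nonneg (by omega), h0]

/-- the `x`-coordinate of `k • P` -/
def xs (P : W.Point) (k : ℤ) : K := xc (k • P)

theorem dp_xs_ne {P : W.Point} (hP : ∀ n : ℕ, 0 < n → n • P ≠ 0) (m n : ℤ) (hm : m ≠ 0)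
    (hn : n ≠ 0) (hs : m + n ≠ 0) (hd : m - n ≠ 0) : xs P m ≠ xs P n := by
  apply xc_ne_of_add_sub_ne_zero (dp_zsmul_ne_zero hP m hm) (dp_zsmul_ne_zero hP n hn)
  · rw [← add_zsmul]; exact dp_zsmul_ne_zero hP _ hs
  · rw [← sub_smul]; exact dp_zsmul_ne_zero hP _ hd

theorem dp_theta {P : W.Point} (hP : ∀ n : ℕ, 0 < n → n • P ≠ 0) (m n : ℤ) (hm : m ≠ 0)
    (hn : n ≠ 0) (hs : m + n ≠ 0) (hd : m - n ≠ 0) (t : K) :
    (t - xs P (m + n)) * (t - xs P (m - n)) * (xs P m - xs P n) ^ 2 =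
      Theta W t (xs P m) (xs P n) := by
  have := theta_point (dp_zsmul_ne_zero hP m hm) (dp_zsmul_ne_zero hP n hn)
    (dp_xs_ne hP m n hm hn hs hd) t
  rw [← add_zsmul, ← sub_smul] at this
  exact this

/-! ### The sequence attached to a non-torsion point -/

section main

variable {x y : K} {h : W.Nonsingular x y}

theorem dp_xs_one : xs (Point.some x y h) 1 = x := by simp [xs]

theorem dp_b_ne_zero (hP : ∀ n : ℕ, 0 < n → n • Point.some x y h ≠ 0) : y - W.negY x y ≠ 0 := by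
  intro hb
  apply hP 2 (by norm_num)
  rw [two_nsmul]
  exact Point.add_self_of_Y_eq (sub_eq_zero.1 hb)

theorem dp_dup (hP : ∀ n : ℕ, 0 < n → n • Point.some x y h ≠ 0) (t : K) :
    (xs (Point.some x y h) 2 - t) * (y - W.negY x y) ^ 2 = Theta W t x x :=
  theta_point_dup h (dp_zsmul_ne_zero hP 2 (by norm_num)) t

theorem dp_hx (hP : ∀ n : ℕ, 0 < n → n • Point.some x y h ≠ 0) (k : ℤ) (hk : 1 < k) :
    xs (Point.some x y h) 1 ≠ xs (Point.some x y h) k :=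
  dp_xs_ne hP 1 k (by omega) (by omega) (by omega) (by omega)

theorem dp_hdup (hP : ∀ n : ℕ, 0 < n → n • Point.some x y h ≠ 0) (m : ℤ) (hm : 2 < m) :
    (xs (Point.some x y h) 2 - xs (Point.some x y h) m) * (y - W.negY x y) ^ 2 =
      (xs (Point.some x y h) (m + 1) - xs (Point.some x y h) 1) *
        (xs (Point.some x y h) (m - 1) - xs (Point.some x y h) 1) *
        (xs (Point.some x y h) 1 - xs (Point.some x y h) m) ^ 2 := by
  have e1 := dp_dup hP (xs (Point.some x y h) m)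
  have e2 := dp_theta hP m 1 (by omega) (by omega) (by omega) (by omega)
    (xs (Point.some x y h) 1)
  rw [Theta_swap₁₂, dp_xs_one] at e2
  rw [dp_xs_one]
  rw [e1, ← e2]
  ring

theorem dp_hΘ (hP : ∀ n : ℕ, 0 < n → n • Point.some x y h ≠ 0) (m n : ℤ) (hn : 1 < n)
    (hm : n + 1 < m) :
    (xs (Point.some x y h) m - xs (Point.some x y h) (n + 1)) *
        (xs (Point.some x y h) m - xs (Point.some x y h) (n - 1)) *
        (xs (Point.some x y h) n - xs (Point.some x y h) 1) ^ 2 =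
      (xs (Point.some x y h) m - xs (Point.some x y h) n) ^ 2 *
        (xs (Point.some x y h) 1 - xs (Point.some x y h) (m + n)) *
        (xs (Point.some x y h) 1 - xs (Point.some x y h) (m - n)) := by
  have e1 := dp_theta hP n 1 (by omega) (by omega) (by omega) (by omega)
    (xs (Point.some x y h) m)
  have e2 := dp_theta hP m n (by omega) (by omega) (by omega) (by omega)
    (xs (Point.some x y h) 1)
  rw [Theta_rot] at e2
  rw [e1, ← e2]
  ring

omit [DecidableEq K] in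
theorem dp_Ψ₂Sq (x : K) : W.Ψ₂Sq.eval x = 4 * x ^ 3 + W.b₂ * x ^ 2 + 2 * W.b₄ * x + W.b₆ := by
  simp [Ψ₂Sq]

omit [DecidableEq K] in
theorem dp_Ψ₃ (x : K) :
    W.Ψ₃.eval x = 3 * x ^ 4 + W.b₂ * x ^ 3 + 3 * W.b₄ * x ^ 2 + 3 * W.b₆ * x + W.b₈ := by
  simp [Ψ₃]

omit [DecidableEq K] in
theorem dp_preΨ₄ (x : K) :
    W.preΨ₄.eval x = 2 * x ^ 6 + W.b₂ * x ^ 5 + 5 * W.b₄ * x ^ 4 + 10 * W.b₆ * x ^ 3 +
      10 * W.b₈ * x ^ 2 + (W.b₂ * W.b₈ - W.b₄ * W.b₆) * x + (W.b₄ * W.b₈ - W.b₆ ^ 2) := by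
  simp [preΨ₄]

/-- `(x₁ - x₂) ψ₂² = Ψ₃` -/
theorem dp_three (hP : ∀ n : ℕ, 0 < n → n • Point.some x y h ≠ 0) :
    (x - xs (Point.some x y h) 2) * (y - W.negY x y) ^ 2 = W.Ψ₃.eval x := by
  have e1 := dp_dup hP x
  rw [dp_Ψ₃]
  simp only [Theta] at e1
  linear_combination -e1

/-- `(x₁ - x₃) Ψ₃² = preΨ₄ ψ₂²` -/
theorem dp_four (hP : ∀ n : ℕ, 0 < n → n • Point.some x y h ≠ 0) :
    (x - xs (Point.some x y h) 3) * W.Ψ₃.eval x ^ 2 =
      W.preΨ₄.eval x * (y - W.negY x y) ^ 2 := by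
  have hb := dp_b_ne_zero hP
  have e3 := dp_three hP
  have eb := sq_sub_negY h.1
  have t0 := dp_theta hP 2 1 (by omega) (by omega) (by omega) (by omega) 0
  have t1 := dp_theta hP 2 1 (by omega) (by omega) (by omega) (by omega) 1
  norm_num at t0 t1
  rw [dp_xs_one] at t0 t1
  simp only [Theta] at t0 t1
  have hrel := W.b_relation
  rw [dp_preΨ₄]
  rw [dp_Ψ₃] at e3 ⊢
  generalize xs (Point.some x y h) 3 = x3 at *
  generalize xs (Point.some x y h) 2 = x2 at *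
  generalize (y - W.negY x y) = b at *
  have s : (x - x3) * (x2 - x) ^ 2 =
      -(b ^ 2) - (x2 - x) * (6 * x ^ 2 + W.b₂ * x + W.b₄) := by
    linear_combination t1 - t0 + eb
  have k : (x - x3) * ((x - x2) * b ^ 2) ^ 2 =
      b ^ 2 * (((x - x2) * b ^ 2) * (6 * x ^ 2 + W.b₂ * x + W.b₄) - b ^ 4) := by
    linear_combination b ^ 4 * s
  rw [e3] at k
  linear_combination k - b ^ 2 * x ^ 2 * hrel
    - b ^ 2 * (b ^ 2 + (4 * x ^ 3 + W.b₂ * x ^ 2 + 2 * W.b₄ * x + W.b₆)) * eb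

/-- the auxiliary sequence is the normalised EDS of Mathlib -/
theorem dp_main (hP : ∀ n : ℕ, 0 < n → n • Point.some x y h ≠ 0) (n : ℕ) :
    hZ (xs (Point.some x y h)) (y - W.negY x y) n =
      normEDS (y - W.negY x y) (W.Ψ₃.eval x) (W.preΨ₄.eval x) n := by
  have hb := dp_b_ne_zero hP
  have hx := dp_hx hP
  have e3 := dp_three hP
  have e4 := dp_four hP
  have x1 : xs (Point.some x y h) 1 = x := dp_xs_one
  have hd := dp_hdup hP
  have hΘ := dp_hΘ hP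
  generalize xs (Point.some x y h) = X at *
  generalize y - W.negY x y = b at *
  have hne := hZ_ne_zero X b hb hx
  have hrec := hZ_rec X b hb hx
  have h0 : hZ X b 0 = 0 := by simp [hZ, hN]
  have h1 : hZ X b 1 = 1 := by simp [hZ, hN]
  have h2 : hZ X b 2 = b := by simp [hZ, hN]
  have hmain := seq_main X (hZ X b) hne hrec h1 (by intro m hm; rw [h2]; exact hd m hm) hΘ
  have h3 : hZ X b 3 = W.Ψ₃.eval x := by
    have := hrec 2 (by norm_num)
    norm_num at this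
    rw [h1, h2, mul_one, x1] at this
    rw [this]; exact e3
  have h4 : hZ X b 4 = W.preΨ₄.eval x * b := by
    have := hrec 3 (by norm_num)
    norm_num at this
    rw [h2, h3, x1, e4] at this
    apply mul_right_cancel₀ hb
    rw [this]; ring
  exact seq_eq_normEDS X (hZ X b) hrec h0 h1 hmain b _ _ hb h2 h3 h4 n

omit [DecidableEq K] in
theorem dp_eval_preΨ (x : K) (n : ℤ) :
    (W.preΨ n).eval x =
      preNormEDS ((W.Ψ₂Sq.eval x) ^ 2) (W.Ψ₃.eval x) (W.preΨ₄.eval x) n := by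
  have := map_preNormEDS (Polynomial.evalRingHom x) (W.Ψ₂Sq ^ 2) W.Ψ₃ W.preΨ₄ n
  rw [map_pow] at this
  exact this

theorem dp_hZ_eq (hP : ∀ n : ℕ, 0 < n → n • Point.some x y h ≠ 0) (n : ℕ) :
    hZ (xs (Point.some x y h)) (y - W.negY x y) n =
      (W.preΨ n).eval x * if Even (n : ℤ) then (y - W.negY x y) else 1 := by
  have hb2 : W.Ψ₂Sq.eval x = (y - W.negY x y) ^ 2 := by rw [dp_Ψ₂Sq, sq_sub_negY h.1]
  rw [dp_main hP, normEDS, dp_eval_preΨ, hb2, ← pow_mul]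

/-- `ΨSq_n(x) = h_n ^ 2`. -/
theorem dp_eval_ΨSq (hP : ∀ n : ℕ, 0 < n → n • Point.some x y h ≠ 0) (n : ℕ) :
    (W.ΨSq n).eval x = hZ (xs (Point.some x y h)) (y - W.negY x y) n ^ 2 := by
  have hb2 : W.Ψ₂Sq.eval x = (y - W.negY x y) ^ 2 := by rw [dp_Ψ₂Sq, sq_sub_negY h.1]
  rw [dp_hZ_eq hP, ΨSq, eval_mul, eval_pow]
  split_ifs
  · rw [hb2]; ring
  · simp

/-- `Φ_n(x) = x(nP) h_n ^ 2`. -/
theorem dp_eval_Φ (hP : ∀ n : ℕ, 0 < n → n • Point.some x y h ≠ 0) (n : ℕ) (hn : 0 < n) :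
    (W.Φ n).eval x =
      xs (Point.some x y h) n * hZ (xs (Point.some x y h)) (y - W.negY x y) n ^ 2 := by
  have hb2 : W.Ψ₂Sq.eval x = (y - W.negY x y) ^ 2 := by rw [dp_Ψ₂Sq, sq_sub_negY h.1]
  have hrec := hZ_rec (xs (Point.some x y h)) (y - W.negY x y) (dp_b_ne_zero hP) (dp_hx hP) n
    (by exact_mod_cast hn)
  obtain ⟨m, rfl⟩ : ∃ m, n = m + 1 := ⟨n - 1, by omega⟩
  have r1 : ((m + 1 : ℕ) : ℤ) + 1 = ((m + 2 : ℕ) : ℤ) := by push_cast; ring
  have r2 : ((m + 1 : ℕ) : ℤ) - 1 = (m : ℤ) := by push_cast; ring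
  rw [WeierstrassCurve.Φ, eval_sub, eval_mul, eval_X, dp_eval_ΨSq hP, eval_mul, eval_mul]
  rw [r1, r2] at hrec ⊢
  rw [dp_hZ_eq hP (m + 2), dp_hZ_eq hP m, dp_xs_one] at hrec
  have p1 : Even ((m + 2 : ℕ) : ℤ) ↔ Even (m : ℤ) := by
    push_cast; simp
  have p2 : Even ((m + 1 : ℕ) : ℤ) ↔ ¬ Even (m : ℤ) := by
    push_cast; simp
  simp only [p1, p2] at hrec ⊢
  by_cases hm : Even (m : ℤ)
  · simp only [hm, if_true, not_true, if_false] at hrec ⊢
    rw [hb2]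
    linear_combination -hrec
  · simp only [hm, if_false, not_false_iff, if_true] at hrec ⊢
    rw [eval_one]
    linear_combination -hrec

/-- **T3.** Multiplication by `n` on a non-torsion point in terms of Mathlib's division
polynomials. -/
theorem nsmul_eq_of_nonTorsion (hP : ∀ n : ℕ, 0 < n → n • Point.some x y h ≠ 0) (n : ℕ)
    (hn : 0 < n) :
    (W.ΨSq n).eval x ≠ 0 ∧ ∃ (xn yn : K) (hn : W.Nonsingular xn yn),
      n • Point.some x y h = Point.some xn yn hn ∧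
        xn * (W.ΨSq n).eval x = (W.Φ n).eval x := by
  constructor
  · rw [dp_eval_ΨSq hP]
    exact pow_ne_zero 2 (hZ_ne_zero _ _ (dp_b_ne_zero hP) (dp_hx hP) n (by exact_mod_cast hn))
  · have e := dp_eval_Φ hP n hn
    rw [← dp_eval_ΨSq hP] at e
    have hne := hP n hn
    rw [xs, natCast_zsmul] at e
    match hQ : n • Point.some x y h, hne with
    | .zero, hne => exact absurd rfl hne
    | .some xn yn hn', _ =>
      refine ⟨xn, yn, hn', rfl, ?_⟩
      rw [hQ] at e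
      rw [e]; rfl

end main

end Fermat.Agent.S13
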