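import Fermat.Agent.S13.Interface

/-!
# S13, package T8: the Gauss bound `Stmt_model_gauss`

* `gauss_coeff_le`, `gauss_prod_le`: pure valuation theory (a weak form of the multiplicativity of
  the Gauss norm).
* `stmt_model_gauss`: the block statement, from the direction
  `p • P = 0 → (ΨSq p)(x(P)) = 0` of T6.
-/

set_option autoImplicit false

namespace Fermat.Agent.S13

open WeierstrassCurve WeierstrassCurve.Affine WeierstrassCurve.Affine.Point Polynomial

section General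

variable {K : Type*} [Field K] {Γ₀ : Type*} [LinearOrderedCommGroupWithZero Γ₀]
  (v : Valuation K Γ₀)

/-- If `(X - ξ) g` has integral coefficients and `1 < v ξ` then `ξ g` has integral coefficients. -/
theorem gauss_coeff_le {ξ : K} (hξ : 1 < v ξ) {g : K[X]}
    (h : ∀ i, v (((X - C ξ) * g).coeff i) ≤ 1) (i : ℕ) : v ((C ξ * g).coeff i) ≤ 1 := by
  induction i with
  | zero =>
    have h0 := h 0
    rw [sub_mul, coeff_sub, coeff_C_mul] at h0
    simpa [Valuation.map_neg] using h0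
  | succ i ih =>
    have h1 := h (i + 1)
    rw [sub_mul, coeff_sub, coeff_X_mul] at h1
    have hg : v (g.coeff i) ≤ 1 := by
      rw [coeff_C_mul, map_mul] at ih
      calc v (g.coeff i) = 1 * v (g.coeff i) := (one_mul _).symm
        _ ≤ v ξ * v (g.coeff i) := mul_le_mul_left hξ.le _
        _ ≤ 1 := ih
    have : (C ξ * g).coeff (i + 1) = g.coeff i - (g.coeff i - (C ξ * g).coeff (i + 1)) := by ring
    rw [this]
    exact (v.map_sub _ _).trans (max_le hg h1)

/-- If `∏ (X - ξ) * g` has integral coefficients and `1 < v ξ` for all the `ξ`, then `(∏ ξ) g` has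
integral coefficients. -/
theorem gauss_prod_coeff_le (S : Finset K) (hS : ∀ ξ ∈ S, 1 < v ξ) (g : K[X])
    (h : ∀ i, v (((∏ ξ ∈ S, (X - C ξ)) * g).coeff i) ≤ 1) (i : ℕ) :
    v ((C (∏ ξ ∈ S, ξ) * g).coeff i) ≤ 1 := by
  classical
  induction S using Finset.induction_on generalizing g i with
  | empty => simpa using h i
  | insert a S ha ih =>
    rw [Finset.prod_insert ha] at h ⊢
    have h1 : ∀ i, v ((C a * ((∏ ξ ∈ S, (X - C ξ)) * g)).coeff i) ≤ 1 := by
      apply gauss_coeff_le v (hS a (Finset.mem_insert_self a S))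
      intro i
      rw [← mul_assoc]
      exact h i
    have h2 := ih (fun ξ hξ => hS ξ (Finset.mem_insert_of_mem hξ)) (C a * g) (by
      intro i
      have : (∏ ξ ∈ S, (X - C ξ)) * (C a * g) = C a * ((∏ ξ ∈ S, (X - C ξ)) * g) := by ring
      rw [this]
      exact h1 i) i
    have : C (a * ∏ ξ ∈ S, ξ) * g = C (∏ ξ ∈ S, ξ) * (C a * g) := by
      rw [C_mul]; ring
    rw [this]
    exact h2

/-- The Gauss bound. -/
theorem gauss_prod_le (S : Finset K) (hS : ∀ ξ ∈ S, 1 < v ξ) (f : K[X])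
    (hf : ∀ i, v (f.coeff i) ≤ 1) (hroot : ∀ ξ ∈ S, f.eval ξ = 0) :
    v f.leadingCoeff * ∏ ξ ∈ S, v ξ ≤ 1 := by
  classical
  have hdvd : (∏ ξ ∈ S, (X - C ξ)) ∣ f := by
    apply Finset.prod_dvd_of_coprime
    · intro a _ b _ hab
      exact pairwise_coprime_X_sub_C (Function.injective_id) hab
    · intro ξ hξ
      exact dvd_iff_isRoot.mpr (hroot ξ hξ)
  obtain ⟨g, rfl⟩ := hdvd
  have hmonic : (∏ ξ ∈ S, (X - C ξ)).Monic := monic_prod_of_monic _ _ fun ξ _ => monic_X_sub_C ξ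
  have h := gauss_prod_coeff_le v S hS g hf g.natDegree
  rw [coeff_C_mul, map_mul, map_prod] at h
  rw [leadingCoeff_mul, hmonic.leadingCoeff, one_mul, mul_comm]
  exact h

end General

/-- The direction of T6 that is needed. -/
def Hyp_torsion_root : Prop :=
  ∀ (u w : ℤ), w ≠ 0 → u ^ 2 - 4 * w ≠ 0 → ∀ (n : ℕ) (x y : Qb)
    (h : ((S05.mcQ (u : ℚ) (w : ℚ))⁄Qb).Nonsingular x y),
    n • (Point.some x y h : ((S05.mcQ (u : ℚ) (w : ℚ))⁄Qb).Point) = 0 →
      (((S05.mcQ (u : ℚ) (w : ℚ))⁄Qb).ΨSq (n : ℤ)).eval x = 0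

/-- the integral model. -/
def gaussMcZ (u w : ℤ) : WeierstrassCurve ℤ := ⟨0, u, 0, w, 0⟩

theorem gaussMcZ_map (u w : ℤ) :
    (S05.mcQ (u : ℚ) (w : ℚ))⁄Qb = (gaussMcZ u w).map (algebraMap ℤ Qb) := by
  ext <;> simp [S05.mcQ, gaussMcZ, WeierstrassCurve.baseChange, WeierstrassCurve.map]

theorem stmt_model_gauss (hT6 : Hyp_torsion_root) : Stmt_model_gauss := by
  intro u w hw hd p hp hp2 A S hS
  have hodd : ¬ Even (p : ℤ) := by
    rw [Int.even_coe_nat]
    exact fun h => hp2 ((Nat.Prime.even_iff hp).mp h)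
  have hpQ : ((p : ℤ) : Qb) ≠ 0 := by
    simpa using hp.ne_zero
  set E := (S05.mcQ (u : ℚ) (w : ℚ))⁄Qb with hE
  have hlead : (E.preΨ (p : ℤ)).leadingCoeff = (p : Qb) := by
    rw [leadingCoeff_preΨ _ hpQ, if_neg hodd]
    simp
  have hcoeff : ∀ i, A.valuation ((E.preΨ (p : ℤ)).coeff i) ≤ 1 := by
    intro i
    rw [hE, gaussMcZ_map, map_preΨ, coeff_map]
    rw [ValuationSubring.valuation_le_one_iff]
    rw [eq_intCast]
    exact intCast_mem A _
  have hroot : ∀ ξ ∈ S, (E.preΨ (p : ℤ)).eval ξ = 0 := by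
    intro ξ hξ
    obtain ⟨-, y, h, hy⟩ := hS ξ hξ
    have := hT6 u w hw hd p ξ y h hy
    rw [ΨSq, if_neg hodd, mul_one, eval_pow] at this
    exact pow_eq_zero_iff (two_ne_zero) |>.mp this
  have := gauss_prod_le A.valuation S (fun ξ hξ => (hS ξ hξ).1) (E.preΨ (p : ℤ)) hcoeff hroot
  rwa [hlead] at this

end Fermat.Agent.S13
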