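import Fermat.Agent.S13.PolyIdGlue
import Fermat.Agent.S13.DivPoly
import Fermat.Agent.S13.CardTransfer
import Fermat.Agent.S13.Gauss

/-!
# S13: the block [T] is complete: `Stmt_mulBy`, `Stmt_model_card`, `Stmt_card`, `Stmt_model_gauss`
-/

set_option autoImplicit false

namespace Fermat.Agent.S13

open WeierstrassCurve WeierstrassCurve.Affine Polynomial

theorem stmtT3_all {F : Type*} [Field F] [DecidableEq F] (E : WeierstrassCurve.Affine F) :
    StmtT3 E :=
  fun _ _ _ hnt n hn => nsmul_eq_of_nonTorsion hnt n (by omega)

theorem stmt_mulBy_final : Stmt_mulBy := stmt_mulBy_of_T3 fun _ _ _ _ => stmtT3_all _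

theorem stmt_model_card_final : Stmt_model_card := model_card_of_mulBy stmt_mulBy_final

theorem stmt_card_final : Stmt_card := stmt_card stmt_model_card_final

theorem stmt_model_gauss_final : Stmt_model_gauss :=
  stmt_model_gauss fun u w hw hd n x y h h0 => ((stmt_mulBy_final u w hw hd n x y h).2.1).mp h0

end Fermat.Agent.S13
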