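import Mathlib

/-!
# S13 / T1 : the symmetric polynomial `Theta` and the group law

For a Weierstrass curve `W` over a field, `Theta W t u w` is the symmetric polynomial with
`(t - x(A+B)) (t - x(A-B)) (x(A) - x(B))^2 = Theta W t x(A) x(B)`.
-/

set_option autoImplicit false

namespace Fermat.Agent.S13

open WeierstrassCurve WeierstrassCurve.Affine

variable {K : Type*} [Field K] (W : WeierstrassCurve.Affine K)

/-- The symmetric polynomial whose vanishing expresses `C = ± A ± B` on `x`-coordinates. -/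
def Theta (t u w : K) : K :=
  (u - w) ^ 2 * t ^ 2 - (2 * (u + w) * u * w + W.b₂ * u * w + W.b₄ * (u + w) + W.b₆) * t
    + (u * w) ^ 2 - W.b₄ * u * w - W.b₆ * (u + w) - W.b₈

theorem Theta_swap₂₃ (t u w : K) : Theta W t u w = Theta W t w u := by
  simp only [Theta]; ring

theorem Theta_swap₁₂ (t u w : K) : Theta W t u w = Theta W u t w := by
  simp only [Theta]; ring

theorem Theta_rot (t u w : K) : Theta W t u w = Theta W u w t := by
  simp only [Theta]; ring

variable {W}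

/-- polynomial form of the sum `x(A+B) + x(A-B)` -/
theorem theta_aux_sum {xA yA xB yB : K} (hA : W.Equation xA yA) (hB : W.Equation xB yB) :
    ((yA - yB) ^ 2 + W.a₁ * (yA - yB) * (xA - xB) - (W.a₂ + xA + xB) * (xA - xB) ^ 2) +
      ((yA - W.negY xB yB) ^ 2 + W.a₁ * (yA - W.negY xB yB) * (xA - xB)
        - (W.a₂ + xA + xB) * (xA - xB) ^ 2) =
    2 * (xA + xB) * xA * xB + W.b₂ * xA * xB + W.b₄ * (xA + xB) + W.b₆ := by
  rw [equation_iff] at hA hB
  simp only [negY, b₂, b₄, b₆]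
  linear_combination 2 * hA + 2 * hB

/-- polynomial form of the product `x(A+B) * x(A-B)` -/
theorem theta_aux_prod {xA yA xB yB : K} (hA : W.Equation xA yA) (hB : W.Equation xB yB) :
    ((yA - yB) ^ 2 + W.a₁ * (yA - yB) * (xA - xB) - (W.a₂ + xA + xB) * (xA - xB) ^ 2) *
      ((yA - W.negY xB yB) ^ 2 + W.a₁ * (yA - W.negY xB yB) * (xA - xB)
        - (W.a₂ + xA + xB) * (xA - xB) ^ 2) =
    (xA - xB) ^ 2 * ((xA * xB) ^ 2 - W.b₄ * xA * xB - W.b₆ * (xA + xB) - W.b₈) := by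
  rw [equation_iff] at hA hB
  simp only [negY, b₄, b₆, b₈]
  linear_combination (W.a₁^2*xA*xB - W.a₁^2*xB^2 + W.a₁*W.a₃*xA - W.a₁*W.a₃*xB + W.a₁*xA*yA - 2*W.a₁*xB*yB - W.a₂*xA^2 + 4*W.a₂*xA*xB - 2*W.a₂*xB^2 + W.a₃*yA - 2*W.a₃*yB + W.a₄*xA + W.a₆ - xA^3 + 2*xA^2*xB + 2*xA*xB^2 + yA^2 - 2*xB^3 - 2*yB^2) * hA + (-W.a₁^2*xA^2 + W.a₁^2*xA*xB - W.a₁*W.a₃*xA + W.a₁*W.a₃*xB + W.a₁*xB*yB - 4*W.a₂*xA^2 + 4*W.a₂*xA*xB - W.a₂*xB^2 + W.a₃*yB - 2*W.a₄*xA + W.a₄*xB - W.a₆ - 4*xA^3 + 2*xA^2*xB + 2*xA*xB^2 - xB^3 + yB^2) * hB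

/-- The `Theta` identity at the level of the addition formulas. -/
theorem theta_addX [DecidableEq K] {xA yA xB yB : K} (hA : W.Equation xA yA)
    (hB : W.Equation xB yB) (hx : xA ≠ xB) (t : K) :
    (t - W.addX xA xB (W.slope xA xB yA yB)) *
      (t - W.addX xA xB (W.slope xA xB yA (W.negY xB yB))) * (xA - xB) ^ 2 =
    Theta W t xA xB := by
  have hD : xA - xB ≠ 0 := sub_ne_zero.2 hx
  have e1 := theta_aux_sum hA hB
  have e2 := theta_aux_prod hA hB
  rw [slope_of_X_ne hx, slope_of_X_ne hx]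
  simp only [addX, Theta]
  set Ns := (yA - yB) ^ 2 + W.a₁ * (yA - yB) * (xA - xB) - (W.a₂ + xA + xB) * (xA - xB) ^ 2
  set Nd := (yA - W.negY xB yB) ^ 2 + W.a₁ * (yA - W.negY xB yB) * (xA - xB)
        - (W.a₂ + xA + xB) * (xA - xB) ^ 2
  have f1 : ((yA - yB) / (xA - xB)) ^ 2 + W.a₁ * ((yA - yB) / (xA - xB)) - W.a₂ - xA - xB
      = Ns / (xA - xB) ^ 2 := by
    simp only [Ns]; field_simp; ring
  have f2 : ((yA - W.negY xB yB) / (xA - xB)) ^ 2 + W.a₁ * ((yA - W.negY xB yB) / (xA - xB))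
      - W.a₂ - xA - xB = Nd / (xA - xB) ^ 2 := by
    simp only [Nd]; field_simp; ring
  rw [f1, f2]
  have key : (t * (xA - xB) ^ 2 - Ns) * (t * (xA - xB) ^ 2 - Nd) =
      (xA - xB) ^ 2 * ((xA - xB) ^ 2 * t ^ 2
        - (2 * (xA + xB) * xA * xB + W.b₂ * xA * xB + W.b₄ * (xA + xB) + W.b₆) * t
        + (xA * xB) ^ 2 - W.b₄ * xA * xB - W.b₆ * (xA + xB) - W.b₈) := by
    linear_combination (-(xA - xB) ^ 2 * t) * e1 + e2
  have hD2 : (xA - xB) ^ 2 ≠ 0 := pow_ne_zero 2 hD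
  apply mul_left_cancel₀ hD2
  rw [← key]
  field_simp

/-- Duplication: `x(2A) ψ₂(A)² = x⁴ - b₄x² - 2b₆x - b₈`, in `Theta` form. -/
theorem theta_dupX [DecidableEq K] {x y : K} (hA : W.Equation x y) (hy : y ≠ W.negY x y) (t : K) :
    (W.addX x x (W.slope x x y y) - t) * (y - W.negY x y) ^ 2 = Theta W t x x := by
  have hD : y - W.negY x y ≠ 0 := sub_ne_zero.2 hy
  rw [slope_of_Y_ne rfl hy]
  simp only [addX, Theta]
  rw [equation_iff] at hA
  set den := y - W.negY x y with hden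
  set num := 3 * x ^ 2 + 2 * W.a₂ * x + W.a₄ - W.a₁ * y with hnum
  have e1 : num ^ 2 + W.a₁ * num * den - (W.a₂ + 2 * x) * den ^ 2 =
      x ^ 4 - W.b₄ * x ^ 2 - 2 * W.b₆ * x - W.b₈ := by
    simp only [hden, hnum, negY, b₄, b₆, b₈]
    linear_combination (-W.a₁^2 - 4*W.a₂ - 8*x) * hA
  have e2 : den ^ 2 = 4 * x ^ 3 + W.b₂ * x ^ 2 + 2 * W.b₄ * x + W.b₆ := by
    simp only [hden, negY, b₂, b₄, b₆]
    linear_combination 4 * hA
  have f1 : ((num / den) ^ 2 + W.a₁ * (num / den) - W.a₂ - x - x - t) * den ^ 2 =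
      num ^ 2 + W.a₁ * num * den - (W.a₂ + 2 * x) * den ^ 2 - t * den ^ 2 := by
    field_simp; ring
  rw [f1, e1, e2]
  ring

/-- `ψ₂(A)² = Ψ₂Sq(x)`. -/
theorem sq_sub_negY {x y : K} (hA : W.Equation x y) :
    (y - W.negY x y) ^ 2 = 4 * x ^ 3 + W.b₂ * x ^ 2 + 2 * W.b₄ * x + W.b₆ := by
  rw [equation_iff] at hA
  simp only [negY, b₂, b₄, b₆]
  linear_combination 4 * hA

/-! ### Statements for points -/

/-- The `x`-coordinate of a point (junk value `0` at the origin). -/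
def xc : W.Point → K
  | .zero => 0
  | .some x _ _ => x

@[simp] theorem xc_some {x y : K} (h : W.Nonsingular x y) : xc (Point.some x y h) = x := rfl

theorem xc_neg (A : W.Point) : xc (-A) = xc A := by
  cases A <;> rfl

/-- two nonzero points with the same `x`-coordinate are equal or opposite -/
theorem eq_or_eq_neg_of_xc_eq {A B : W.Point} (hA : A ≠ 0) (hB : B ≠ 0) (h : xc A = xc B) :
    A = B ∨ A = -B := by
  match A, B, hA, hB, h with
  | .zero, _, hA, _, _ => exact absurd rfl hA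
  | _, .zero, _, hB, _ => exact absurd rfl hB
  | .some xA yA hA', .some xB yB hB', _, _, h =>
    simp only [xc_some] at h
    subst h
    rcases Y_eq_of_X_eq hA'.1 hB'.1 rfl with h | h
    · left; subst h; rfl
    · right; subst h; rfl

variable [DecidableEq K]

theorem xc_ne_of_add_sub_ne_zero {A B : W.Point} (hA : A ≠ 0) (hB : B ≠ 0) (hs : A + B ≠ 0)
    (hd : A - B ≠ 0) : xc A ≠ xc B := by
  intro h
  rcases eq_or_eq_neg_of_xc_eq hA hB h with h | h
  · exact hd (by rw [h, sub_self])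
  · exact hs (by rw [h, neg_add_cancel])

/-- **The `Theta` identity for points.** -/
theorem theta_point {A B : W.Point} (hA : A ≠ 0) (hB : B ≠ 0) (hx : xc A ≠ xc B) (t : K) :
    (t - xc (A + B)) * (t - xc (A - B)) * (xc A - xc B) ^ 2 = Theta W t (xc A) (xc B) := by
  match A, B, hA, hB, hx with
  | .zero, _, hA, _, _ => exact absurd rfl hA
  | _, .zero, _, hB, _ => exact absurd rfl hB
  | .some xA yA hA', .some xB yB hB', _, _, hx =>
    simp only [xc_some] at hx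
    have hsub : Point.some xA yA hA' - Point.some xB yB hB' =
        Point.some xA yA hA' + Point.some xB (W.negY xB yB) ((nonsingular_neg ..).2 hB') := by
      rw [sub_eq_add_neg, Point.neg_some]
    rw [hsub, Point.add_of_X_ne hx, Point.add_of_X_ne hx]
    simp only [xc_some]
    exact theta_addX hA'.1 hB'.1 hx t

/-- **Duplication in `Theta` form.** -/
theorem theta_point_dup {x y : K} (h : W.Nonsingular x y)
    (h2 : (2 : ℤ) • Point.some x y h ≠ 0) (t : K) :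
    (xc ((2 : ℤ) • Point.some x y h) - t) * (y - W.negY x y) ^ 2 = Theta W t x x := by
  have hy : y ≠ W.negY x y := by
    intro hy
    apply h2
    rw [two_zsmul]
    exact Point.add_self_of_Y_eq hy
  rw [two_zsmul, Point.add_self_of_Y_ne hy]
  simp only [xc_some]
  exact theta_dupX h.1 hy t

end Fermat.Agent.S13
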