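import Fermat.Agent.S13.M1Inertia

/-!
# S13, L2-API: for multiplicative reduction (`v a₄ < 1`) the points not reducing to the node
form a subgroup.
-/

set_option autoImplicit false

namespace Fermat.Agent.S13

open WeierstrassCurve WeierstrassCurve.Affine
open Fermat.Agent.S05

variable {K : Type*} [Field K] [DecidableEq K]
variable {Γ₀ : Type*} [LinearOrderedCommGroupWithZero Γ₀] {v : Valuation K Γ₀}

omit [DecidableEq K] in
/-- For a point in `E₁`: `1 < v s` and `v s ^ 2 = v x`. -/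
theorem m1e0_v_s_sq {c U W x s : K} (hc : v c ≤ 1) (hU : v U ≤ 1) (hW : v W ≤ 1) (hx : 1 < v x)
    (e : x * (s ^ 2 + c * s) = x ^ 2 + U * x + W) : 1 < v s ∧ v s ^ 2 = v x := by
  have hx0 : x ≠ 0 := ne_zero_of_one_lt hx
  have e' : s ^ 2 + c * s = x + (U + W / x) := by
    field_simp
    linear_combination e
  have h1 : v (s ^ 2 + c * s) = v x := by
    rw [e']
    apply Valuation.map_add_eq_of_lt_left
    refine lt_of_le_of_lt ?_ hx
    apply Valuation.map_add_le v hU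
    rw [map_div₀]
    exact div_le_one_of_le₀ (hW.trans hx.le) zero_le
  have hs : 1 < v s := by
    by_contra hs
    have hs : v s ≤ 1 := not_lt.1 hs
    have : v (s ^ 2 + c * s) ≤ 1 := by
      refine Valuation.map_add_le v ?_ ?_
      · rw [map_pow]; exact pow_le_one₀ zero_le hs
      · rw [map_mul]; exact mul_le_one' hc hs
    rw [h1] at this
    exact absurd hx (not_lt.2 this)
  refine ⟨hs, ?_⟩
  have h0 : 0 < v s := zero_lt_one.trans hs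
  have h2 : v (c * s) < v (s ^ 2) := by
    rw [map_mul, map_pow, sq]
    exact mul_lt_mul_of_pos_right (lt_of_le_of_lt hc hs) h0
  rw [← h1, Valuation.map_add_eq_of_lt_left v h2, map_pow]

omit [DecidableEq K] in
theorem IsM1.s_integral_of_unit {E : WeierstrassCurve.Affine K} (hE : IsM1 E)
    (hc : v E.a₁ ≤ 1) (hU : v E.a₂ ≤ 1) (hW : v E.a₄ ≤ 1) {x s : K}
    (h : E.Nonsingular x (x * s)) (hx : v x = 1) : v s ≤ 1 := by
  have hx0 : x ≠ 0 := by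
    rintro rfl; simp at hx
  have e := hE.equation_s hx0 h.1
  apply m1_s_integral hc
  have : v (x * (s ^ 2 + E.a₁ * s)) ≤ 1 := by
    rw [e]
    refine Valuation.map_add_le v (Valuation.map_add_le v ?_ ?_) hW
    · rw [map_pow, hx]; simp
    · rw [map_mul, hx, mul_one]; exact hU
  rwa [map_mul, hx, one_mul] at this

/-- unit + kernel of reduction. -/
theorem IsM1.E0_add_unit_E1 {E : WeierstrassCurve.Affine K} (hE : IsM1 E)
    (hc : v E.a₁ ≤ 1) (hU : v E.a₂ ≤ 1) (hW : v E.a₄ ≤ 1) {x₁ x₂ s₁ s₂ : K}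
    (h₁ : E.Nonsingular x₁ (x₁ * s₁)) (h₂ : E.Nonsingular x₂ (x₂ * s₂))
    (hx₁ : v x₁ = 1) (hx₂ : 1 < v x₂) :
    InE0 v (Point.some _ _ h₁ + Point.some _ _ h₂) := by
  have hx₁0 : x₁ ≠ 0 := by
    rintro rfl; simp at hx₁
  have hx₂0 : x₂ ≠ 0 := ne_zero_of_one_lt hx₂
  have e₂ := hE.equation_s hx₂0 h₂.1
  have hs₁ : v s₁ ≤ 1 := hE.s_integral_of_unit hc hU hW h₁ hx₁
  obtain ⟨hs₂, hs₂'⟩ := m1e0_v_s_sq hc hU hW hx₂ e₂
  have hvD : v (s₁ + s₂ + E.a₁) = v s₂ := by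
    have : s₁ + s₂ + E.a₁ = s₂ + (s₁ + E.a₁) := by ring
    rw [this]
    exact Valuation.map_add_eq_of_lt_left v
      (lt_of_le_of_lt (Valuation.map_add_le v hs₁ hc) hs₂)
  have hD : s₁ + s₂ + E.a₁ ≠ 0 := ne_zero_of_one_lt (hvD ▸ hs₂)
  have hx12 : v (x₁ * x₂) = v x₂ := by rw [map_mul, hx₁, one_mul]
  have hvM : v (x₁ * x₂ - E.a₄) = v x₂ := by
    rw [← hx12]
    exact Valuation.map_sub_eq_of_lt_left v (lt_of_le_of_lt hW (hx12 ▸ hx₂))
  obtain ⟨x₃, y₃, h₃, hadd, hx₃⟩ := hE.add_plus_x' hx₁0 hx₂0 hD h₁ h₂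
  rw [hadd]
  show 1 ≤ v x₃
  have h0 : 0 < v x₂ := zero_lt_one.trans hx₂
  rw [hx₃, map_div₀, map_pow, map_mul, map_pow, hvM, hvD, hx12, hs₂', ← sq, div_self (pow_pos h0 2).ne']

/-- unit + unit, multiplicative reduction. -/
theorem IsM1.E0_add_unit_unit {E : WeierstrassCurve.Affine K} (hE : IsM1 E)
    (hc : v E.a₁ ≤ 1) (hU : v E.a₂ ≤ 1) (hW : v E.a₄ < 1) {x₁ x₂ s₁ s₂ : K}
    (h₁ : E.Nonsingular x₁ (x₁ * s₁)) (h₂ : E.Nonsingular x₂ (x₂ * s₂))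
    (hx₁ : v x₁ = 1) (hx₂ : v x₂ = 1) :
    InE0 v (Point.some _ _ h₁ + Point.some _ _ h₂) := by
  have hx₁0 : x₁ ≠ 0 := by
    rintro rfl; simp at hx₁
  have hx₂0 : x₂ ≠ 0 := by
    rintro rfl; simp at hx₂
  have e₁ := hE.equation_s hx₁0 h₁.1
  have e₂ := hE.equation_s hx₂0 h₂.1
  have hs₁ : v s₁ ≤ 1 := hE.s_integral_of_unit hc hU hW.le h₁ hx₁
  have hs₂ : v s₂ ≤ 1 := hE.s_integral_of_unit hc hU hW.le h₂ hx₂
  have hx12 : v (x₁ * x₂) = 1 := by rw [map_mul, hx₁, hx₂, one_mul]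
  have hvM : v (x₁ * x₂ - E.a₄) = 1 := by
    rw [← hx12]
    exact Valuation.map_sub_eq_of_lt_left v (hx12 ▸ hW)
  have hM : x₁ * x₂ - E.a₄ ≠ 0 := by
    intro h0; rw [h0] at hvM; simp at hvM
  have hvD : v (s₁ + s₂ + E.a₁) ≤ 1 :=
    Valuation.map_add_le v (Valuation.map_add_le v hs₁ hs₂) hc
  by_cases hD : s₁ + s₂ + E.a₁ = 0
  · have hd := m1_diff e₁ e₂
    rw [hD, mul_zero, mul_zero] at hd
    have hxx : x₁ = x₂ := by
      rcases mul_eq_zero.1 hd.symm with h9 | h9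
      · exact sub_eq_zero.1 h9
      · exact absurd h9 hM
    have hy : x₁ * s₁ = E.negY x₂ (x₂ * s₂) := by
      rw [hE.negY, hxx]; linear_combination x₂ * hD
    rw [Point.add_of_Y_eq hxx hy]
    trivial
  · obtain ⟨x₃, y₃, h₃, hadd, hx₃⟩ := hE.add_plus_x' hx₁0 hx₂0 hD h₁ h₂
    rw [hadd]
    show 1 ≤ v x₃
    have hD0 : 0 < v (s₁ + s₂ + E.a₁) := (Valuation.pos_iff v).mpr hD
    rw [hx₃, map_div₀, map_pow, map_mul, map_pow, hvM, hx12, one_pow, one_mul,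
      one_le_div₀ (pow_pos hD0 2)]
    exact pow_le_one₀ zero_le hvD

/-- Multiplicative reduction: the points not reducing to the node are closed under addition. -/
theorem IsM1.E0_add {E : WeierstrassCurve.Affine K} (hE : IsM1 E)
    (hc : v E.a₁ ≤ 1) (hU : v E.a₂ ≤ 1) (hW : v E.a₄ < 1) (P₁ P₂ : E.Point)
    (hP₁ : InE0 v P₁) (hP₂ : InE0 v P₂) : InE0 v (P₁ + P₂) := by
  rcases P₁ with _ | ⟨x₁, y₁, h₁⟩
  · rw [← Point.zero_def, zero_add]; exact hP₂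
  rcases P₂ with _ | ⟨x₂, y₂, h₂⟩
  · rw [← Point.zero_def, add_zero]; exact hP₁
  have hx₁ : 1 ≤ v x₁ := hP₁
  have hx₂ : 1 ≤ v x₂ := hP₂
  have hx₁0 : x₁ ≠ 0 := by
    rintro rfl; simp at hx₁
  have hx₂0 : x₂ ≠ 0 := by
    rintro rfl; simp at hx₂
  obtain ⟨s₁, h₁', e₁'⟩ := exists_s h₁ hx₁0
  obtain ⟨s₂, h₂', e₂'⟩ := exists_s h₂ hx₂0
  rw [e₁', e₂']
  rcases lt_or_eq_of_le hx₁ with hx₁ | hx₁ <;> rcases lt_or_eq_of_le hx₂ with hx₂ | hx₂
  · have := (hE.E1_add hc hU hW.le (Point.some _ _ h₁') (Point.some _ _ h₂') hx₁ hx₂).1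
    revert this
    generalize Point.some _ _ h₁' + Point.some _ _ h₂' = Q
    rcases Q with _ | ⟨x, y, h⟩
    · intro _; trivial
    · intro hQ
      exact le_of_lt (show 1 < v x from hQ)
  · rw [add_comm]
    exact hE.E0_add_unit_E1 hc hU hW.le h₂' h₁' hx₂.symm hx₁
  · exact hE.E0_add_unit_E1 hc hU hW.le h₁' h₂' hx₁.symm hx₂
  · exact hE.E0_add_unit_unit hc hU hW h₁' h₂' hx₁.symm hx₂.symm

omit [DecidableEq K] in
theorem InE0_neg {E : WeierstrassCurve.Affine K} (P : E.Point) (hP : InE0 v P) :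
    InE0 v (-P) := by
  rcases P with _ | ⟨x, y, h⟩
  · exact trivial
  · exact hP

omit [DecidableEq K] in
theorem InE0_of_InE1 {E : WeierstrassCurve.Affine K} (P : E.Point) (hP : InE1 v P) :
    InE0 v P := by
  rcases P with _ | ⟨x, y, h⟩
  · exact trivial
  · exact le_of_lt (show 1 < v x from hP)

theorem IsM1.E0_nsmul {E : WeierstrassCurve.Affine K} (hE : IsM1 E)
    (hc : v E.a₁ ≤ 1) (hU : v E.a₂ ≤ 1) (hW : v E.a₄ < 1) (P : E.Point)
    (hP : InE0 v P) (k : ℕ) : InE0 v (k • P) := by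
  induction k with
  | zero => rw [zero_nsmul]; trivial
  | succ k ih =>
    rw [succ_nsmul]
    exact hE.E0_add hc hU hW _ _ ih hP

theorem IsM1.E0_sub {E : WeierstrassCurve.Affine K} (hE : IsM1 E)
    (hc : v E.a₁ ≤ 1) (hU : v E.a₂ ≤ 1) (hW : v E.a₄ < 1) (P₁ P₂ : E.Point)
    (hP₁ : InE0 v P₁) (hP₂ : InE0 v P₂) : InE0 v (P₁ - P₂) := by
  rw [sub_eq_add_neg]
  exact hE.E0_add hc hU hW _ _ hP₁ (InE0_neg _ hP₂)

end Fermat.Agent.S13
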