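import Fermat.Agent.S13.Interface

/-!
# S13, package Lp1: inertia moves `p`-torsion points only inside the kernel of reduction

This is the S05 local theorem (`IsMC.good_fixed` / `IsMC.mult_fixed`) without its last step, so it
is valid in every residue characteristic different from `2`, in particular in residue
characteristic `p`.
-/

set_option autoImplicit false

namespace Fermat.Agent.S13

open WeierstrassCurve WeierstrassCurve.Affine

variable {K : Type*} [Field K] [DecidableEq K]
variable {Γ₀ : Type*} [LinearOrderedCommGroupWithZero Γ₀] {v : Valuation K Γ₀}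

/-- if `τ (k • P) - k • P` lies in a subgroup-like set closed under `nsmul`, so does `τ P - P`,
for a `p`-torsion point `P` and `0 < k < p`. -/
theorem lp1_sub_eq_nsmul {G : Type*} [AddCommGroup G] (τ : G →+ G) (P : G) (p k : ℕ)
    (hp : p.Prime) (hk1 : 1 ≤ k) (hkp : k < p) (hpP : p • P = 0) :
    ∃ m : ℕ, τ P - P = m • (τ (k • P) - k • P) := by
  have hcop : Nat.Coprime k p := by
    rw [Nat.coprime_comm]
    exact (Nat.Prime.coprime_iff_not_dvd hp).2 (fun hd => by
      have := Nat.le_of_dvd (by omega) hd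
      omega)
  obtain ⟨m, hm⟩ := Nat.exists_mul_mod_eq_one_of_coprime hcop hp.one_lt
  have e : k * m = p * (k * m / p) + 1 := by
    have := Nat.div_add_mod (k * m) p
    omega
  have hP : m • (k • P) = P := by
    rw [← mul_nsmul', mul_comm m k, e, add_nsmul, mul_comm p, mul_nsmul', one_nsmul, hpP]
    simp
  refine ⟨m, ?_⟩
  rw [smul_sub, ← map_nsmul, hP]

/-- **Claim 1.** Semistable model `y² = x³ + a₂ x² + a₄ x` (`a₂² - 4 a₄` a unit, residue
characteristic `≠ 2`), `v a₄ = v d ^ p` with `d` fixed by `σ`: an inertia-like `σ` moves a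
`p`-torsion point only by an element of the kernel of reduction. -/
theorem sub_mem_E1_of_torsion {E : WeierstrassCurve.Affine K} (hE : S05.IsMC E)
    (hU : v E.a₂ ≤ 1) (hW : v E.a₄ ≤ 1) (hW0 : E.a₄ ≠ 0)
    (hdisc : v (E.a₂ ^ 2 - 4 * E.a₄) = 1) (h2 : v (2 : K) = 1)
    {σ : K →+* K} {τ : E.Point →+ E.Point} (hτ : S05.InertiaAct v E σ τ)
    (p : ℕ) (hpp : p.Prime) {d : K} (hd : σ d = d) (hWd : v E.a₄ = v d ^ p)
    (P : E.Point) (hpP : p • P = 0) : S05.InE1 v (τ P - P) := by
  have hT := hE.nonsingular_T hW0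
  by_cases hP0 : S05.InE0 v P
  · exact hE.sub_mem_E1_of_E0 hU hW hdisc h2 hτ P hP0
  by_cases hP1 : S05.InE0 v (P + Point.some 0 0 hT)
  · refine hE.sub_mem_E1_of_E0_T hU hW hdisc h2 hτ hT P 1 ?_
    rwa [one_nsmul]
  rcases P with _ | ⟨x, y, h⟩
  · exact absurd trivial hP0
  have hx1 : v x < 1 := not_le.1 hP0
  have hxW : v E.a₄ < v x := by
    by_contra hc
    exact hP1 (hE.E0_add_T_of_le hT h (not_lt.1 hc))
  have hW1 : v E.a₄ < 1 := hxW.trans hx1
  have hx0 : x ≠ 0 := by
    rintro rfl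
    rw [map_zero] at hxW; simp at hxW
  have hvx : 0 < v x := (Valuation.pos_iff v).mpr hx0
  obtain ⟨s, h', e'⟩ := S05.exists_s h hx0
  rw [e'] at hpP ⊢
  have e := hE.equation_s hx0 h'.1
  -- `U` is a unit
  have h4 : v (4 : K) ≤ 1 := by
    have := S05.v_natCast_le_one v 4
    simpa using this
  have hUu : v E.a₂ = 1 := by
    have h5 : v (E.a₂ ^ 2) = 1 := by
      have : E.a₂ ^ 2 = (E.a₂ ^ 2 - 4 * E.a₄) + 4 * E.a₄ := by ring
      rw [this, ← hdisc]
      apply Valuation.map_add_eq_of_lt_left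
      rw [hdisc, map_mul]
      exact Right.mul_lt_one_of_le_of_lt h4 hW1
    rw [map_pow] at h5
    exact (pow_eq_one_iff_left two_ne_zero).mp h5
  -- `s` is a unit
  have hs : v s = 1 := by
    have h5 : v (s ^ 2) = 1 := by
      have : s ^ 2 = E.a₂ + (x + E.a₄ / x) := by
        field_simp
        linear_combination e
      rw [this, ← hUu]
      apply Valuation.map_add_eq_of_lt_left
      rw [hUu]
      apply Valuation.map_add_lt v hx1
      rw [map_div₀]
      exact (div_lt_one₀ hvx).mpr hxW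
    rw [map_pow] at h5
    exact (pow_eq_one_iff_left two_ne_zero).mp h5
  have hPos : S05.IsPos v s (Point.some _ _ h') x :=
    ⟨hxW, hx1, x, s, h', rfl, rfl, by simp⟩
  rcases hE.mult_induction h2 hT hs hPos p hpp.one_le with ⟨j, hj⟩ | ⟨k', hk1, hk2, j, hj1, hj2⟩
  · exfalso
    rw [hpP, zero_add] at hj
    obtain ⟨ht1, -, x', s', h'', e'', hx', -⟩ := hj
    have hx'0 : x' ≠ 0 := by
      rintro rfl
      rw [map_zero] at hx'; rw [← hx'] at ht1; simp at ht1
    rcases hE.nsmul_T hT j with h0 | h0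
    · rw [h0] at e''
      exact Point.some_ne_zero _ e''.symm
    · rw [h0] at e''
      simp only [Point.some.injEq] at e''
      exact hx'0 e''.1.symm
  · rcases lt_or_eq_of_le hk2 with hk2 | rfl
    · obtain ⟨m, hm⟩ := lp1_sub_eq_nsmul τ _ p k' hpp hk1 hk2 hpP
      rw [hm]
      exact (hE.E1_nsmul hU hW _
        (hE.sub_mem_E1_of_E0_T hU hW hdisc h2 hτ hT _ j hj1) m).1
    · apply hE.sub_mem_E1_of_val_fixed h2 hτ h' hx0 hs (δ := d ^ j) (by rw [map_pow, hd])
      rw [map_pow, map_pow, hWd, ← pow_mul, mul_comm, pow_mul] at hj2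
      rw [map_pow]
      exact (pow_left_inj hpp.ne_zero).mp hj2

end Fermat.Agent.S13
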