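import Fermat.Agent.S13.TwoE1

/-!
# S13, prime `2`: inertia acts unipotently on the prime-to-residue-characteristic torsion of
`y² + a₁ x y = x³ + a₂ x² + a₄ x` with multiplicative reduction (`v a₄ < 1`, `v b₂ = 1`).
-/

set_option autoImplicit false

namespace Fermat.Agent.S13.Two

open WeierstrassCurve WeierstrassCurve.Affine
open Fermat.Agent.S05

variable {K : Type*} [Field K]
variable {Γ₀ : Type*} [LinearOrderedCommGroupWithZero Γ₀] {v : Valuation K Γ₀}

theorem v_s_le_one {A s : K} (hA : v A ≤ 1) (h : v (s ^ 2 + A * s) ≤ 1) : v s ≤ 1 := by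
  by_contra hc
  have hs : 1 < v s := not_le.1 hc
  have h0 : 0 < v s := zero_lt_one.trans hs
  have h1 : v (s ^ 2 + A * s) = v (s ^ 2) := by
    apply Valuation.map_add_eq_of_lt_left
    rw [map_mul, map_pow, sq]
    exact mul_lt_mul_of_pos_right (lt_of_le_of_lt hA hs) h0
  rw [h1, map_pow] at h
  exact absurd (one_lt_pow₀ hs two_ne_zero) (not_lt.2 h)

variable [DecidableEq K]

/-- Points whose `x`-coordinate is a unit: `τ R - R` lies in the kernel of reduction. -/
theorem IsM1.sub_mem_E1_of_unit {E : WeierstrassCurve.Affine K} (hE : IsM1 E)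
    (hA : v E.a₁ ≤ 1) (hU : v E.a₂ ≤ 1) (hW : v E.a₄ < 1)
    {σ : K →+* K} {τ : E.Point →+ E.Point} (hτ : InertiaAct v E σ τ)
    {x y : K} (h : E.Nonsingular x y) (hx : v x = 1) :
    InE1 v (τ (Point.some x y h) - Point.some x y h) := by
  have hx0 : x ≠ 0 := by
    rintro rfl; simp at hx
  obtain ⟨s, h', e'⟩ := exists_s h hx0
  rw [e']
  obtain ⟨h₁, e₁'⟩ := hτ.act_s x s h'
  obtain ⟨h₂, e₂'⟩ := hE.neg_s x s h'
  rw [sub_eq_add_neg, e₁', e₂']
  have hσx : v (σ x) = 1 := hτ.val_unit hx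
  have hσx0 : σ x ≠ 0 := by
    intro h0; rw [h0] at hσx; simp at hσx
  have e₁ := hE.equation_s hσx0 h₁.1
  have e₂ := hE.equation_s hx0 h₂.1
  have e := hE.equation_s hx0 h'.1
  -- s is integral
  have hs : v s ≤ 1 := by
    apply v_s_le_one hA
    have : v (x * (s ^ 2 + E.a₁ * s)) ≤ 1 := by
      rw [e]
      refine Valuation.map_add_le v (Valuation.map_add_le v ?_ ?_) hW.le
      · rw [map_pow, hx]; simp
      · rw [map_mul, hx, mul_one]; exact hU
    rwa [map_mul, hx, one_mul] at this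
  have hDe : σ s + (-s - E.a₁) + E.a₁ = σ s - s := by ring
  have hDv : v (σ s + (-s - E.a₁) + E.a₁) < 1 := by
    rw [hDe]; exact hτ.triv s hs
  have hM : v (σ x * x - E.a₄) = 1 := by
    have h1 : v (σ x * x) = 1 := by rw [map_mul, hσx, hx, one_mul]
    rw [← h1]
    exact Valuation.map_sub_eq_of_lt_left v (h1 ▸ hW)
  have hM0 : σ x * x - E.a₄ ≠ 0 := by
    intro h0; rw [h0] at hM; simp at hM
  have hd := alg_diff e₁ e₂
  by_cases hD : σ s + (-s - E.a₁) + E.a₁ = 0
  · rw [hD, mul_zero, mul_zero] at hd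
    have hxx : σ x = x := by
      rcases mul_eq_zero.1 hd.symm with h9 | h9
      · exact sub_eq_zero.1 h9
      · exact absurd h9 hM0
    have hy : σ x * σ s = E.negY x (x * (-s - E.a₁)) := by
      rw [hE.negY, hxx]; linear_combination x * hD
    rw [Point.add_of_Y_eq hxx hy]
    trivial
  · obtain ⟨x₃, y₃, h₃, hadd, hx₃⟩ := hE.add_plus_x hσx0 hx0 hD h₁ h₂
    rw [hadd]
    show 1 < v x₃
    have hD0 : 0 < v (σ s + (-s - E.a₁) + E.a₁) := (Valuation.pos_iff v).mpr hD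
    rw [hx₃, map_div₀, map_mul, map_mul, map_pow, map_pow, hσx, hx, hM, one_mul, one_pow,
      one_mul, one_lt_div₀ (pow_pos hD0 2)]
    exact pow_lt_one₀ zero_le hDv two_ne_zero

theorem IsM1.sub_mem_E1_of_E0 {E : WeierstrassCurve.Affine K} (hE : IsM1 E)
    (hA : v E.a₁ ≤ 1) (hU : v E.a₂ ≤ 1) (hW : v E.a₄ < 1)
    {σ : K →+* K} {τ : E.Point →+ E.Point} (hτ : InertiaAct v E σ τ)
    (R : E.Point) (hR : InE0 v R) : InE1 v (τ R - R) := by
  rcases R with _ | ⟨x, y, h⟩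
  · rw [← Point.zero_def, map_zero, sub_zero]; trivial
  · have hx : 1 ≤ v x := hR
    rcases lt_or_eq_of_le hx with hx | hx
    · have h1 : InE1 v (Point.some x y h) := hx
      rw [sub_eq_add_neg]
      exact (hE.E1_add hA hU hW.le _ _ (hτ.E1 _ h1) (InE1_neg _ h1)).1
    · exact hE.sub_mem_E1_of_unit hA hU hW hτ h hx.symm

theorem IsM1.sub_mem_E1_of_E0_T {E : WeierstrassCurve.Affine K} (hE : IsM1 E)
    (hA : v E.a₁ ≤ 1) (hU : v E.a₂ ≤ 1) (hW : v E.a₄ < 1)
    {σ : K →+* K} {τ : E.Point →+ E.Point} (hτ : InertiaAct v E σ τ) (hT : E.Nonsingular 0 0)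
    (R : E.Point) (hR : InE0 v (R + Point.some 0 0 hT)) : InE1 v (τ R - R) := by
  have := hE.sub_mem_E1_of_E0 hA hU hW hτ _ hR
  rw [map_add, hτ.T_fixed hT] at this
  convert this using 1
  abel

omit [DecidableEq K] in
theorem IsM1.nonsingular_T {E : WeierstrassCurve.Affine K} (hE : IsM1 E) (hW : E.a₄ ≠ 0) :
    E.Nonsingular 0 0 := by
  rw [nonsingular_zero]
  exact ⟨hE.a₆, Or.inr hW⟩

theorem IsM1.T_add_T {E : WeierstrassCurve.Affine K} (hE : IsM1 E) (hT : E.Nonsingular 0 0) :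
    Point.some 0 0 hT + Point.some 0 0 hT = 0 := by
  apply Point.add_of_Y_eq rfl
  rw [hE.negY]; simp

omit [DecidableEq K] in
theorem IsM1.eq_T_of_x_zero {E : WeierstrassCurve.Affine K} (hE : IsM1 E) {y : K}
    (h : E.Nonsingular 0 y) : y = 0 := by
  have := (hE.equation_iff 0 y).1 h.1
  simpa using this

theorem IsM1.E0_add_T_of_le {E : WeierstrassCurve.Affine K} (hE : IsM1 E)
    (hT : E.Nonsingular 0 0) {x y : K} (h : E.Nonsingular x y) (hx : v x ≤ v E.a₄) :
    InE0 v (Point.some x y h + Point.some 0 0 hT) := by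
  by_cases hx0 : x = 0
  · subst hx0
    obtain rfl := hE.eq_T_of_x_zero h
    rw [hE.T_add_T]; trivial
  · obtain ⟨s, h', e'⟩ := exists_s h hx0
    obtain ⟨x₃, y₃, h₃, hadd, hx₃⟩ := hE.add_T_x hx0 hT h'
    rw [e', hadd]
    show 1 ≤ v x₃
    rw [hx₃, map_div₀]
    exact (one_le_div₀ ((Valuation.pos_iff v).mpr hx0)).mpr hx

/-- The intermediate components: `τ P - P` has nonsingular reduction. -/
theorem IsM1.sub_mem_E0_of_mid {E : WeierstrassCurve.Affine K} (hE : IsM1 E)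
    (hA : v E.a₁ ≤ 1) (hU : v E.a₂ ≤ 1) (hb2 : v (E.a₁ ^ 2 + 4 * E.a₂) = 1)
    {σ : K →+* K} {τ : E.Point →+ E.Point} (hτ : InertiaAct v E σ τ)
    (hval : ∀ a, v (σ a) = v a)
    {x y : K} (h : E.Nonsingular x y) (hx1 : v x < 1) (hxW : v E.a₄ < v x) :
    InE0 v (τ (Point.some x y h) - Point.some x y h) := by
  have hx0 : x ≠ 0 := by
    rintro rfl
    rw [map_zero] at hxW; simp at hxW
  have hvx : 0 < v x := (Valuation.pos_iff v).mpr hx0
  obtain ⟨s, h', e'⟩ := exists_s h hx0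
  rw [e']
  obtain ⟨h₁, e₁'⟩ := hτ.act_s x s h'
  obtain ⟨h₂, e₂'⟩ := hE.neg_s x s h'
  rw [sub_eq_add_neg, e₁', e₂']
  have hσx : v (σ x) = v x := hval x
  have hσx0 : σ x ≠ 0 := (map_ne_zero σ).mpr hx0
  have e₁ := hE.equation_s hσx0 h₁.1
  have e₂ := hE.equation_s hx0 h₂.1
  have e := hE.equation_s hx0 h'.1
  have hr : v (x + E.a₄ / x) < 1 := by
    apply Valuation.map_add_lt v hx1
    rw [map_div₀]
    exact (div_lt_one₀ hvx).mpr hxW
  have es : s ^ 2 + E.a₁ * s = E.a₂ + (x + E.a₄ / x) := by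
    field_simp
    linear_combination e
  have hs : v s ≤ 1 := by
    apply v_s_le_one hA
    rw [es]
    exact Valuation.map_add_le v hU hr.le
  have h4 : v (4 : K) ≤ 1 := by
    have := v_natCast_le_one v 4
    simpa using this
  have h2s : v (2 * s + E.a₁) = 1 := by
    have h5 : v ((2 * s + E.a₁) ^ 2) = 1 := by
      have : (2 * s + E.a₁) ^ 2 = (E.a₁ ^ 2 + 4 * E.a₂) + 4 * (x + E.a₄ / x) := by
        linear_combination 4 * es
      rw [this, ← hb2]
      apply Valuation.map_add_eq_of_lt_left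
      rw [hb2, map_mul]
      exact Right.mul_lt_one_of_le_of_lt h4 hr
    rw [map_pow] at h5
    exact (pow_eq_one_iff_left two_ne_zero).mp h5
  have hD' : v (σ s - (-s - E.a₁)) = 1 := by
    have : σ s - (-s - E.a₁) = (2 * s + E.a₁) + (σ s - s) := by ring
    rw [this, ← h2s]
    exact Valuation.map_add_eq_of_lt_left v (h2s ▸ hτ.triv s hs)
  have hD'0 : σ s - (-s - E.a₁) ≠ 0 := by
    intro h0; rw [h0] at hD'; simp at hD'
  have hd := alg_diff e₁ e₂
  by_cases hxx : σ x = x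
  · have hD0 : σ s + (-s - E.a₁) + E.a₁ = 0 := by
      rw [hxx, sub_self, zero_mul] at hd
      rcases mul_eq_zero.1 hd with h9 | h9
      · exact absurd h9 (mul_ne_zero hx0 hx0)
      · rcases mul_eq_zero.1 h9 with h9 | h9
        · exact absurd h9 hD'0
        · exact h9
    have hy : σ x * σ s = E.negY x (x * (-s - E.a₁)) := by
      rw [hE.negY, hxx]; linear_combination x * hD0
    rw [Point.add_of_Y_eq hxx hy]
    trivial
  · obtain ⟨x₃, y₃, h₃, hadd, hx₃⟩ := hE.add_minus_x hσx0 hx0 hxx h₁ h₂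
    rw [hadd]
    show 1 ≤ v x₃
    have hxx0 : 0 < v (σ x - x) := (Valuation.pos_iff v).mpr (sub_ne_zero.2 hxx)
    have hle : v (σ x - x) ≤ v x := Valuation.map_sub_le v hσx.le le_rfl
    rw [hx₃, map_div₀, map_mul, map_mul, map_pow, map_pow, hσx, hD', one_pow,
      mul_one, one_le_div₀ (pow_pos hxx0 2), ← sq]
    exact pow_le_pow_left₀ zero_le hle 2

/-- Multiplicative reduction: inertia acts unipotently on torsion of order prime to the residue
characteristic. -/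
theorem IsM1.unipotent {E : WeierstrassCurve.Affine K} (hE : IsM1 E)
    (hA : v E.a₁ ≤ 1) (hU : v E.a₂ ≤ 1) (hW : v E.a₄ < 1) (hW0 : E.a₄ ≠ 0)
    (hb2 : v (E.a₁ ^ 2 + 4 * E.a₂) = 1)
    {σ : K →+* K} {τ : E.Point →+ E.Point} (hτ : InertiaAct v E σ τ)
    (hval : ∀ a, v (σ a) = v a)
    (p : ℕ) (hp : v (p : K) = 1) (P : E.Point) (hpP : p • P = 0) :
    τ (τ P - P) = τ P - P := by
  have hT := hE.nonsingular_T hW0
  have hpQ : p • (τ P - P) = 0 := by
    rw [smul_sub, ← map_nsmul, hpP, map_zero, sub_zero]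
  have key : InE0 v (τ P - P) := by
    have hE1 : InE1 v (τ P - P) → InE0 v (τ P - P) := by
      intro h1
      rw [hE.E1_torsion_free hA hU hW.le _ h1 p hp hpQ]
      trivial
    by_cases hP0 : InE0 v P
    · exact hE1 (hE.sub_mem_E1_of_E0 hA hU hW hτ P hP0)
    by_cases hP1 : InE0 v (P + Point.some 0 0 hT)
    · exact hE1 (hE.sub_mem_E1_of_E0_T hA hU hW hτ hT P hP1)
    rcases P with _ | ⟨x, y, h⟩
    · exact absurd trivial hP0
    have hx1 : v x < 1 := not_le.1 hP0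
    have hxW : v E.a₄ < v x := by
      by_contra hc
      exact hP1 (hE.E0_add_T_of_le hT h (not_lt.1 hc))
    exact hE.sub_mem_E0_of_mid hA hU hb2 hτ hval h hx1 hxW
  have h2 := hE.sub_mem_E1_of_E0 hA hU hW hτ _ key
  have h3 : τ (τ P - P) - (τ P - P) = 0 := by
    apply hE.E1_torsion_free hA hU hW.le _ h2 p hp
    rw [smul_sub, ← map_nsmul, hpQ, map_zero, sub_zero]
  exact sub_eq_zero.1 h3

end Fermat.Agent.S13.Two
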