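import Fermat.Agent.S13.Interface
import Fermat.Agent.S13.TwoInertia

/-!
# S13, block [L2]: inertia at `2` acts unipotently on the `p`-torsion of the Frey curve.
-/

set_option autoImplicit false

namespace Fermat.Agent.S13

open WeierstrassCurve WeierstrassCurve.Affine WeierstrassCurve.Affine.Point
open Fermat.Agent.S05

namespace Two

open scoped Pointwise

/-- Elements of the decomposition group preserve the valuation ring. -/
theorem mem_iff_of_stab {A : ValuationSubring Qb} {σ : GQ}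
    (hσ : σ ∈ A.decompositionSubgroup ℚ) (a : Qb) : σ a ∈ A ↔ a ∈ A := by
  have h1 : σ • A = A := hσ
  have h2 : σ • a ∈ σ • A ↔ a ∈ A := ValuationSubring.smul_mem_pointwise_smul_iff
  rw [h1] at h2
  exact h2

theorem val_le_iff_of_stab {A : ValuationSubring Qb} {σ : GQ}
    (hσ : σ ∈ A.decompositionSubgroup ℚ) (a b : Qb) :
    A.valuation (σ a) ≤ A.valuation (σ b) ↔ A.valuation a ≤ A.valuation b := by
  by_cases hb : b = 0
  · subst hb
    simp
  have hσb : σ b ≠ 0 := (map_ne_zero σ).mpr hb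
  have h1 : A.valuation a ≤ A.valuation b ↔ a / b ∈ A := by
    rw [← ValuationSubring.valuation_le_one_iff, map_div₀,
      div_le_one₀ ((Valuation.pos_iff _).mpr hb)]
  have h2 : A.valuation (σ a) ≤ A.valuation (σ b) ↔ σ (a / b) ∈ A := by
    rw [← ValuationSubring.valuation_le_one_iff, map_div₀, map_div₀,
      div_le_one₀ ((Valuation.pos_iff _).mpr hσb)]
  rw [h1, h2, mem_iff_of_stab hσ]

theorem val_lt_iff_of_stab {A : ValuationSubring Qb} {σ : GQ}
    (hσ : σ ∈ A.decompositionSubgroup ℚ) (a b : Qb) :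
    A.valuation (σ a) < A.valuation (σ b) ↔ A.valuation a < A.valuation b := by
  rw [← not_le, ← not_le, val_le_iff_of_stab hσ]

theorem orbit_not_injective (σ : GQ) (a : Qb) : ¬ Function.Injective (fun k : ℕ => (σ ^ k) a) := by
  intro hinj
  have hfin : ((minpoly ℚ a).rootSet Qb).Finite := Polynomial.rootSet_finite _ _
  refine Set.infinite_range_of_injective hinj (hfin.subset ?_)
  rintro _ ⟨k, rfl⟩
  have hint : _root_.IsIntegral ℚ a :=
    ((AlgebraicClosure.isAlgebraic ℚ).isAlgebraic a).isIntegral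
  rw [Polynomial.mem_rootSet]
  refine ⟨minpoly.ne_zero hint, ?_⟩
  show Polynomial.aeval ((σ ^ k) a) (minpoly ℚ a) = 0
  rw [← AlgEquiv.coe_toAlgHom, Polynomial.aeval_algHom_apply, minpoly.aeval, _root_.map_zero]

/-- Elements of the decomposition group preserve the valuation. -/
theorem val_eq_of_stab {A : ValuationSubring Qb} {σ : GQ}
    (hσ : σ ∈ A.decompositionSubgroup ℚ) (a : Qb) : A.valuation (σ a) = A.valuation a := by
  have hstep : ∀ k : ℕ, (σ ^ (k + 1)) a = σ ((σ ^ k) a) := by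
    intro k
    rw [pow_succ']
    rfl
  rcases lt_trichotomy (A.valuation (σ a)) (A.valuation a) with h | h | h
  · exfalso
    have hanti : StrictAnti (fun k : ℕ => A.valuation ((σ ^ k) a)) := by
      apply strictAnti_nat_of_succ_lt
      intro k
      induction k with
      | zero => simpa using h
      | succ k ih =>
        rw [hstep (k + 1), hstep k]
        rw [hstep k] at ih
        exact (val_lt_iff_of_stab hσ _ _).mpr ih
    exact orbit_not_injective σ a (fun k l hkl => hanti.injective (congrArg A.valuation hkl))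
  · exact h
  · exfalso
    have hmono : StrictMono (fun k : ℕ => A.valuation ((σ ^ k) a)) := by
      apply strictMono_nat_of_lt_succ
      intro k
      induction k with
      | zero => simpa using h
      | succ k ih =>
        rw [hstep (k + 1), hstep k]
        rw [hstep k] at ih
        exact (val_lt_iff_of_stab hσ _ _).mpr ih
    exact orbit_not_injective σ a (fun k l hkl => hmono.injective (congrArg A.valuation hkl))

theorem val_eq_of_inertia {A : ValuationSubring Qb} {σ : GQ}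
    (hσ : σ ∈ A.inertiaSubgroupIn ℚ) (a : Qb) : A.valuation (σ a) = A.valuation a := by
  obtain ⟨g, -, rfl⟩ := hσ
  exact val_eq_of_stab g.2 a

/-! ### the Frey curve at `2` -/

theorem frey_isM1 (P : FreyPackage) : IsM1 (P.freyCurve⁄Qb) where
  a₃ := by simp [FreyPackage.freyCurve]
  a₆ := by simp [FreyPackage.freyCurve]

theorem frey_a₁ (P : FreyPackage) : (P.freyCurve⁄Qb).a₁ = 1 := by
  simp [FreyPackage.freyCurve]

theorem frey_32_dvd (P : FreyPackage) : (32 : ℤ) ∣ P.b ^ P.p := by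
  obtain ⟨k, hk⟩ := (ZMod.intCast_zmod_eq_zero_iff_dvd P.b 2).1 P.hb2
  rw [hk, mul_pow]
  apply Dvd.dvd.mul_right
  have : (32 : ℤ) = 2 ^ 5 := by norm_num
  rw [this]
  exact_mod_cast pow_dvd_pow (2 : ℤ) P.hp5

theorem frey_4_dvd (P : FreyPackage) : (4 : ℤ) ∣ P.a ^ P.p + 1 := by
  have h : (((P.a ^ P.p + 1 : ℤ)) : ZMod 4) = 0 := by
    push_cast
    rw [P.ha4]
    have h3 : (3 : ZMod 4) = -1 := by decide
    rw [h3, P.hp_odd.neg_one_pow]
    ring
  exact_mod_cast (ZMod.intCast_zmod_eq_zero_iff_dvd _ 4).1 h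

theorem frey_a₂ (P : FreyPackage) : ∃ n : ℤ, (P.freyCurve⁄Qb).a₂ = (n : Qb) := by
  obtain ⟨c, hc⟩ := frey_32_dvd P
  obtain ⟨d, hd⟩ := frey_4_dvd P
  refine ⟨8 * c - d, ?_⟩
  have h1 : ((P.b : ℚ) ^ P.p - 1 - (P.a : ℚ) ^ P.p) / 4 = ((8 * c - d : ℤ) : ℚ) := by
    have hc' : (P.b : ℚ) ^ P.p = 32 * c := by exact_mod_cast congrArg (Int.cast : ℤ → ℚ) hc
    have hd' : (P.a : ℚ) ^ P.p + 1 = 4 * d := by exact_mod_cast congrArg (Int.cast : ℤ → ℚ) hd
    push_cast
    linear_combination (1 / 4 : ℚ) * hc' - (1 / 4 : ℚ) * hd'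
  have h2 : (P.freyCurve⁄Qb).a₂ = algebraMap ℚ Qb (((P.b : ℚ) ^ P.p - 1 - (P.a : ℚ) ^ P.p) / 4) := by
    simp [FreyPackage.freyCurve]
  rw [h2, h1]
  simp

theorem frey_a₄ (P : FreyPackage) : ∃ m : ℤ, m ≠ 0 ∧ (P.freyCurve⁄Qb).a₄ = ((2 * m : ℤ) : Qb) := by
  obtain ⟨c, hc⟩ := frey_32_dvd P
  have hc0 : c ≠ 0 := by
    rintro rfl
    rw [mul_zero] at hc
    exact pow_ne_zero _ P.hb0 hc
  refine ⟨-(P.a ^ P.p) * c, mul_ne_zero (neg_ne_zero.2 (pow_ne_zero _ P.ha0)) hc0, ?_⟩
  have h1 : -((P.a : ℚ) ^ P.p) * (P.b : ℚ) ^ P.p / 16 = ((2 * (-(P.a ^ P.p) * c) : ℤ) : ℚ) := by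
    have hc' : (P.b : ℚ) ^ P.p = 32 * c := by exact_mod_cast congrArg (Int.cast : ℤ → ℚ) hc
    push_cast
    rw [hc']
    ring
  have h2 : (P.freyCurve⁄Qb).a₄ = algebraMap ℚ Qb (-((P.a : ℚ) ^ P.p) * (P.b : ℚ) ^ P.p / 16) := by
    simp [FreyPackage.freyCurve]
  rw [h2, h1]
  simp

theorem inertiaAct_frey (P : FreyPackage) {A : ValuationSubring Qb} {σ : GQ}
    (hσ : σ ∈ A.inertiaSubgroupIn ℚ) :
    InertiaAct A.valuation (P.freyCurve⁄Qb) (σ : Qb →+* Qb)
      (Point.map (W' := P.freyCurve) σ.toAlgHom) where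
  triv := inertia_unpack hσ
  act _ _ h := ⟨_, Point.map_some (W' := P.freyCurve) σ.toAlgHom h⟩

end Two

open Two in
/-- [L2] inertia at `2` acts unipotently. -/
theorem stmt_two : Stmt_two := by
  intro P A hA σ hσ x
  obtain ⟨n, hn⟩ := frey_a₂ P
  obtain ⟨m, hm0, hm⟩ := frey_a₄ P
  have h1 : A.valuation (P.freyCurve⁄Qb).a₁ ≤ 1 := by rw [frey_a₁, _root_.map_one]
  have hU : A.valuation (P.freyCurve⁄Qb).a₂ ≤ 1 := by rw [hn]; exact val_int_le A n
  have hW : A.valuation (P.freyCurve⁄Qb).a₄ < 1 := by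
    rw [hm]; exact val_int_lt hA (by exact_mod_cast Dvd.intro m rfl)
  have hW0 : (P.freyCurve⁄Qb).a₄ ≠ 0 := by
    rw [hm]
    exact_mod_cast mul_ne_zero two_ne_zero hm0
  have hb2 : A.valuation ((P.freyCurve⁄Qb).a₁ ^ 2 + 4 * (P.freyCurve⁄Qb).a₂) = 1 := by
    rw [frey_a₁, hn]
    have h : ¬ ((2 : ℕ) : ℤ) ∣ 1 + 4 * n := by
      intro h
      omega
    have := val_int_eq_one hA Nat.prime_two h
    push_cast at this
    rw [one_pow]
    exact this
  have hp : A.valuation ((P.p : ℕ) : Qb) = 1 := by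
    have h : ¬ ((2 : ℕ) : ℤ) ∣ (P.p : ℤ) := by
      intro h
      have h' : 2 ∣ P.p := by exact_mod_cast h
      exact (Nat.not_even_iff_odd.2 P.hp_odd) (even_iff_two_dvd.2 h')
    have := val_int_eq_one hA Nat.prime_two h
    simpa using this
  have hx : P.p • (x : (P.freyCurve⁄Qb).Point) = 0 := by
    have hx := x.2
    rw [Submodule.mem_torsionBy_iff] at hx
    rw [← hx, Nat.cast_smul_eq_nsmul]
  apply Subtype.ext
  exact (frey_isM1 P).unipotent h1 hU hW hW0 hb2 (inertiaAct_frey P hσ) (val_eq_of_inertia hσ)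
    P.p hp x hx

end Fermat.Agent.S13
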