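import Fermat.Agent.S13.M1E0

/-!
# S13, L2-API: the middle case. Two points reducing to the node, on the same branch and at the
same depth, differ by a point of nonsingular reduction.
-/

set_option autoImplicit false

namespace Fermat.Agent.S13

open WeierstrassCurve WeierstrassCurve.Affine
open Fermat.Agent.S05

variable {K : Type*} [Field K] [DecidableEq K]
variable {Γ₀ : Type*} [LinearOrderedCommGroupWithZero Γ₀] {v : Valuation K Γ₀}

omit [DecidableEq K] in
/-- in the middle range `v a₄ < v x < 1`, `s` is integral and `2 s + a₁` is a unit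
(`b₂ = a₁² + 4 a₂` a unit). -/
theorem m1_mid_s {c U W x s : K} (hc : v c ≤ 1) (hU : v U ≤ 1)
    (hb2 : v (c ^ 2 + 4 * U) = 1) (hx1 : v x < 1) (hxW : v W < v x)
    (e : x * (s ^ 2 + c * s) = x ^ 2 + U * x + W) : v s ≤ 1 ∧ v (2 * s + c) = 1 := by
  have hx0 : x ≠ 0 := by
    rintro rfl
    rw [map_zero] at hxW; simp at hxW
  have hvx : 0 < v x := (Valuation.pos_iff v).mpr hx0
  have h4 : v (4 : K) ≤ 1 := by simpa using v_natCast_le_one v 4
  have hq : v (x + W / x) < 1 := by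
    apply Valuation.map_add_lt v hx1
    rw [map_div₀]
    exact (div_lt_one₀ hvx).mpr hxW
  have e' : s ^ 2 + c * s = U + (x + W / x) := by
    field_simp
    linear_combination e
  have hs : v s ≤ 1 := by
    apply m1_s_integral hc
    rw [e']
    exact Valuation.map_add_le v hU hq.le
  refine ⟨hs, ?_⟩
  have h5 : v ((2 * s + c) ^ 2) = 1 := by
    have : (2 * s + c) ^ 2 = (c ^ 2 + 4 * U) + 4 * (x + W / x) := by
      linear_combination 4 * e'
    rw [this, ← hb2]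
    apply Valuation.map_add_eq_of_lt_left
    rw [hb2, map_mul]
    exact Right.mul_lt_one_of_le_of_lt h4 hq
  rw [map_pow] at h5
  exact (pow_eq_one_iff_left two_ne_zero).mp h5

/-- STATIC middle case. -/
theorem IsM1.sub_mem_E0_of_mid {E : WeierstrassCurve.Affine K} (hE : IsM1 E)
    {x s x' s' : K} (h : E.Nonsingular x (x * s)) (h' : E.Nonsingular x' (x' * s'))
    (hx0 : x ≠ 0) (hxv : v x' = v x) (hs : v (2 * s + E.a₁) = 1) (hsv : v (s' - s) < 1) :
    InE0 v (Point.some _ _ h' - Point.some _ _ h) := by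
  obtain ⟨h₂, e₂'⟩ := hE.neg_s x s h
  rw [sub_eq_add_neg, e₂']
  have hvx : 0 < v x := (Valuation.pos_iff v).mpr hx0
  have hx'0 : x' ≠ 0 := by
    intro h0; rw [h0, map_zero] at hxv; exact hvx.ne hxv
  have e₁ := hE.equation_s hx'0 h'.1
  have e₂ := hE.equation_s hx0 h₂.1
  have hd := m1_diff e₁ e₂
  have hD' : v (s' - (-s - E.a₁)) = 1 := by
    have : s' - (-s - E.a₁) = (2 * s + E.a₁) + (s' - s) := by ring
    rw [this, ← hs]
    exact Valuation.map_add_eq_of_lt_left v (hs ▸ hsv)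
  have hD'0 : s' - (-s - E.a₁) ≠ 0 := by
    intro h0; rw [h0] at hD'; simp at hD'
  by_cases hxx : x' = x
  · have hD0 : s' + (-s - E.a₁) + E.a₁ = 0 := by
      rw [hxx, sub_self, zero_mul] at hd
      rcases mul_eq_zero.1 hd with h9 | h9
      · exact absurd h9 (mul_ne_zero hx0 hx0)
      · rcases mul_eq_zero.1 h9 with h9 | h9
        · exact absurd h9 hD'0
        · exact h9
    have hy : x' * s' = E.negY x (x * (-s - E.a₁)) := by
      rw [hE.negY, hxx]; linear_combination x * hD0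
    rw [Point.add_of_Y_eq hxx hy]
    trivial
  · obtain ⟨x₃, y₃, h₃, hadd, hx₃⟩ := hE.add_minus_x' hx'0 hx0 hxx h' h₂
    rw [hadd]
    show 1 ≤ v x₃
    have hxx0 : 0 < v (x' - x) := (Valuation.pos_iff v).mpr (sub_ne_zero.2 hxx)
    have hle : v (x' - x) ≤ v x := Valuation.map_sub_le v hxv.le le_rfl
    rw [hx₃, map_div₀, map_mul, map_mul, map_pow, map_pow, hxv, hD', one_pow,
      mul_one, one_le_div₀ (pow_pos hxx0 2), ← sq]
    exact pow_le_pow_left₀ zero_le hle 2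

/-- Multiplicative reduction: for `τ` inertial and valuation preserving on the `x`-coordinate,
`τ P - P` has nonsingular reduction, for EVERY point `P`. -/
theorem IsM1.sub_mem_E0 {E : WeierstrassCurve.Affine K} (hE : IsM1 E)
    (hc : v E.a₁ ≤ 1) (hU : v E.a₂ ≤ 1) (hW : v E.a₄ < 1) (hW0 : E.a₄ ≠ 0)
    (hb2 : v (E.a₁ ^ 2 + 4 * E.a₂) = 1)
    (hdisc : v ((E.a₁ ^ 2 + 4 * E.a₂) ^ 2 - 64 * E.a₄) = 1)
    {σ : K →+* K} {τ : E.Point →+ E.Point} (hτ : InertiaAct v E σ τ)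
    (hval : ∀ a : K, v (σ a) = v a) (P : E.Point) : InE0 v (τ P - P) := by
  have hT := hE.nonsingular_T hW0
  by_cases hP0 : InE0 v P
  · exact InE0_of_InE1 _ (hE.sub_mem_E1_of_E0 hc hU hW.le hdisc hτ P hP0)
  by_cases hP1 : InE0 v (P + Point.some 0 0 hT)
  · refine InE0_of_InE1 _ (hE.sub_mem_E1_of_E0_T hc hU hW.le hdisc hτ hT P 1 ?_)
    rwa [one_nsmul]
  rcases P with _ | ⟨x, y, h⟩
  · exact absurd trivial hP0
  have hx1 : v x < 1 := not_le.1 hP0
  have hxW : v E.a₄ < v x := by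
    by_contra hcon
    exact hP1 (hE.E0_add_T_of_le hT h (not_lt.1 hcon))
  have hx0 : x ≠ 0 := by
    rintro rfl
    rw [map_zero] at hxW; simp at hxW
  obtain ⟨s, h', e'⟩ := exists_s h hx0
  rw [e']
  obtain ⟨h₁, e₁'⟩ := hτ.act_s x s h'
  rw [e₁']
  have e := hE.equation_s hx0 h'.1
  obtain ⟨hs, hs'⟩ := m1_mid_s hc hU hb2 hx1 hxW e
  exact hE.sub_mem_E0_of_mid h' h₁ hx0 (hval x) hs' (hτ.triv s hs)

omit [DecidableEq K] in
/-- the unit discriminant from `b₂` a unit and `v a₄ < 1`. -/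
theorem m1_disc_of_b2 {c U W : K} (hb2 : v (c ^ 2 + 4 * U) = 1) (hW : v W < 1) :
    v ((c ^ 2 + 4 * U) ^ 2 - 64 * W) = 1 := by
  have h64 : v (64 : K) ≤ 1 := by simpa using v_natCast_le_one v 64
  have h1 : v ((c ^ 2 + 4 * U) ^ 2) = 1 := by rw [map_pow, hb2, one_pow]
  rw [← h1]
  apply Valuation.map_sub_eq_of_lt_left
  rw [h1, map_mul]
  exact Right.mul_lt_one_of_le_of_lt h64 hW

/-- Multiplicative reduction, residue characteristic prime to `p`: inertia acts unipotently on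
`p`-torsion. -/
theorem IsM1.unipotent {E : WeierstrassCurve.Affine K} (hE : IsM1 E)
    (hc : v E.a₁ ≤ 1) (hU : v E.a₂ ≤ 1) (hW : v E.a₄ < 1) (hW0 : E.a₄ ≠ 0)
    (hb2 : v (E.a₁ ^ 2 + 4 * E.a₂) = 1)
    {σ : K →+* K} {τ : E.Point →+ E.Point} (hτ : InertiaAct v E σ τ)
    (hval : ∀ a : K, v (σ a) = v a) (p : ℕ) (hp : v (p : K) = 1)
    (P : E.Point) (hpP : p • P = 0) : τ (τ P - P) = τ P - P := by
  have hdisc := m1_disc_of_b2 hb2 hW
  have h0 := hE.sub_mem_E0 hc hU hW hW0 hb2 hdisc hτ hval P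
  apply hE.fixed_of_sub_mem_E1 hc hU hW.le _ p hp
  · rw [smul_sub, ← map_nsmul, hpP, map_zero, sub_zero]
  · exact hE.sub_mem_E1_of_E0 hc hU hW.le hdisc hτ _ h0

end Fermat.Agent.S13
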