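import Fermat.Agent.S13.Interface

/-!
# S13, package Lp2: rationality and valuation of a Galois-stable product
-/

set_option autoImplicit false

namespace Fermat.Agent.S13

theorem lp2_isAlgClosure : IsAlgClosure ℚ Qb := by
  have e : (DivisionRing.toRatAlgebra : Algebra ℚ (AlgebraicClosure ℚ)) =
      AlgebraicClosure.instAlgebra ℚ := Subsingleton.elim _ _
  convert (inferInstance :
    @IsAlgClosure ℚ (AlgebraicClosure ℚ) _ _ (AlgebraicClosure.instAlgebra ℚ) _)

theorem lp2_isGalois : IsGalois ℚ Qb := by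
  have := lp2_isAlgClosure
  infer_instance

/-- (a) the product of a Galois-stable finite set of algebraic numbers is rational. -/
theorem prod_mem_range (S : Finset Qb) (hS : ∀ σ : GQ, ∀ ξ ∈ S, σ ξ ∈ S) :
    ∃ r : ℚ, algebraMap ℚ Qb r = ∏ ξ ∈ S, ξ := by
  have := lp2_isGalois
  have h : (∏ ξ ∈ S, ξ) ∈ Set.range (algebraMap ℚ Qb) := by
    rw [InfiniteGalois.mem_range_algebraMap_iff_fixed]
    intro σ
    rw [map_prod]
    have himg : S.image σ = S := by
      apply Finset.eq_of_subset_of_card_le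
      · intro x hx
        obtain ⟨ξ, hξ, rfl⟩ := Finset.mem_image.1 hx
        exact hS σ ξ hξ
      · rw [Finset.card_image_of_injective _ σ.injective]
    conv_rhs => rw [← himg]
    rw [Finset.prod_image]
    intro x _ y _ hxy
    exact σ.injective hxy
  exact h

/-- (b) a rational number with a pole at `p` has valuation at least that of `1 / p`. -/
theorem one_le_val_p_mul (A : ValuationSubring Qb) {p : ℕ} (hp : p.Prime)
    (hA : A.LiesOverPrime p) (r : ℚ) (hr : 1 < A.valuation (algebraMap ℚ Qb r)) :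
    1 ≤ A.valuation (p : Qb) * A.valuation (algebraMap ℚ Qb r) := by
  have hden0 : ((r.den : ℤ) : Qb) ≠ 0 := by
    have := r.den_ne_zero
    exact_mod_cast this
  have hreq : algebraMap ℚ Qb r = ((r.num : ℤ) : Qb) / (((r.den : ℤ)) : Qb) := by
    conv_lhs => rw [← Rat.num_div_den r]
    rw [map_div₀]
    simp
  have hvden0 : A.valuation (((r.den : ℤ)) : Qb) ≠ 0 := (Valuation.ne_zero_iff _).2 hden0
  rw [hreq, map_div₀] at hr ⊢
  -- `p ∣ den`
  have hpden : (p : ℤ) ∣ (r.den : ℤ) := by
    by_contra hnd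
    have h1 := S05.val_int_eq_one hA hp hnd
    rw [h1, div_one] at hr
    exact absurd (S05.val_int_le A r.num) (not_le.2 hr)
  have hpnum : ¬ (p : ℤ) ∣ r.num := by
    intro hd
    have hcop : Nat.Coprime r.num.natAbs r.den := r.reduced
    have h1 : p ∣ r.num.natAbs := Int.natCast_dvd.1 hd
    have h2 : p ∣ r.den := Int.natCast_dvd_natCast.1 hpden
    have h3 : p ∣ 1 := by
      have := Nat.dvd_gcd h1 h2
      rwa [hcop] at this
    exact hp.one_lt.ne' (Nat.dvd_one.1 h3)
  rw [S05.val_int_eq_one hA hp hpnum]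
  obtain ⟨m, hm⟩ := hpden
  have hle : A.valuation (((r.den : ℤ)) : Qb) ≤ A.valuation (p : Qb) := by
    rw [hm]
    push_cast
    rw [map_mul]
    exact mul_le_of_le_one_right' (S05.val_int_le A m)
  rw [mul_one_div, le_div_iff₀ (zero_lt_iff.2 hvden0), one_mul]
  exact hle

end Fermat.Agent.S13
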