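import Fermat.Agent.S13.Interface
import Fermat.Agent.S13.AtpClaim1
import Fermat.Agent.S13.AtpRat

/-!
# S13, packages Lp3 + Lp4: the dichotomy at `p` for a Galois-stable line
-/

set_option autoImplicit false

namespace Fermat.Agent.S13

open WeierstrassCurve WeierstrassCurve.Affine WeierstrassCurve.Affine.Point

/-- Lp2 (a), as a proposition. -/
def Stmt_prod_mem_range : Prop :=
  ∀ S : Finset Qb, (∀ σ : GQ, ∀ ξ ∈ S, σ ξ ∈ S) → ∃ r : ℚ, algebraMap ℚ Qb r = ∏ ξ ∈ S, ξ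

/-- Lp2 (b), as a proposition. -/
def Stmt_one_le_val_p_mul : Prop :=
  ∀ (A : ValuationSubring Qb) {p : ℕ}, p.Prime → A.LiesOverPrime p → ∀ r : ℚ,
    1 < A.valuation (algebraMap ℚ Qb r) →
      1 ≤ A.valuation (p : Qb) * A.valuation (algebraMap ℚ Qb r)

/-- the `x`-coordinate of a point (junk value `0` at the origin). -/
def atpX {K : Type*} [Field K] {E : WeierstrassCurve.Affine K} : E.Point → K
  | .zero => 0
  | .some x _ _ => x

theorem atpX_some {K : Type*} [Field K] {E : WeierstrassCurve.Affine K} {x y : K}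
    (h : E.Nonsingular x y) : atpX (Point.some x y h) = x := rfl

/-- two affine points with the same `x`-coordinate are equal or opposite. -/
theorem atp_eq_or_eq_neg {K : Type*} [Field K] [DecidableEq K] {E : WeierstrassCurve.Affine K}
    {R Q : E.Point} (hR : R ≠ 0) (hQ : Q ≠ 0) (h : atpX R = atpX Q) : R = Q ∨ R = -Q := by
  rcases R with _ | ⟨x₁, y₁, h₁⟩
  · exact absurd rfl hR
  rcases Q with _ | ⟨x₂, y₂, h₂⟩
  · exact absurd rfl hQ
  have hx : x₁ = x₂ := h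
  subst hx
  rcases Y_eq_of_X_eq h₁.1 h₂.1 rfl with hy | hy
  · left; subst hy; rfl
  · right
    rw [Point.neg_some]
    simp only [Point.some.injEq, true_and]
    exact hy

/-- in a group of prime order `p` inside an additive group, everything is, up to sign, a multiple
of any nonzero element. -/
theorem atp_exists_nsmul {G : Type*} [AddCommGroup G] (S' : AddSubgroup G) {p : ℕ} (hp : p.Prime)
    (hcard : Nat.card S' = p) {P0 : G} (hP0 : P0 ∈ S') (hP00 : P0 ≠ 0) {R : G} (hR : R ∈ S') :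
    ∃ k : ℕ, R = k • P0 ∨ R = -(k • P0) := by
  have : Fact p.Prime := ⟨hp⟩
  have h1 : (⟨R, hR⟩ : S') ∈ AddSubgroup.zmultiples (⟨P0, hP0⟩ : S') :=
    mem_zmultiples_of_prime_card hcard (by
      intro h0
      exact hP00 (congrArg Subtype.val h0))
  obtain ⟨k, hk⟩ := AddSubgroup.mem_zmultiples_iff.1 h1
  have hk' : k • P0 = R := by
    have := congrArg Subtype.val hk
    simpa using this
  obtain ⟨n, rfl | rfl⟩ := Int.eq_nat_or_neg k
  · exact ⟨n, Or.inl (by rw [← hk', natCast_zsmul])⟩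
  · exact ⟨n, Or.inr (by rw [← hk', neg_zsmul, natCast_zsmul])⟩

/-- a nonempty product of elements `> 1` is `> 1`. -/
theorem atp_one_lt_prod {Γ₀ ι : Type*} [LinearOrderedCommGroupWithZero Γ₀] (F : Finset ι)
    (f : ι → Γ₀) (hF : F.Nonempty) (hf : ∀ i ∈ F, 1 < f i) : 1 < ∏ i ∈ F, f i := by
  classical
  induction F using Finset.induction_on with
  | empty => exact absurd hF (by simp)
  | insert a s ha ih =>
    rw [Finset.prod_insert ha]
    have h1 : 1 < f a := hf a (Finset.mem_insert_self a s)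
    by_cases hs : s.Nonempty
    · exact one_lt_mul_of_lt_of_le h1
        (ih hs (fun i hi => hf i (Finset.mem_insert_of_mem hi))).le
    · rw [Finset.not_nonempty_iff_eq_empty] at hs
      subst hs
      simpa using h1

theorem atp_model (hG : Stmt_model_gauss) (hR1 : Stmt_prod_mem_range)
    (hR2 : Stmt_one_le_val_p_mul) {A : ValuationSubring Qb} {p : ℕ}
    (hA : A.LiesOverPrime p) (hp : p.Prime) (hp2 : p ≠ 2) (u w d : ℤ) (hw : w = d ^ p)
    (hd0 : d ≠ 0) (hdisc : ¬ (p : ℤ) ∣ u ^ 2 - 4 * w)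
    (S' : AddSubgroup ((S05.mcQ (u : ℚ) (w : ℚ))⁄Qb).Point)
    (hS'p : ∀ R ∈ S', p • R = 0) (hcard : Nat.card S' = p)
    (hstab : ∀ σ : GQ, ∀ R ∈ S', Point.map (W' := S05.mcQ (u : ℚ) (w : ℚ)) σ.toAlgHom R ∈ S') :
    (∀ σ ∈ A.inertiaSubgroupIn ℚ, ∀ R : ((S05.mcQ (u : ℚ) (w : ℚ))⁄Qb).Point, p • R = 0 →
      Point.map (W' := S05.mcQ (u : ℚ) (w : ℚ)) σ.toAlgHom R - R ∈ S') ∨
    (∀ σ ∈ A.inertiaSubgroupIn ℚ, ∀ R ∈ S',
      Point.map (W' := S05.mcQ (u : ℚ) (w : ℚ)) σ.toAlgHom R = R) := by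
  have hE := S05.isMC_mcQ (u : ℚ) (w : ℚ)
  have hw0 : w ≠ 0 := by rw [hw]; exact pow_ne_zero p hd0
  have hdisc0 : u ^ 2 - 4 * w ≠ 0 := by
    intro h0
    exact hdisc (h0 ▸ dvd_zero _)
  have e2 : ((S05.mcQ (u : ℚ) (w : ℚ))⁄Qb).a₂ = (u : Qb) := by
    rw [S05.mcQ_a₂]; simp
  have e4 : ((S05.mcQ (u : ℚ) (w : ℚ))⁄Qb).a₄ = (w : Qb) := by
    rw [S05.mcQ_a₄]; simp
  have hU : A.valuation ((S05.mcQ (u : ℚ) (w : ℚ))⁄Qb).a₂ ≤ 1 := by
    rw [e2]; exact S05.val_int_le A u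
  have hW : A.valuation ((S05.mcQ (u : ℚ) (w : ℚ))⁄Qb).a₄ ≤ 1 := by
    rw [e4]; exact S05.val_int_le A w
  have hW0 : ((S05.mcQ (u : ℚ) (w : ℚ))⁄Qb).a₄ ≠ 0 := by
    rw [e4]; exact_mod_cast hw0
  have hD : A.valuation (((S05.mcQ (u : ℚ) (w : ℚ))⁄Qb).a₂ ^ 2
      - 4 * ((S05.mcQ (u : ℚ) (w : ℚ))⁄Qb).a₄) = 1 := by
    rw [e2, e4]
    have := S05.val_int_eq_one hA hp hdisc
    push_cast at this ⊢
    exact this
  have h2 : A.valuation (2 : Qb) = 1 := by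
    have : ¬ (p : ℤ) ∣ 2 := by
      intro h
      have h' : p ∣ 2 := by exact_mod_cast h
      exact hp2 ((Nat.prime_dvd_prime_iff_eq hp Nat.prime_two).1 h')
    have := S05.val_int_eq_one hA hp this
    simpa using this
  have hWd : A.valuation ((S05.mcQ (u : ℚ) (w : ℚ))⁄Qb).a₄ = A.valuation (d : Qb) ^ p := by
    rw [e4, hw]; push_cast; rw [map_pow]
  have claim1 : ∀ σ ∈ A.inertiaSubgroupIn ℚ, ∀ R : ((S05.mcQ (u : ℚ) (w : ℚ))⁄Qb).Point,
      p • R = 0 → S05.InE1 A.valuation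
        (Point.map (W' := S05.mcQ (u : ℚ) (w : ℚ)) σ.toAlgHom R - R) := by
    intro σ hσ R hR
    exact sub_mem_E1_of_torsion hE hU hW hW0 hD h2 (S05.inertiaAct_mcQ (u : ℚ) (w : ℚ) hσ) p hp
      (d := (d : Qb)) (by simp) hWd R hR
  by_cases hex : ∃ P0 ∈ S', P0 ≠ 0 ∧ S05.InE1 A.valuation P0
  · left
    obtain ⟨P0, hP0, hP00, hP0E⟩ := hex
    have hall : ∀ R ∈ S', S05.InE1 A.valuation R := by
      intro R hR
      obtain ⟨k, hk | hk⟩ := atp_exists_nsmul S' hp hcard hP0 hP00 hR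
      · rw [hk]; exact (hE.E1_nsmul hU hW P0 hP0E k).1
      · rw [hk]; exact S05.InE1_neg _ (hE.E1_nsmul hU hW P0 hP0E k).1
    have hfinS : Finite S' := Nat.finite_of_card_ne_zero (by rw [hcard]; exact hp.ne_zero)
    have hfin : (S' : Set ((S05.mcQ (u : ℚ) (w : ℚ))⁄Qb).Point).Finite := Set.toFinite _
    classical
    obtain ⟨F, hFdef⟩ : ∃ F : Finset Qb, F = (hfin.toFinset.erase 0).image atpX := ⟨_, rfl⟩
    have hF : ∀ ξ, ξ ∈ F ↔ ∃ R ∈ S', R ≠ 0 ∧ atpX R = ξ := by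
      intro ξ
      rw [hFdef]
      simp only [Finset.mem_image, Finset.mem_erase, Set.Finite.mem_toFinset, SetLike.mem_coe]
      constructor
      · rintro ⟨R, ⟨h0, hR⟩, rfl⟩
        exact ⟨R, hR, h0, rfl⟩
      · rintro ⟨R, hR, h0, rfl⟩
        exact ⟨R, ⟨h0, hR⟩, rfl⟩
    have hFstab : ∀ σ : GQ, ∀ ξ ∈ F, σ ξ ∈ F := by
      intro σ ξ hξ
      obtain ⟨R, hR, hR0, rfl⟩ := (hF ξ).1 hξ
      rcases R with _ | ⟨x, y, h⟩
      · exact absurd rfl hR0
      · refine (hF _).2 ⟨_, hstab σ _ hR, ?_, ?_⟩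
        · rw [Point.map_some]; exact Point.some_ne_zero _
        · rw [Point.map_some]; rfl
    have hFv : ∀ ξ ∈ F, 1 < A.valuation ξ ∧
        ∃ (y : Qb) (h : ((S05.mcQ (u : ℚ) (w : ℚ))⁄Qb).Nonsingular ξ y),
          p • (Point.some ξ y h : ((S05.mcQ (u : ℚ) (w : ℚ))⁄Qb).Point) = 0 := by
      intro ξ hξ
      obtain ⟨R, hR, hR0, rfl⟩ := (hF ξ).1 hξ
      have h1 := hall R hR
      have h3 := hS'p R hR
      rcases R with _ | ⟨x, y, h⟩
      · exact absurd rfl hR0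
      · exact ⟨h1, y, h, h3⟩
    have hFne : F.Nonempty := ⟨atpX P0, (hF _).2 ⟨P0, hP0, hP00, rfl⟩⟩
    obtain ⟨r, hr⟩ := hR1 F hFstab
    have hvr : A.valuation (algebraMap ℚ Qb r) = ∏ ξ ∈ F, A.valuation ξ := by
      rw [hr, map_prod]
    have hprod : 1 < ∏ ξ ∈ F, A.valuation ξ :=
      atp_one_lt_prod F _ hFne (fun ξ hξ => (hFv ξ hξ).1)
    have h1 : 1 ≤ A.valuation (p : Qb) * ∏ ξ ∈ F, A.valuation ξ := by
      rw [← hvr]
      exact hR2 A hp hA r (hvr ▸ hprod)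
    have key : ∀ R : ((S05.mcQ (u : ℚ) (w : ℚ))⁄Qb).Point, p • R = 0 →
        S05.InE1 A.valuation R → R ∈ S' := by
      intro R hR hRE
      by_contra hRS
      have hR0 : R ≠ 0 := by
        rintro rfl
        exact hRS S'.zero_mem
      have hxF : atpX R ∉ F := by
        intro hx
        obtain ⟨Q, hQ, hQ0, hQx⟩ := (hF _).1 hx
        rcases atp_eq_or_eq_neg hR0 hQ0 hQx.symm with h | h
        · exact hRS (h ▸ hQ)
        · exact hRS (h ▸ S'.neg_mem hQ)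
      have hxv : 1 < A.valuation (atpX R) ∧
          ∃ (y : Qb) (h : ((S05.mcQ (u : ℚ) (w : ℚ))⁄Qb).Nonsingular (atpX R) y),
            p • (Point.some (atpX R) y h : ((S05.mcQ (u : ℚ) (w : ℚ))⁄Qb).Point) = 0 := by
        rcases R with _ | ⟨x, y, h⟩
        · exact absurd rfl hR0
        · exact ⟨hRE, y, h, hR⟩
      have hg := hG u w hw0 hdisc0 p hp hp2 A (insert (atpX R) F) (by
        intro ξ hξ
        rcases Finset.mem_insert.1 hξ with rfl | hξ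
        · exact hxv
        · exact hFv ξ hξ)
      rw [Finset.prod_insert hxF, mul_left_comm] at hg
      have : 1 < A.valuation (atpX R) * (A.valuation (p : Qb) * ∏ ξ ∈ F, A.valuation ξ) :=
        one_lt_mul_of_lt_of_le hxv.1 h1
      exact absurd hg (not_le.2 this)
    intro σ hσ R hR
    apply key _ _ (claim1 σ hσ R hR)
    rw [nsmul_sub, ← map_nsmul, hR, _root_.map_zero, sub_zero]
  · right
    intro σ hσ R hR
    by_contra hne
    exact hex ⟨_, S'.sub_mem (hstab σ R hR) hR, sub_ne_zero.2 hne, claim1 σ hσ R (hS'p R hR)⟩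

/-- transfer of the model statement to the Frey curve. -/
theorem atp_of_model (hG : Stmt_model_gauss) (hR1 : Stmt_prod_mem_range)
    (hR2 : Stmt_one_le_val_p_mul) (P : FreyPackage) {A : ValuationSubring Qb}
    (hA : A.LiesOverPrime P.p) (u w d : ℤ) (ρ : ℚ) (hw : w = d ^ P.p)
    (hd0 : d ≠ 0) (hdisc : ¬ (P.p : ℤ) ∣ u ^ 2 - 4 * w)
    (r1 : (u : ℚ) = 4 * P.freyCurve.a₂ + 1 - 3 * ρ)
    (r2 : (w : ℚ) = 16 * P.freyCurve.a₄ - 3 * ρ ^ 2 - 2 * (u : ℚ) * ρ)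
    (r3 : ρ ^ 3 + (u : ℚ) * ρ ^ 2 + (w : ℚ) * ρ = 0)
    (L : Submodule (ZMod P.p) (Tors P)) (hL : IsGaloisStable ℚ L) (hcard : Nat.card L = P.p) :
    (∀ σ ∈ A.inertiaSubgroupIn ℚ, ∀ x : Tors P, σ • x - x ∈ L) ∨
      (∀ σ ∈ A.inertiaSubgroupIn ℚ, ∀ x ∈ L, σ • x = x) := by
  have H := S05.isTransfer_frey P (u : ℚ) (w : ℚ) ρ r1 r2 r3
  obtain ⟨φ, hφ⟩ : ∃ φ : Tors P →+ ((S05.mcQ (u : ℚ) (w : ℚ))⁄Qb).Point,
      ∀ x : Tors P, φ x = H.hom (x : (P.freyCurve⁄Qb).Point) :=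
    ⟨H.hom.comp (Submodule.subtype _).toAddMonoidHom, fun _ => rfl⟩
  have hφinj : Function.Injective φ := by
    intro x y hxy
    rw [hφ, hφ] at hxy
    exact Subtype.ext (H.hom_injective hxy)
  have hφσ : ∀ (σ : GQ) (x : Tors P),
      Point.map (W' := S05.mcQ (u : ℚ) (w : ℚ)) σ.toAlgHom (φ x) = φ (σ • x) := by
    intro σ x
    rw [hφ, hφ, ← S05.transfer_equivariant P H]
    rfl
  have hφp : ∀ x : Tors P, P.p • φ x = 0 := by
    intro x
    rw [hφ, ← map_nsmul]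
    have hx := x.2
    rw [Submodule.mem_torsionBy_iff] at hx
    have : P.p • (x : (P.freyCurve⁄Qb).Point) = 0 := by
      rw [← hx, Nat.cast_smul_eq_nsmul]
    rw [this, _root_.map_zero]
  have hp2 : P.p ≠ 2 := by
    have := P.hp5
    omega
  rcases atp_model hG hR1 hR2 hA P.pp hp2 u w d hw hd0 hdisc (L.toAddSubgroup.map φ)
    (by
      rintro R ⟨x, -, rfl⟩
      exact hφp x)
    (by
      rw [AddSubgroup.card_map_of_injective hφinj]
      exact hcard)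
    (by
      rintro σ R ⟨x, hx, rfl⟩
      rw [hφσ]
      exact ⟨σ • x, hL σ x hx, rfl⟩) with h | h
  · left
    intro σ hσ x
    obtain ⟨y, hy, hyx⟩ := h σ hσ (φ x) (hφp x)
    rw [hφσ, ← map_sub] at hyx
    rw [← hφinj hyx]
    exact hy
  · right
    intro σ hσ x hx
    have := h σ hσ (φ x) ⟨x, hx, rfl⟩
    rw [hφσ] at this
    exact hφinj this

/-- **Lp3 + Lp4**: the dichotomy at `p`. -/
theorem stmt_atp_of (hG : Stmt_model_gauss) (hR1 : Stmt_prod_mem_range)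
    (hR2 : Stmt_one_le_val_p_mul) : Stmt_atp := by
  intro P A hA L hL hcard
  have hpZ : Prime (P.p : ℤ) := Nat.prime_iff_prime_int.1 P.pp
  have hFLT : (P.a : ℚ) ^ P.p + (P.b : ℚ) ^ P.p = (P.c : ℚ) ^ P.p := by
    exact_mod_cast congrArg (Int.cast : ℤ → ℚ) P.hFLT
  by_cases hc : (P.p : ℤ) ∣ P.c
  · have hb : ¬ (P.p : ℤ) ∣ P.b := by
      intro hb
      have := dvd_gcd hb hc
      rw [P.hgcdbc] at this
      exact hpZ.not_isUnit (isUnit_of_dvd_one this)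
    refine atp_of_model hG hR1 hR2 P hA (2 * P.a ^ P.p + P.b ^ P.p) ((P.a * P.c) ^ P.p)
      (P.a * P.c) ((-(P.a ^ P.p) : ℤ) : ℚ) rfl (mul_ne_zero P.ha0 P.hc0) ?_ ?_ ?_ ?_ L hL hcard
    · have e : (2 * P.a ^ P.p + P.b ^ P.p) ^ 2 - 4 * (P.a * P.c) ^ P.p = (P.b ^ P.p) ^ 2 := by
        rw [mul_pow, ← P.hFLT]; ring
      rw [e]
      intro h
      exact hb (hpZ.dvd_of_dvd_pow (hpZ.dvd_of_dvd_pow h))
    · simp only [FreyPackage.freyCurve]
      push_cast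
      ring
    · simp only [FreyPackage.freyCurve]
      push_cast
      rw [mul_pow, ← hFLT]
      ring
    · push_cast
      rw [mul_pow, ← hFLT]
      ring
  · refine atp_of_model hG hR1 hR2 P hA (P.b ^ P.p - P.a ^ P.p) ((-(P.a * P.b)) ^ P.p)
      (-(P.a * P.b)) 0 rfl (neg_ne_zero.2 (mul_ne_zero P.ha0 P.hb0)) ?_ ?_ ?_ ?_ L hL hcard
    · have e : (P.b ^ P.p - P.a ^ P.p) ^ 2 - 4 * (-(P.a * P.b)) ^ P.p = (P.c ^ P.p) ^ 2 := by
        rw [P.hp_odd.neg_pow, mul_pow, ← P.hFLT]; ring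
      rw [e]
      intro h
      exact hc (hpZ.dvd_of_dvd_pow (hpZ.dvd_of_dvd_pow h))
    · simp only [FreyPackage.freyCurve]
      push_cast
      ring
    · simp only [FreyPackage.freyCurve]
      push_cast
      rw [P.hp_odd.neg_pow, mul_pow]
      ring
    · ring

/-- **Lp3 + Lp4**, with Lp2 plugged in. -/
theorem stmt_atp (hG : Stmt_model_gauss) : Stmt_atp :=
  stmt_atp_of hG (fun S hS => prod_mem_range S hS)
    (fun A _ hp hA r hr => one_le_val_p_mul A hp hA r hr)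

end Fermat.Agent.S13
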