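import Fermat.Agent.S13.NoRatLocal
import Fermat.Agent.S13.AtpRat

/-!
# S13, block L2f: the Frey curve has no rational point of order `p` (local argument at `2`).
-/

set_option autoImplicit false

namespace Fermat.Agent.S13

open WeierstrassCurve WeierstrassCurve.Affine WeierstrassCurve.Affine.Point

namespace NoRat

/-- the `2`-adic valuation of the rationals. -/
noncomputable abbrev v2 : Valuation ℚ (WithZero (Multiplicative ℤ)) := Rat.padicValuation 2

theorem v2_int_le (n : ℤ) : v2 (n : ℚ) ≤ 1 := by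
  rw [Rat.padicValuation_cast]; exact Int.padicValuation_le_one 2 n

theorem v2_int_lt_iff (n : ℤ) : v2 (n : ℚ) < 1 ↔ (2 : ℤ) ∣ n := by
  rw [Rat.padicValuation_cast, Int.padicValuation_lt_one_iff]; rfl

theorem v2_int_eq_iff (n : ℤ) : v2 (n : ℚ) = 1 ↔ ¬ (2 : ℤ) ∣ n := by
  rw [Rat.padicValuation_cast, Int.padicValuation_eq_one_iff]; rfl

theorem v2_apply {x : ℚ} (hx : x ≠ 0) : v2 x = WithZero.exp (-padicValRat 2 x) := by
  simp [Rat.padicValuation, hx]

theorem v2_two : v2 (2 : ℚ) < 1 := by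
  have := (v2_int_lt_iff 2).2 dvd_rfl
  exact_mod_cast this

/-- the residue field is `𝔽₂`. -/
theorem v2_res (x : ℚ) (hx : v2 x ≤ 1) : v2 x < 1 ∨ v2 (x - 1) < 1 := by
  rw [Rat.padicValuation_le_one_iff] at hx
  have hd : v2 ((x.den : ℤ) : ℚ) = 1 := by
    rw [v2_int_eq_iff]
    exact_mod_cast hx
  have hd0 : ((x.den : ℤ) : ℚ) ≠ 0 := by exact_mod_cast x.den_nz
  have key : ∀ n : ℤ, v2 ((n : ℚ) / ((x.den : ℤ) : ℚ)) < 1 ↔ (2 : ℤ) ∣ n := by
    intro n
    rw [map_div₀, hd, div_one, v2_int_lt_iff]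
  have hxe : x = (x.num : ℚ) / ((x.den : ℤ) : ℚ) := by
    rw [Int.cast_natCast]; exact (Rat.num_div_den x).symm
  have hd2 : ¬ (2 : ℤ) ∣ (x.den : ℤ) := by exact_mod_cast hx
  by_cases h : (2 : ℤ) ∣ x.num
  · left
    rw [hxe]
    exact (key _).2 h
  · right
    have e : x - 1 = ((x.num - x.den : ℤ) : ℚ) / ((x.den : ℤ) : ℚ) := by
      have hxd : x * ((x.den : ℤ) : ℚ) = (x.num : ℚ) := by
        rw [Int.cast_natCast]; exact Rat.mul_den_eq_num x
      rw [eq_div_iff hd0, sub_mul, one_mul, hxd]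
      push_cast; ring
    rw [e, key]
    omega

/-! ### arithmetic of the Frey package -/

theorem frey_two_dvd_b (P : FreyPackage) : (2 : ℤ) ∣ P.b :=
  (ZMod.intCast_zmod_eq_zero_iff_dvd P.b 2).1 P.hb2

theorem frey_a_odd (P : FreyPackage) : ¬ (2 : ℤ) ∣ P.a := by
  intro h
  have h4 : ((P.a - 3 : ℤ) : ZMod 4) = 0 := by
    push_cast; rw [P.ha4]; simp
  have h4' : ((4 : ℕ) : ℤ) ∣ P.a - 3 := (ZMod.intCast_zmod_eq_zero_iff_dvd _ 4).1 h4
  omega

theorem frey_a2_int (P : FreyPackage) : ∃ k : ℤ, P.freyCurve.a₂ = (k : ℚ) := by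
  have h4 : ((P.b ^ P.p - 1 - P.a ^ P.p : ℤ) : ZMod 4) = 0 := by
    obtain ⟨b', hb'⟩ := frey_two_dvd_b P
    obtain ⟨m, hm⟩ : ∃ m, P.p = m + 2 := ⟨P.p - 2, by have := P.hp5; omega⟩
    have hb : ((P.b ^ P.p : ℤ) : ZMod 4) = 0 := by
      rw [hb', hm, mul_pow, pow_add]
      have h22 : (((2 : ℤ) ^ 2 : ℤ) : ZMod 4) = 0 := by decide
      rw [Int.cast_mul, Int.cast_mul, h22]; ring
    have ha : ((P.a ^ P.p : ℤ) : ZMod 4) = -1 := by
      push_cast
      rw [P.ha4]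
      have : (3 : ZMod 4) = -1 := by decide
      rw [this, P.hp_odd.neg_one_pow]
    rw [Int.cast_sub, Int.cast_sub, hb, ha]
    simp
  obtain ⟨k, hk⟩ : ((4 : ℕ) : ℤ) ∣ P.b ^ P.p - 1 - P.a ^ P.p :=
    (ZMod.intCast_zmod_eq_zero_iff_dvd _ 4).1 h4
  refine ⟨k, ?_⟩
  have hk' : ((P.b : ℚ) ^ P.p - 1 - (P.a : ℚ) ^ P.p) = 4 * (k : ℚ) := by exact_mod_cast hk
  show ((P.b : ℚ) ^ P.p - 1 - (P.a : ℚ) ^ P.p) / 4 = (k : ℚ)
  rw [hk']; ring

theorem frey_a4_ne_zero (P : FreyPackage) : P.freyCurve.a₄ ≠ 0 := by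
  show -((P.a : ℚ) ^ P.p) * ((P.b : ℚ) ^ P.p) / 16 ≠ 0
  have ha : (P.a : ℚ) ≠ 0 := by exact_mod_cast P.ha0
  have hb : (P.b : ℚ) ≠ 0 := by exact_mod_cast P.hb0
  exact div_ne_zero (mul_ne_zero (neg_ne_zero.2 (pow_ne_zero _ ha)) (pow_ne_zero _ hb))
    (by norm_num)

theorem frey_a4_val (P : FreyPackage) :
    padicValRat 2 P.freyCurve.a₄ = (P.p : ℤ) * padicValRat 2 (P.b : ℚ) - 4 := by
  show padicValRat 2 (-((P.a : ℚ) ^ P.p) * ((P.b : ℚ) ^ P.p) / 16) = _
  have ha : (P.a : ℚ) ≠ 0 := by exact_mod_cast P.ha0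
  have hb : (P.b : ℚ) ≠ 0 := by exact_mod_cast P.hb0
  have h16 : padicValRat 2 (16 : ℚ) = 4 := by
    have : (16 : ℚ) = ((2 : ℕ) : ℚ) ^ 4 := by norm_num
    rw [this, padicValRat.pow, padicValRat.self (by norm_num)]
    norm_num
  have hav : padicValRat 2 (P.a : ℚ) = 0 := by
    rw [padicValRat.of_int]
    have := frey_a_odd P
    exact_mod_cast padicValInt.eq_zero_of_not_dvd (by exact_mod_cast this)
  rw [padicValRat.div (mul_ne_zero (neg_ne_zero.2 (pow_ne_zero _ ha)) (pow_ne_zero _ hb))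
    (by norm_num), padicValRat.mul (neg_ne_zero.2 (pow_ne_zero _ ha)) (pow_ne_zero _ hb),
    padicValRat.neg, padicValRat.pow, padicValRat.pow, h16, hav]
  ring

theorem frey_b_val (P : FreyPackage) : 1 ≤ padicValRat 2 (P.b : ℚ) := by
  rw [padicValRat.of_int]
  have h : (2 : ℤ) ∣ P.b := frey_two_dvd_b P
  have := (padicValInt_dvd_iff (p := 2) 1 P.b).1 (by simpa using h)
  rcases this with h0 | h0
  · exact absurd h0 P.hb0
  · exact_mod_cast h0

theorem frey_a4_lt (P : FreyPackage) : v2 P.freyCurve.a₄ < 1 := by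
  rw [v2_apply (frey_a4_ne_zero P), frey_a4_val, ← WithZero.exp_zero, WithZero.exp_lt_exp]
  have h1 := frey_b_val P
  have h5 : (5 : ℤ) ≤ P.p := by exact_mod_cast P.hp5
  nlinarith

theorem frey_H (P : FreyPackage) (x : ℚ) (j : ℕ)
    (h : v2 x ^ P.p = v2 P.freyCurve.a₄ ^ j) : P.p ∣ j := by
  have hW := frey_a4_ne_zero P
  have hx : x ≠ 0 := by
    rintro rfl
    rw [_root_.map_zero, zero_pow P.hp0] at h
    exact pow_ne_zero j ((Valuation.ne_zero_iff _).2 hW) h.symm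
  rw [← map_pow, ← map_pow, v2_apply (pow_ne_zero _ hx), v2_apply (pow_ne_zero _ hW)] at h
  have h' := WithZero.exp_injective h
  rw [padicValRat.pow, padicValRat.pow, frey_a4_val] at h'
  have hd : (P.p : ℤ) ∣ ((4 * j : ℕ) : ℤ) := by
    refine ⟨j * padicValRat 2 (P.b : ℚ) - padicValRat 2 x, ?_⟩
    push_cast
    linarith
  have hd' : P.p ∣ 4 * j := Int.natCast_dvd_natCast.1 hd
  rcases (Nat.Prime.dvd_mul P.pp).1 hd' with h4 | h4
  · have := Nat.le_of_dvd (by norm_num) h4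
    have := P.hp5
    omega
  · exact h4

theorem frey_vp (P : FreyPackage) : v2 (P.p : ℚ) = 1 := by
  have : v2 (((P.p : ℤ)) : ℚ) = 1 := by
    rw [v2_int_eq_iff]
    obtain ⟨m, hm⟩ := P.hp_odd
    omega
  exact_mod_cast this

/-- the Frey curve has no rational `p`-torsion. -/
theorem frey_no_torsion_rat (P : FreyPackage) (R : (P.freyCurve⁄ℚ).Point) (h : P.p • R = 0) :
    R = 0 := by
  have hE : IsM1 (P.freyCurve⁄ℚ) := ⟨by simp [FreyPackage.freyCurve], by simp [FreyPackage.freyCurve]⟩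
  have e₁ : (P.freyCurve⁄ℚ).a₁ = 1 := by simp [FreyPackage.freyCurve]
  have e₂ : (P.freyCurve⁄ℚ).a₂ = P.freyCurve.a₂ := by simp
  have e₄ : (P.freyCurve⁄ℚ).a₄ = P.freyCurve.a₄ := by simp
  obtain ⟨k, hk⟩ := frey_a2_int P
  refine hE.no_torsion (v := v2) v2_two (by rw [e₁, map_one]) (by rw [e₂, hk]; exact v2_int_le k)
    (by rw [e₄]; exact frey_a4_lt P) (by rw [e₄]; exact frey_a4_ne_zero P) v2_res P.pp P.hp5
    (frey_vp P) (by rw [e₄]; exact frey_H P) R h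

/-- Galois descent of points. -/
theorem exists_rat_point (W : WeierstrassCurve ℚ) (Q : (W⁄Qb).Point) (h : ∀ σ : GQ, σ • Q = Q) :
    ∃ R : (W⁄ℚ).Point, Point.baseChange ℚ Qb R = Q := by
  have := lp2_isGalois
  rcases Q with _ | ⟨X, Y, hXY⟩
  · exact ⟨0, rfl⟩
  · have hX : X ∈ Set.range (algebraMap ℚ Qb) := by
      rw [InfiniteGalois.mem_range_algebraMap_iff_fixed]
      intro σ
      have h1 := h σ
      rw [algEquiv_smul_def, Point.map_some] at h1
      injection h1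
    have hY : Y ∈ Set.range (algebraMap ℚ Qb) := by
      rw [InfiniteGalois.mem_range_algebraMap_iff_fixed]
      intro σ
      have h1 := h σ
      rw [algEquiv_smul_def, Point.map_some] at h1
      injection h1
    obtain ⟨x, rfl⟩ := hX
    obtain ⟨y, rfl⟩ := hY
    exact ⟨Point.some x y ((WeierstrassCurve.Affine.baseChange_nonsingular W
      (f := Algebra.ofId ℚ Qb) (Algebra.ofId ℚ Qb).injective x y).1 hXY), rfl⟩

end NoRat

theorem stmt_noRat : Stmt_noRat := by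
  intro P x hx
  have hfix : ∀ σ : GQ, σ • (x : (P.freyCurve⁄Qb).Point) = x :=
    fun σ => congrArg Subtype.val (hx σ)
  have htors : ((P.p : ℕ) : ℤ) • (x : (P.freyCurve⁄Qb).Point) = 0 :=
    (Submodule.mem_torsionBy_iff _ _).1 x.2
  obtain ⟨R, hR⟩ := NoRat.exists_rat_point P.freyCurve x hfix
  have hpR : P.p • R = 0 := by
    apply Point.map_injective (W' := P.freyCurve) (Algebra.ofId ℚ Qb)
    rw [map_nsmul, _root_.map_zero]
    rw [natCast_zsmul] at htors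
    exact hR ▸ htors
  have hR0 := NoRat.frey_no_torsion_rat P R hpR
  apply Subtype.ext
  rw [← hR, hR0]
  rfl

end Fermat.Agent.S13
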