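import Fermat.Agent.S13.Interface

/-!
# S13, package T7: counting the `p`-torsion points of the model curve

From the description of multiplication by `p` on `x`-coordinates (`x(pP) = X(x)/Z(x)`, package T6)
we deduce `#E[p] = deg X = p ^ 2`: for a good `c` the polynomial `X - c Z` is separable, and its
roots are in bijection with the fibre `[p]⁻¹(Q)`, `Q = (c, y_c)`, which is a coset of `E[p]`.
-/

set_option autoImplicit false

namespace Fermat.Agent.S13

open Polynomial WeierstrassCurve WeierstrassCurve.Affine WeierstrassCurve.Affine.Point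

section generic

variable {K : Type*} [Field K]

/-- The output of package T6 for a fixed multiplier `n`: multiplication by `n` is given on
`x`-coordinates by `X / Z`. -/
def MulByData [DecidableEq K] (E : WeierstrassCurve.Affine K) (n : ℕ) (X Z : K[X]) : Prop :=
  ∀ (x y : K) (h : E.Nonsingular x y),
    ((X.eval x, Z.eval x) ≠ (0, 0)) ∧
    (n • (Point.some x y h : E.Point) = 0 ↔ Z.eval x = 0) ∧
    (∀ (x' y' : K) (h' : E.Nonsingular x' y'),
      n • (Point.some x y h : E.Point) = Point.some x' y' h' → x' * Z.eval x = X.eval x)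

/-- the Wronskian of `X` (monic of degree `M + 2`) and `Z` (of degree `M + 1`) is non-zero. -/
theorem count_wronskian_ne_zero {X Z : K[X]} {M : ℕ} (hX : X.natDegree ≤ M + 2)
    (hXc : X.coeff (M + 2) = 1) (hZ : Z.natDegree ≤ M + 1) (hZc : Z.coeff (M + 1) ≠ 0) :
    derivative X * Z - X * derivative Z ≠ 0 := by
  intro h0
  have h1 : (derivative X * Z).coeff ((M + 1) + (M + 1))
      = (derivative X).coeff (M + 1) * Z.coeff (M + 1) :=
    coeff_mul_add_eq_of_natDegree_le ((natDegree_derivative_le X).trans (by omega)) hZ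
  have h2 : (X * derivative Z).coeff ((M + 2) + M)
      = X.coeff (M + 2) * (derivative Z).coeff M :=
    coeff_mul_add_eq_of_natDegree_le hX ((natDegree_derivative_le Z).trans (by omega))
  have h3 := congrArg (fun f => f.coeff ((M + 1) + (M + 1))) h0
  simp only [coeff_sub, coeff_zero] at h3
  rw [h1, show (M + 1) + (M + 1) = (M + 2) + M by ring, h2, coeff_derivative, coeff_derivative,
    hXc] at h3
  apply hZc
  push_cast at h3
  linear_combination h3

/-- for all but finitely many `c` the polynomial `X - c Z` is separable. -/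
theorem count_exists_good [IsAlgClosed K] [Infinite K] [DecidableEq K] {X Z : K[X]}
    (hW : derivative X * Z - X * derivative Z ≠ 0)
    (hcop : ∀ x, X.eval x ≠ 0 ∨ Z.eval x ≠ 0) (B : Finset K) :
    ∃ c, c ∉ B ∧ (X - C c * Z).Separable := by
  obtain ⟨c, hc⟩ := Infinite.exists_notMem_finset
    (B ∪ (derivative X * Z - X * derivative Z).roots.toFinset.image
      (fun r => X.eval r / Z.eval r))
  rw [Finset.notMem_union] at hc
  refine ⟨c, hc.1, ?_⟩
  rw [Polynomial.Separable, Polynomial.isCoprime_iff_aeval_ne_zero_of_isAlgClosed K K]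
  intro r
  by_contra hcon
  push Not at hcon
  obtain ⟨e1, e2⟩ := hcon
  simp only [coe_aeval_eq_eval, eval_sub, eval_mul, eval_C, derivative_sub, derivative_mul,
    derivative_C, zero_mul, zero_add] at e1 e2
  have hZr : Z.eval r ≠ 0 := by
    intro hz
    rcases hcop r with h | h
    · apply h
      rw [hz] at e1
      linear_combination e1
    · exact h hz
  apply hc.2
  rw [Finset.mem_image]
  refine ⟨r, ?_, ?_⟩
  · rw [Multiset.mem_toFinset, mem_roots hW, IsRoot.def]
    simp only [eval_sub, eval_mul]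
    linear_combination (Z.eval r) * e2 - (eval r (derivative Z)) * e1
  · rw [div_eq_iff hZr]
    linear_combination e1

theorem count_Δ {E : WeierstrassCurve.Affine K} (hE : S05.IsMC E) :
    E.Δ = 16 * E.a₄ ^ 2 * (E.a₂ ^ 2 - 4 * E.a₄) := by
  simp only [WeierstrassCurve.Δ, WeierstrassCurve.b₂, WeierstrassCurve.b₄, WeierstrassCurve.b₆,
    WeierstrassCurve.b₈, hE.a₁, hE.a₃, hE.a₆]
  ring

theorem count_exists_point [IsAlgClosed K] {E : WeierstrassCurve.Affine K} (hE : S05.IsMC E)
    (hΔ : E.Δ ≠ 0) (x : K) : ∃ y, E.Nonsingular x y := by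
  obtain ⟨y, hy⟩ := IsAlgClosed.exists_pow_nat_eq (x ^ 3 + E.a₂ * x ^ 2 + E.a₄ * x)
    (n := 2) (by norm_num)
  exact ⟨y, (equation_iff_nonsingular_of_Δ_ne_zero hΔ).1 ((hE.equation_iff x y).2 hy)⟩

theorem count_eq_or_eq_neg [DecidableEq K] {E : WeierstrassCurve.Affine K} {x y y' : K}
    (h : E.Nonsingular x y) (h' : E.Nonsingular x y') :
    (Point.some x y' h' : E.Point) = Point.some x y h ∨
      (Point.some x y' h' : E.Point) = - Point.some x y h := by
  rcases Y_eq_of_X_eq h'.1 h.1 rfl with e | e
  · left; subst e; rfl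
  · right; subst e; rw [Point.neg_some]

/-- the `x`-coordinate, with junk value `0` at the origin. -/
def countX {E : WeierstrassCurve.Affine K} : E.Point → K
  | .zero => 0
  | .some x _ _ => x

/-- **The count.** If multiplication by `p` is given on `x`-coordinates by `X / Z` with `X` monic
of degree `N`, `deg Z < N` and non-vanishing Wronskian, then `E[p]` has exactly `N` elements. -/
theorem count_main [IsAlgClosed K] [CharZero K] [DecidableEq K] {E : WeierstrassCurve.Affine K}
    (hE : S05.IsMC E) (hΔ : E.Δ ≠ 0) {p : ℕ} {X Z : K[X]} {N : ℕ} (hN : 0 < N)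
    (hXd : X.natDegree = N) (hZd : Z.natDegree < N)
    (hW : derivative X * Z - X * derivative Z ≠ 0) (hT : MulByData E p X Z) :
    Nat.card {R : E.Point // p • R = 0} = N := by
  have hcop : ∀ x, X.eval x ≠ 0 ∨ Z.eval x ≠ 0 := by
    intro x
    obtain ⟨y, hy⟩ := count_exists_point hE hΔ x
    have := (hT x y hy).1
    by_contra hcon
    push Not at hcon
    exact this (Prod.ext hcon.1 hcon.2)
  set g : K[X] := Polynomial.X ^ 3 + C E.a₂ * Polynomial.X ^ 2 + C E.a₄ * Polynomial.X with hg
  have hg0 : g ≠ 0 := by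
    intro h
    have := congrArg (fun q => q.coeff 3) h
    simp [hg] at this
  obtain ⟨c, hcB, hsep⟩ := count_exists_good hW hcop g.roots.toFinset
  have hgc : c ^ 3 + E.a₂ * c ^ 2 + E.a₄ * c ≠ 0 := by
    intro h
    apply hcB
    rw [Multiset.mem_toFinset, mem_roots hg0, IsRoot.def]
    simp [hg, h]
  obtain ⟨yc, hyc⟩ := count_exists_point hE hΔ c
  have hyc0 : yc ≠ 0 := by
    rintro rfl
    have := (hE.equation_iff c 0).1 hyc.1
    apply hgc
    rw [← this]; ring
  set Q : E.Point := Point.some c yc hyc with hQ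
  have hQ0 : Q ≠ 0 := Point.some_ne_zero hyc
  have hQneg : Q ≠ -Q := by
    rw [hQ, Point.neg_some]
    intro h
    rw [Point.some.injEq, hE.negY] at h
    have h1 : yc = -yc := h.2
    apply hyc0
    have h2 : (2 : K) * yc = 0 := by linear_combination h1
    simpa using h2
  set f : K[X] := X - C c * Z with hf
  have hfd : f.natDegree = N := by
    rw [hf, natDegree_sub_eq_left_of_natDegree_lt, hXd]
    calc (C c * Z).natDegree ≤ Z.natDegree := natDegree_C_mul_le _ _
      _ < X.natDegree := by omega
  have hf0 : f ≠ 0 := by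
    intro h
    rw [h, natDegree_zero] at hfd
    omega
  have hcard : Nat.card (f.rootSet K) = N := by
    rw [Nat.card_eq_fintype_card, card_rootSet_eq_natDegree hsep (IsAlgClosed.splits _), hfd]
  have hfe : ∀ x, f.eval x = X.eval x - c * Z.eval x := by
    intro x; simp [hf]
  have key1 : ∀ P : E.Point, p • P = Q → f.eval (countX P) = 0 := by
    intro P hP
    rcases P with _ | ⟨x, y, h⟩
    · exfalso
      apply hQ0
      rw [← hP]
      exact smul_zero p
    · have := (hT x y h).2.2 c yc hyc hP
      rw [hfe]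
      show X.eval x - c * Z.eval x = 0
      linear_combination -this
  have key2 : ∀ x, f.eval x = 0 → ∃ P : E.Point, p • P = Q ∧ countX P = x := by
    intro x hx
    rw [hfe] at hx
    obtain ⟨y, h⟩ := count_exists_point hE hΔ x
    have hZx : Z.eval x ≠ 0 := by
      intro hz
      rcases hcop x with h' | h'
      · apply h'
        rw [hz] at hx
        linear_combination hx
      · exact h' hz
    have hne : p • (Point.some x y h : E.Point) ≠ 0 := fun h0 => hZx ((hT x y h).2.1.1 h0)
    rcases hpP : p • (Point.some x y h : E.Point) with _ | ⟨x', y', h'⟩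
    · exact absurd hpP hne
    · have e := (hT x y h).2.2 x' y' h' hpP
      have hx' : x' = c := by
        apply mul_right_cancel₀ hZx
        linear_combination e + hx
      subst hx'
      rcases count_eq_or_eq_neg hyc h' with e' | e'
      · exact ⟨Point.some x y h, hpP.trans e', rfl⟩
      · refine ⟨-Point.some x y h, ?_, ?_⟩
        · rw [smul_neg, hpP, e', neg_neg]
        · rw [Point.neg_some]; rfl
  have key3 : ∀ P P' : E.Point, p • P = Q → p • P' = Q → countX P = countX P' → P = P' := by
    intro P P' hP hP' hxx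
    rcases P with _ | ⟨x, y, h⟩
    · exfalso
      apply hQ0
      rw [← hP]
      exact smul_zero p
    rcases P' with _ | ⟨x', y', h'⟩
    · exfalso
      apply hQ0
      rw [← hP']
      exact smul_zero p
    have hxx' : x = x' := hxx
    subst hxx'
    rcases count_eq_or_eq_neg h h' with e | e
    · exact e.symm
    · exfalso
      apply hQneg
      rw [e, smul_neg, hP] at hP'
      exact hP'.symm
  have hF : Nat.card {P : E.Point // p • P = Q} = N := by
    rw [← hcard]
    refine Nat.card_congr (Equiv.ofBijective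
      (fun P => ⟨countX P.1, by
        rw [mem_rootSet]
        exact ⟨hf0, by simpa using key1 P.1 P.2⟩⟩) ⟨?_, ?_⟩)
    · intro P P' h
      exact Subtype.ext (key3 P.1 P'.1 P.2 P'.2 (congrArg Subtype.val h))
    · intro r
      have hr := r.2
      rw [mem_rootSet] at hr
      obtain ⟨P, hP, hx⟩ := key2 r.1 (by simpa using hr.2)
      exact ⟨⟨P, hP⟩, Subtype.ext hx⟩
  obtain ⟨P₀, hP₀⟩ : ∃ P₀ : E.Point, p • P₀ = Q := by
    have : Nonempty {P : E.Point // p • P = Q} := by
      by_contra hcon
      rw [not_nonempty_iff] at hcon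
      rw [Nat.card_of_isEmpty] at hF
      omega
    exact ⟨this.some.1, this.some.2⟩
  rw [← hF]
  refine Nat.card_congr
    { toFun := fun R => ⟨R.1 + P₀, by rw [smul_add, R.2, hP₀, zero_add]⟩
      invFun := fun P => ⟨P.1 - P₀, by rw [smul_sub, P.2, hP₀, sub_self]⟩
      left_inv := fun R => Subtype.ext (by simp)
      right_inv := fun P => Subtype.ext (by simp) }

end generic

/-- The statement of package T6 for the model curves (multiplication by `n` on `x`-coordinates is
given by Mathlib's `Φ n / ΨSq n`). -/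
def Stmt_mulBy : Prop :=
  ∀ (u w : ℤ), w ≠ 0 → u ^ 2 - 4 * w ≠ 0 → ∀ n : ℕ,
    MulByData ((S05.mcQ (u : ℚ) (w : ℚ))⁄Qb) n
      (((S05.mcQ (u : ℚ) (w : ℚ))⁄Qb).Φ n) (((S05.mcQ (u : ℚ) (w : ℚ))⁄Qb).ΨSq n)

/-- the count for a general model curve over an algebraically closed field of characteristic `0`,
with Mathlib's division polynomials. -/
theorem count_card_of_mulBy {K : Type*} [Field K] [IsAlgClosed K] [CharZero K] [DecidableEq K]
    {E : WeierstrassCurve.Affine K} (hE : S05.IsMC E) (h4 : E.a₄ ≠ 0)
    (hd : E.a₂ ^ 2 - 4 * E.a₄ ≠ 0) {n : ℕ} (hn : 2 ≤ n)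
    (hT : MulByData E n (E.Φ n) (E.ΨSq n)) :
    Nat.card {R : E.Point // n • R = 0} = n ^ 2 := by
  have hΔ : E.Δ ≠ 0 := by
    rw [count_Δ hE]
    exact mul_ne_zero (mul_ne_zero (by norm_num) (pow_ne_zero 2 h4)) hd
  have hn0 : ((n : ℤ) : K) ≠ 0 := by
    rw [Int.cast_natCast, Nat.cast_ne_zero]; omega
  obtain ⟨M, hM⟩ : ∃ M, n ^ 2 = M + 2 := by
    have h4' : 2 ≤ n ^ 2 := by nlinarith
    exact ⟨n ^ 2 - 2, by omega⟩
  have hXd : (E.Φ n).natDegree = n ^ 2 := by
    rw [WeierstrassCurve.natDegree_Φ, Int.natAbs_natCast]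
  have hZd : (E.ΨSq n).natDegree = n ^ 2 - 1 := by
    rw [WeierstrassCurve.natDegree_ΨSq _ hn0, Int.natAbs_natCast]
  refine count_main hE hΔ (by positivity) hXd (by rw [hZd]; omega) ?_ hT
  refine count_wronskian_ne_zero (M := M) (by omega) ?_ (by omega) ?_
  · have := E.coeff_Φ n
    rwa [Int.natAbs_natCast, hM] at this
  · have := E.coeff_ΨSq_ne_zero hn0
    rwa [Int.natAbs_natCast, hM] at this

/-- **T7.** `Stmt_model_card` follows from T6. -/
theorem model_card_of_mulBy (h : Stmt_mulBy) : Stmt_model_card := by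
  intro u w hw hd p hp _
  have hE := S05.isMC_mcQ (u : ℚ) (w : ℚ)
  refine count_card_of_mulBy hE ?_ ?_ hp.two_le (h u w hw hd p)
  · rw [S05.mcQ_a₄]
    simpa using hw
  · rw [S05.mcQ_a₂, S05.mcQ_a₄]
    have : ((u ^ 2 - 4 * w : ℤ) : Qb) ≠ 0 := by exact_mod_cast hd
    simpa using this

end Fermat.Agent.S13
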