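import Fermat.Agent.S13.M1Add

/-!
# S13, L2-API part A: the kernel of reduction `E₁` of `y² + a₁ x y = x³ + a₂ x² + a₄ x` has no
torsion prime to the residue characteristic (port of `S05/E1` to `a₁ ≠ 0`, with the `S05`
definitions `InE1`, `zc`; same proofs as helper76's `NoRatE1`).
-/

set_option autoImplicit false

namespace Fermat.Agent.S13

open WeierstrassCurve WeierstrassCurve.Affine Fermat.Agent.S05

variable {K : Type*} [Field K]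
variable {Γ₀ : Type*} [LinearOrderedCommGroupWithZero Γ₀] {v : Valuation K Γ₀}

/-- For a point in `E₁`, `1 < v s` and `v s ^ 2 = v x`. -/
theorem m1_v_s_sq {c U W x s : K} (hc : v c ≤ 1) (hU : v U ≤ 1) (hW : v W ≤ 1) (hx : 1 < v x)
    (e : x * (s ^ 2 + c * s) = x ^ 2 + U * x + W) : 1 < v s ∧ v s ^ 2 = v x := by
  have hx0 : x ≠ 0 := ne_zero_of_one_lt hx
  have e' : s ^ 2 + c * s = x + (U + W / x) := by
    field_simp
    linear_combination e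
  have h1 : v (s ^ 2 + c * s) = v x := by
    rw [e']
    apply Valuation.map_add_eq_of_lt_left
    refine lt_of_le_of_lt ?_ hx
    apply Valuation.map_add_le v hU
    rw [map_div₀]
    exact div_le_one_of_le₀ (hW.trans hx.le) zero_le
  have hs : 1 < v s := by
    by_contra hs
    rw [not_lt] at hs
    have : v (s ^ 2 + c * s) ≤ 1 := by
      apply Valuation.map_add_le v
      · rw [map_pow]; exact pow_le_one₀ zero_le hs
      · rw [map_mul]; exact mul_le_one₀ hc zero_le hs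
    rw [h1] at this
    exact absurd this (not_le.2 hx)
  refine ⟨hs, ?_⟩
  rw [← h1, ← map_pow]
  symm
  apply Valuation.map_add_eq_of_lt_left
  rw [map_mul, map_pow, sq]
  have hs0 : 0 < v s := zero_lt_one.trans hs
  exact mul_lt_mul_of_pos_right (lt_of_le_of_lt hc hs) hs0

theorem m1_zc_final {c R X s₁ s₂ s₃ x₁ x₂ : K} (hX : X ≠ 0) (hx₁ : x₁ ≠ 0) (hx₂ : x₂ ≠ 0)
    (hs₁ : s₁ ≠ 0) (hs₂ : s₂ ≠ 0) (hs₃ : s₃ ≠ 0) (h : (s₁ + s₂ + c) * s₃ = s₁ * s₂ + R) :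
    X / (X * s₃) = x₁ / (x₁ * s₁) + x₂ / (x₂ * s₂) +
      (c - R / s₃) * (x₁ / (x₁ * s₁)) * (x₂ / (x₂ * s₂)) := by
  field_simp
  linear_combination -h

section
variable [DecidableEq K]

/-- core computation for two affine points of `E₁` with `s₁ + s₂ + a₁ ≠ 0`. -/
theorem IsM1.E1_add_core {E : WeierstrassCurve.Affine K} (hE : IsM1 E)
    (hc : v E.a₁ ≤ 1) (hU : v E.a₂ ≤ 1) (hW : v E.a₄ ≤ 1) {x₁ x₂ s₁ s₂ : K}
    (hx₁ : 1 < v x₁) (hx₂ : 1 < v x₂) (hD : s₁ + s₂ + E.a₁ ≠ 0)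
    (h₁ : E.Nonsingular x₁ (x₁ * s₁)) (h₂ : E.Nonsingular x₂ (x₂ * s₂)) :
    InE1 v (Point.some _ _ h₁ + Point.some _ _ h₂) ∧
      ∃ η : K, v η ≤ 1 ∧ zc (Point.some _ _ h₁ + Point.some _ _ h₂) =
        zc (Point.some _ _ h₁) + zc (Point.some _ _ h₂) +
          η * zc (Point.some _ _ h₁) * zc (Point.some _ _ h₂) := by
  have hx₁0 : x₁ ≠ 0 := ne_zero_of_one_lt hx₁
  have hx₂0 : x₂ ≠ 0 := ne_zero_of_one_lt hx₂
  have e₁ := hE.equation_s hx₁0 h₁.1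
  have e₂ := hE.equation_s hx₂0 h₂.1
  obtain ⟨ha, hs₁⟩ := m1_v_s_sq hc hU hW hx₁ e₁
  obtain ⟨hb, hs₂⟩ := m1_v_s_sq hc hU hW hx₂ e₂
  have hs₁0 : s₁ ≠ 0 := ne_zero_of_one_lt ha
  have hs₂0 : s₂ ≠ 0 := ne_zero_of_one_lt hb
  have hab : 1 < v s₁ * v s₂ := one_lt_mul_of_lt_of_le ha hb.le
  -- valuation of M
  have hx12 : 1 < v (x₁ * x₂) := by
    rw [map_mul]; exact one_lt_mul_of_lt_of_le hx₁ hx₂.le
  have hvM : v (x₁ * x₂ - E.a₄) = v (x₁ * x₂) :=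
    Valuation.map_sub_eq_of_lt_left v (lt_of_le_of_lt hW hx12)
  have hM : x₁ * x₂ - E.a₄ ≠ 0 := ne_zero_of_one_lt (hvM ▸ hx12)
  -- valuation of D
  have hvD : v (s₁ + s₂ + E.a₁) < v s₁ * v s₂ := by
    refine lt_of_le_of_lt (Valuation.map_add v _ _) (max_lt ?_ (lt_of_le_of_lt hc hab))
    refine lt_of_le_of_lt (Valuation.map_add v s₁ s₂) (max_lt ?_ ?_)
    · exact (lt_mul_iff_one_lt_right (zero_lt_one.trans ha)).mpr hb
    · exact (lt_mul_iff_one_lt_left (zero_lt_one.trans hb)).mpr ha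
  have hvD0 : 0 < v (s₁ + s₂ + E.a₁) := (Valuation.pos_iff v).mpr hD
  have hvD2 : v (s₁ + s₂ + E.a₁) ^ 2 < v (x₁ * x₂) := by
    rw [map_mul, ← hs₁, ← hs₂, ← mul_pow]
    exact pow_lt_pow_left₀ hvD zero_le two_ne_zero
  obtain ⟨x₃, s₃, h₃, hadd, hx₃def, hs₃def⟩ := hE.add_plus' hx₁0 hx₂0 hD hM h₁ h₂
  rw [hadd]
  have hx₃ : 1 < v x₃ := by
    rw [hx₃def, map_div₀, map_pow, map_mul, map_pow, hvM,
      one_lt_div₀ (mul_pos (zero_lt_one.trans hx12) (pow_pos hvD0 2)), sq (v (x₁ * x₂))]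
    exact mul_lt_mul' le_rfl hvD2 zero_le (zero_lt_one.trans hx12)
  refine ⟨hx₃, ?_⟩
  have hx₃0 := ne_zero_of_one_lt hx₃
  have e₃ := hE.equation_s hx₃0 h₃.1
  obtain ⟨hc3, -⟩ := m1_v_s_sq hc hU hW hx₃ e₃
  have hs₃0 : s₃ ≠ 0 := ne_zero_of_one_lt hc3
  obtain ⟨R, hRdef⟩ : ∃ R, R = E.a₂ + E.a₄ / x₁ + E.a₄ / x₂ +
    (s₁ + s₂ + E.a₁) ^ 2 * E.a₄ / (x₁ * x₂ - E.a₄) := ⟨_, rfl⟩
  have hI4 : (s₁ + s₂ + E.a₁) * s₃ = s₁ * s₂ + R := by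
    rw [hs₃def, m1_I4 hx₁0 hx₂0 hD hM e₂, hRdef]; ring
  have hR : v R ≤ 1 := by
    rw [hRdef]
    refine Valuation.map_add_le v (Valuation.map_add_le v (Valuation.map_add_le v hU ?_) ?_) ?_
    · rw [map_div₀]; exact div_le_one_of_le₀ (hW.trans hx₁.le) zero_le
    · rw [map_div₀]; exact div_le_one_of_le₀ (hW.trans hx₂.le) zero_le
    · rw [map_div₀, map_mul, map_pow, hvM]
      refine div_le_one_of_le₀ ?_ zero_le
      calc v (s₁ + s₂ + E.a₁) ^ 2 * v E.a₄ ≤ v (s₁ + s₂ + E.a₁) ^ 2 * 1 := by gcongr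
        _ ≤ v (x₁ * x₂) := by rw [mul_one]; exact hvD2.le
  refine ⟨E.a₁ - R / s₃, ?_, ?_⟩
  · apply Valuation.map_sub_le v hc
    rw [map_div₀]
    exact div_le_one_of_le₀ (hR.trans hc3.le) zero_le
  · simp only [zc_some]
    exact m1_zc_final hx₃0 hx₁0 hx₂0 hs₁0 hs₂0 hs₃0 hI4

theorem IsM1.E1_add {E : WeierstrassCurve.Affine K} (hE : IsM1 E)
    (hc : v E.a₁ ≤ 1) (hU : v E.a₂ ≤ 1) (hW : v E.a₄ ≤ 1) (P₁ P₂ : E.Point)
    (hP₁ : InE1 v P₁) (hP₂ : InE1 v P₂) :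
    InE1 v (P₁ + P₂) ∧
      ∃ η : K, v η ≤ 1 ∧ zc (P₁ + P₂) = zc P₁ + zc P₂ + η * zc P₁ * zc P₂ := by
  rcases P₁ with _ | ⟨x₁, y₁, h₁⟩
  · rw [← Point.zero_def, zero_add]
    exact ⟨hP₂, 0, by simp, by simp⟩
  rcases P₂ with _ | ⟨x₂, y₂, h₂⟩
  · rw [← Point.zero_def, add_zero]
    exact ⟨hP₁, 0, by simp, by simp⟩
  have hx₁ : 1 < v x₁ := hP₁
  have hx₂ : 1 < v x₂ := hP₂
  have hx₁0 : x₁ ≠ 0 := ne_zero_of_one_lt hx₁
  have hx₂0 : x₂ ≠ 0 := ne_zero_of_one_lt hx₂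
  obtain ⟨s₁, h₁', e₁'⟩ := exists_s h₁ hx₁0
  obtain ⟨s₂, h₂', e₂'⟩ := exists_s h₂ hx₂0
  rw [e₁', e₂']
  by_cases hD : s₁ + s₂ + E.a₁ = 0
  · have e₁ := hE.equation_s hx₁0 h₁'.1
    have e₂ := hE.equation_s hx₂0 h₂'.1
    have hx12 : 1 < v (x₁ * x₂) := by
      rw [map_mul]; exact one_lt_mul_of_lt_of_le hx₁ hx₂.le
    have hvM : v (x₁ * x₂ - E.a₄) = v (x₁ * x₂) :=
      Valuation.map_sub_eq_of_lt_left v (lt_of_le_of_lt hW hx12)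
    have hM : x₁ * x₂ - E.a₄ ≠ 0 := ne_zero_of_one_lt (hvM ▸ hx12)
    have hd := m1_diff e₁ e₂
    rw [hD, mul_zero, mul_zero] at hd
    have hxx : x₁ = x₂ := by
      rcases mul_eq_zero.1 hd.symm with h | h
      · exact sub_eq_zero.1 h
      · exact absurd h hM
    have hy : x₁ * s₁ = E.negY x₂ (x₂ * s₂) := by
      rw [hE.negY, hxx]; linear_combination x₂ * hD
    rw [Point.add_of_Y_eq hxx hy]
    refine ⟨trivial, E.a₁, hc, ?_⟩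
    simp only [zc_zero, zc_some]
    obtain ⟨ha, -⟩ := m1_v_s_sq hc hU hW hx₁ e₁
    obtain ⟨hb, -⟩ := m1_v_s_sq hc hU hW hx₂ e₂
    have hs₁0 : s₁ ≠ 0 := ne_zero_of_one_lt ha
    have hs₂0 : s₂ ≠ 0 := ne_zero_of_one_lt hb
    field_simp
    linear_combination -hD
  · exact hE.E1_add_core hc hU hW hx₁ hx₂ hD h₁' h₂'

omit [DecidableEq K] in
/-- the parameter of a point of `E₁` is in the maximal ideal. -/
theorem IsM1.v_zc_lt_one {E : WeierstrassCurve.Affine K} (hE : IsM1 E)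
    (hc : v E.a₁ ≤ 1) (hU : v E.a₂ ≤ 1) (hW : v E.a₄ ≤ 1) (P : E.Point) (hP : InE1 v P) :
    v (zc P) < 1 := by
  rcases P with _ | ⟨x, y, h⟩
  · simp [zc]
  have hx : 1 < v x := hP
  have hx0 : x ≠ 0 := ne_zero_of_one_lt hx
  obtain ⟨s, h', e'⟩ := exists_s h hx0
  rw [e']
  obtain ⟨ha, -⟩ := m1_v_s_sq hc hU hW hx (hE.equation_s hx0 h'.1)
  have hs0 : s ≠ 0 := ne_zero_of_one_lt ha
  rw [zc_some, div_mul_cancel_left₀ hx0, map_inv₀]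
  exact inv_lt_one_of_one_lt₀ ha

theorem IsM1.E1_nsmul {E : WeierstrassCurve.Affine K} (hE : IsM1 E)
    (hc : v E.a₁ ≤ 1) (hU : v E.a₂ ≤ 1) (hW : v E.a₄ ≤ 1) (P : E.Point) (hP : InE1 v P) (k : ℕ) :
    InE1 v (k • P) ∧ ∃ ε : K, v ε < 1 ∧ zc (k • P) = zc P * (k + ε) := by
  have hz1 := hE.v_zc_lt_one hc hU hW P hP
  induction k with
  | zero => exact ⟨by simp, 0, by simp, by simp⟩
  | succ k ih =>
    obtain ⟨h1, ε, hε, hz⟩ := ih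
    obtain ⟨h2, η, hη, hz'⟩ := hE.E1_add hc hU hW (k • P) P h1 hP
    rw [succ_nsmul]
    refine ⟨h2, ε + η * (k + ε) * zc P, ?_, ?_⟩
    · apply Valuation.map_add_lt v hε
      rw [map_mul, map_mul]
      have h5 : v η * v ((k : K) + ε) ≤ 1 :=
        mul_le_one₀ hη zero_le (Valuation.map_add_le v (v_natCast_le_one v k) hε.le)
      calc v η * v ((k : K) + ε) * v (zc P) ≤ 1 * v (zc P) := by gcongr
        _ < 1 := by rwa [one_mul]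
    · rw [hz', hz]
      push_cast
      ring

/-- `E₁` has no torsion of order a unit. -/
theorem IsM1.E1_torsion_free {E : WeierstrassCurve.Affine K} (hE : IsM1 E)
    (hc : v E.a₁ ≤ 1) (hU : v E.a₂ ≤ 1) (hW : v E.a₄ ≤ 1) (P : E.Point) (hP : InE1 v P) (p : ℕ)
    (hp : v (p : K) = 1) (hpP : p • P = 0) : P = 0 := by
  obtain ⟨-, ε, hε, hz⟩ := hE.E1_nsmul hc hU hW P hP p
  rw [hpP, zc_zero] at hz
  rcases P with _ | ⟨x, y, h⟩
  · rfl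
  exfalso
  have hx : 1 < v x := hP
  have hx0 : x ≠ 0 := ne_zero_of_one_lt hx
  obtain ⟨s, h', e'⟩ := exists_s h hx0
  rw [e'] at hz
  obtain ⟨ha, -⟩ := m1_v_s_sq hc hU hW hx (hE.equation_s hx0 h'.1)
  have hs0 : s ≠ 0 := ne_zero_of_one_lt ha
  have h1 : v ((p : K) + ε) = 1 := by
    rw [← hp]
    exact Valuation.map_add_eq_of_lt_left v (hp ▸ hε)
  have h2 : (p : K) + ε ≠ 0 := by
    intro h0
    rw [h0] at h1
    simp at h1
  rw [zc_some] at hz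
  exact (mul_ne_zero (div_ne_zero hx0 (mul_ne_zero hx0 hs0)) h2) hz.symm

end

end Fermat.Agent.S13
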