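import Fermat.Agent.S13.M1E1

/-!
# S13, L2-API: port of `S05/Inertia.lean` to curves `y² + a₁xy = x³ + a₂x² + a₄x`.

Inertia moves points of nonsingular reduction only inside the kernel of reduction.
The two hypotheses `hdisc`, `h2` of S05 are replaced by the single hypothesis
`hdisc : v ((a₁² + 4a₂)² - 64a₄) = 1`.
-/

set_option autoImplicit false

namespace Fermat.Agent.S13

open WeierstrassCurve WeierstrassCurve.Affine
open Fermat.Agent.S05

variable {K : Type*} [Field K] [DecidableEq K]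
variable {Γ₀ : Type*} [LinearOrderedCommGroupWithZero Γ₀] {v : Valuation K Γ₀}

omit [DecidableEq K] in
/-- integrality of `s` from integrality of `s ^ 2 + c * s`. -/
theorem m1_s_integral {c s : K} (hc : v c ≤ 1) (h : v (s ^ 2 + c * s) ≤ 1) : v s ≤ 1 := by
  by_contra hs
  have hs : 1 < v s := not_le.1 hs
  have h0 : 0 < v s := zero_lt_one.trans hs
  have h1 : v (c * s) < v (s ^ 2) := by
    rw [map_mul, map_pow, sq]
    exact mul_lt_mul_of_pos_right (lt_of_le_of_lt hc hs) h0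
  have h2 : v (s ^ 2 + c * s) = v (s ^ 2) := Valuation.map_add_eq_of_lt_left v h1
  rw [h2, map_pow] at h
  exact absurd (one_lt_pow₀ hs two_ne_zero) (not_lt.2 h)

omit [DecidableEq K] in
/-- static fact: if `x` is a unit, `x ^ 2 ≡ a₄` and the discriminant is a unit then `2 s + a₁`
is a unit. -/
theorem m1_two_s_unit {c U W x s : K} (hc : v c ≤ 1) (hU : v U ≤ 1)
    (hdisc : v ((c ^ 2 + 4 * U) ^ 2 - 64 * W) = 1) (hx : v x = 1) (hs : v s ≤ 1)
    (e : x * (s ^ 2 + c * s) = x ^ 2 + U * x + W) (hxW : v (x ^ 2 - W) < 1) :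
    v (2 * s + c) = 1 := by
  have hn : ∀ n : ℕ, v (n : K) ≤ 1 := v_natCast_le_one v
  have h2 : v (2 : K) ≤ 1 := by simpa using hn 2
  have h4 : v (4 : K) ≤ 1 := by simpa using hn 4
  have h8 : v (8 : K) ≤ 1 := by simpa using hn 8
  have h64 : v (64 : K) ≤ 1 := by simpa using hn 64
  have hle : v (2 * s + c) ≤ 1 := by
    refine Valuation.map_add_le v ?_ hc
    rw [map_mul]; exact mul_le_one' h2 hs
  by_contra hne
  have hlt : v (2 * s + c) < 1 := lt_of_le_of_ne hle hne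
  have h3 : v (x * (2 * s + c) ^ 2) < 1 := by
    rw [map_mul, hx, one_mul, map_pow]
    exact pow_lt_one₀ zero_le hlt two_ne_zero
  have h5 : v (8 * x + (c ^ 2 + 4 * U)) < 1 := by
    have e1 : x * (8 * x + (c ^ 2 + 4 * U)) = x * (2 * s + c) ^ 2 + 4 * (x ^ 2 - W) := by
      linear_combination (-4 : K) * e
    have h6 : v (x * (8 * x + (c ^ 2 + 4 * U))) < 1 := by
      rw [e1]
      refine Valuation.map_add_lt v h3 ?_
      rw [map_mul]; exact Right.mul_lt_one_of_le_of_lt h4 hxW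
    rwa [map_mul, hx, one_mul] at h6
  have hb2 : v (c ^ 2 + 4 * U) ≤ 1 := by
    refine Valuation.map_add_le v ?_ ?_
    · rw [map_pow]; exact pow_le_one₀ zero_le hc
    · rw [map_mul]; exact mul_le_one' h4 hU
  have h7 : v ((c ^ 2 + 4 * U) ^ 2 - 64 * W) < 1 := by
    have e2 : (c ^ 2 + 4 * U) ^ 2 - 64 * W
        = (8 * x + (c ^ 2 + 4 * U)) * ((c ^ 2 + 4 * U) - 8 * x) + 64 * (x ^ 2 - W) := by ring
    rw [e2]
    refine Valuation.map_add_lt v ?_ ?_
    · rw [map_mul]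
      refine mul_lt_one_of_lt_of_le h5 (Valuation.map_sub_le v hb2 ?_)
      rw [map_mul, hx, mul_one]; exact h8
    · rw [map_mul]; exact Right.mul_lt_one_of_le_of_lt h64 hxW
  rw [hdisc] at h7
  exact lt_irrefl _ h7

/-- STATIC version: two points with unit `x`-coordinates and congruent `(x, s)`-coordinates differ
by an element of the kernel of reduction. -/
theorem IsM1.sub_mem_E1_of_congr {E : WeierstrassCurve.Affine K} (hE : IsM1 E)
    (hc : v E.a₁ ≤ 1) (hU : v E.a₂ ≤ 1) (hW : v E.a₄ ≤ 1)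
    (hdisc : v ((E.a₁ ^ 2 + 4 * E.a₂) ^ 2 - 64 * E.a₄) = 1)
    {x s x' s' : K} (h : E.Nonsingular x (x * s)) (h' : E.Nonsingular x' (x' * s'))
    (hx : v x = 1) (hxv : v (x' - x) < 1) (hsv : v (s' - s) < 1) :
    InE1 v (Point.some _ _ h' - Point.some _ _ h) := by
  have hx0 : x ≠ 0 := by
    rintro rfl; simp at hx
  obtain ⟨h₂, e₂'⟩ := hE.neg_s x s h
  rw [sub_eq_add_neg, e₂']
  have hσx : v x' = 1 := by
    have : x' = x + (x' - x) := by ring
    rw [this, ← hx]
    exact Valuation.map_add_eq_of_lt_left v (hx ▸ hxv)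
  have hσx0 : x' ≠ 0 := by
    intro h0; rw [h0] at hσx; simp at hσx
  have e₁ := hE.equation_s hσx0 h'.1
  have e₂ := hE.equation_s hx0 h₂.1
  have e := hE.equation_s hx0 h.1
  -- s is integral
  have hs : v s ≤ 1 := by
    apply m1_s_integral hc
    have : v (x * (s ^ 2 + E.a₁ * s)) ≤ 1 := by
      rw [e]
      refine Valuation.map_add_le v (Valuation.map_add_le v ?_ ?_) hW
      · rw [map_pow, hx]; simp
      · rw [map_mul, hx, mul_one]; exact hU
    rwa [map_mul, hx, one_mul] at this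
  have eD : s' + (-s - E.a₁) + E.a₁ = s' - s := by ring
  have hDv : v (s' + (-s - E.a₁) + E.a₁) < 1 := by
    rw [eD]; exact hsv
  have hMle : v (x' * x - E.a₄) ≤ 1 := by
    refine Valuation.map_sub_le v ?_ hW
    rw [map_mul, hσx, hx, one_mul]
  have hd := m1_diff e₁ e₂
  rcases lt_or_eq_of_le hMle with hM | hM
  · -- `M` is not a unit: then `2 s + a₁` is a unit
    have hxW : v (x ^ 2 - E.a₄) < 1 := by
      have : x ^ 2 - E.a₄ = (x' * x - E.a₄) - x * (x' - x) := by ring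
      rw [this]
      refine Valuation.map_sub_lt v hM ?_
      rw [map_mul, hx, one_mul]; exact hxv
    have hsu : v (2 * s + E.a₁) = 1 := m1_two_s_unit hc hU hdisc hx hs e hxW
    have hD' : v (s' - (-s - E.a₁)) = 1 := by
      have : s' - (-s - E.a₁) = (2 * s + E.a₁) + (s' - s) := by ring
      rw [this, ← hsu]
      exact Valuation.map_add_eq_of_lt_left v (hsu ▸ hsv)
    have hD'0 : s' - (-s - E.a₁) ≠ 0 := by
      intro h0; rw [h0] at hD'; simp at hD'
    by_cases hxx : x' = x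
    · have hD0 : s' + (-s - E.a₁) + E.a₁ = 0 := by
        rw [hxx, sub_self, zero_mul] at hd
        rcases mul_eq_zero.1 hd with h9 | h9
        · exact absurd h9 (mul_ne_zero hx0 hx0)
        · rcases mul_eq_zero.1 h9 with h9 | h9
          · exact absurd h9 hD'0
          · exact h9
      have hy : x' * s' = E.negY x (x * (-s - E.a₁)) := by
        rw [hE.negY, hxx]; linear_combination x * hD0
      rw [Point.add_of_Y_eq hxx hy]
      trivial
    · obtain ⟨x₃, y₃, h₃, hadd, hx₃⟩ := hE.add_minus_x' hσx0 hx0 hxx h' h₂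
      rw [hadd]
      show 1 < v x₃
      have hxx0 : 0 < v (x' - x) := (Valuation.pos_iff v).mpr (sub_ne_zero.2 hxx)
      rw [hx₃, map_div₀, map_mul, map_mul, map_pow, map_pow, hσx, hx, hD', one_mul, one_pow,
        one_mul, one_lt_div₀ (pow_pos hxx0 2)]
      exact pow_lt_one₀ zero_le hxv two_ne_zero
  · have hM0 : x' * x - E.a₄ ≠ 0 := by
      intro h0; rw [h0] at hM; simp at hM
    by_cases hD : s' + (-s - E.a₁) + E.a₁ = 0
    · rw [hD, mul_zero, mul_zero] at hd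
      have hxx : x' = x := by
        rcases mul_eq_zero.1 hd.symm with h9 | h9
        · exact sub_eq_zero.1 h9
        · exact absurd h9 hM0
      have hy : x' * s' = E.negY x (x * (-s - E.a₁)) := by
        rw [hE.negY, hxx]; linear_combination x * hD
      rw [Point.add_of_Y_eq hxx hy]
      trivial
    · obtain ⟨x₃, y₃, h₃, hadd, hx₃⟩ := hE.add_plus_x' hσx0 hx0 hD h' h₂
      rw [hadd]
      show 1 < v x₃
      have hD0 : 0 < v (s' + (-s - E.a₁) + E.a₁) := (Valuation.pos_iff v).mpr hD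
      rw [hx₃, map_div₀, map_mul, map_mul, map_pow, map_pow, hσx, hx, hM, one_mul, one_pow,
        one_mul, one_lt_div₀ (pow_pos hD0 2)]
      exact pow_lt_one₀ zero_le hDv two_ne_zero

/-- Points whose `x`-coordinate is a unit: `τ R - R` lies in the kernel of reduction. -/
theorem IsM1.sub_mem_E1_of_unit {E : WeierstrassCurve.Affine K} (hE : IsM1 E)
    (hc : v E.a₁ ≤ 1) (hU : v E.a₂ ≤ 1) (hW : v E.a₄ ≤ 1)
    (hdisc : v ((E.a₁ ^ 2 + 4 * E.a₂) ^ 2 - 64 * E.a₄) = 1)
    {σ : K →+* K} {τ : E.Point →+ E.Point} (hτ : InertiaAct v E σ τ)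
    {x y : K} (h : E.Nonsingular x y) (hx : v x = 1) :
    InE1 v (τ (Point.some x y h) - Point.some x y h) := by
  have hx0 : x ≠ 0 := by
    rintro rfl; simp at hx
  obtain ⟨s, h', e'⟩ := exists_s h hx0
  rw [e']
  obtain ⟨h₁, e₁'⟩ := hτ.act_s x s h'
  rw [e₁']
  have e := hE.equation_s hx0 h'.1
  have hs : v s ≤ 1 := by
    apply m1_s_integral hc
    have : v (x * (s ^ 2 + E.a₁ * s)) ≤ 1 := by
      rw [e]
      refine Valuation.map_add_le v (Valuation.map_add_le v ?_ ?_) hW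
      · rw [map_pow, hx]; simp
      · rw [map_mul, hx, mul_one]; exact hU
    rwa [map_mul, hx, one_mul] at this
  exact hE.sub_mem_E1_of_congr hc hU hW hdisc h' h₁ hx (hτ.triv x hx.le) (hτ.triv s hs)

theorem IsM1.sub_mem_E1_of_E0 {E : WeierstrassCurve.Affine K} (hE : IsM1 E)
    (hc : v E.a₁ ≤ 1) (hU : v E.a₂ ≤ 1) (hW : v E.a₄ ≤ 1)
    (hdisc : v ((E.a₁ ^ 2 + 4 * E.a₂) ^ 2 - 64 * E.a₄) = 1)
    {σ : K →+* K} {τ : E.Point →+ E.Point} (hτ : InertiaAct v E σ τ)
    (R : E.Point) (hR : InE0 v R) : InE1 v (τ R - R) := by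
  rcases R with _ | ⟨x, y, h⟩
  · rw [← Point.zero_def, map_zero, sub_zero]; trivial
  · have hx : 1 ≤ v x := hR
    rcases lt_or_eq_of_le hx with hx | hx
    · have h1 : InE1 v (Point.some x y h) := hx
      rw [sub_eq_add_neg]
      exact (hE.E1_add hc hU hW _ _ (hτ.E1 _ h1) (InE1_neg _ h1)).1
    · exact hE.sub_mem_E1_of_unit hc hU hW hdisc hτ h hx.symm

theorem IsM1.sub_mem_E1_of_E0_T {E : WeierstrassCurve.Affine K} (hE : IsM1 E)
    (hc : v E.a₁ ≤ 1) (hU : v E.a₂ ≤ 1) (hW : v E.a₄ ≤ 1)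
    (hdisc : v ((E.a₁ ^ 2 + 4 * E.a₂) ^ 2 - 64 * E.a₄) = 1)
    {σ : K →+* K} {τ : E.Point →+ E.Point} (hτ : InertiaAct v E σ τ) (hT : E.Nonsingular 0 0)
    (R : E.Point) (j : ℕ) (hR : InE0 v (R + j • Point.some 0 0 hT)) : InE1 v (τ R - R) := by
  have := hE.sub_mem_E1_of_E0 hc hU hW hdisc hτ _ hR
  rw [map_add, map_nsmul, hτ.T_fixed hT] at this
  convert this using 1
  abel

theorem IsM1.fixed_of_sub_mem_E1 {E : WeierstrassCurve.Affine K} (hE : IsM1 E)
    (hc : v E.a₁ ≤ 1) (hU : v E.a₂ ≤ 1) (hW : v E.a₄ ≤ 1) {τ : E.Point →+ E.Point}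
    (P : E.Point) (p : ℕ)
    (hp : v (p : K) = 1) (hpP : p • P = 0) (h : InE1 v (τ P - P)) : τ P = P := by
  have : τ P - P = 0 := by
    apply hE.E1_torsion_free hc hU hW _ h p hp
    rw [smul_sub, ← map_nsmul, hpP, map_zero, sub_zero]
  exact sub_eq_zero.1 this

omit [DecidableEq K] in
theorem IsM1.nonsingular_T {E : WeierstrassCurve.Affine K} (hE : IsM1 E) (hW : E.a₄ ≠ 0) :
    E.Nonsingular 0 0 := by
  rw [nonsingular_zero]
  exact ⟨hE.a₆, Or.inr hW⟩

theorem IsM1.T_add_T {E : WeierstrassCurve.Affine K} (hE : IsM1 E) (hT : E.Nonsingular 0 0) :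
    Point.some 0 0 hT + Point.some 0 0 hT = 0 := by
  apply Point.add_of_Y_eq rfl
  rw [hE.negY]; simp

theorem IsM1.nsmul_T {E : WeierstrassCurve.Affine K} (hE : IsM1 E) (hT : E.Nonsingular 0 0)
    (j : ℕ) : j • Point.some 0 0 hT = 0 ∨ j • Point.some 0 0 hT = Point.some 0 0 hT := by
  induction j with
  | zero => left; simp
  | succ j ih =>
    rw [succ_nsmul]
    rcases ih with h | h
    · right; rw [h, zero_add]
    · left; rw [h, hE.T_add_T]

omit [DecidableEq K] in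
theorem IsM1.eq_T_of_x_zero {E : WeierstrassCurve.Affine K} (hE : IsM1 E) {y : K}
    (h : E.Nonsingular 0 y) : y = 0 := by
  have := (hE.equation_iff 0 y).1 h.1
  simpa using this

theorem IsM1.E0_add_T_of_le {E : WeierstrassCurve.Affine K} (hE : IsM1 E)
    (hT : E.Nonsingular 0 0) {x y : K} (h : E.Nonsingular x y) (hx : v x ≤ v E.a₄) :
    InE0 v (Point.some x y h + Point.some 0 0 hT) := by
  by_cases hx0 : x = 0
  · subst hx0
    obtain rfl := hE.eq_T_of_x_zero h
    rw [hE.T_add_T]; trivial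
  · obtain ⟨s, h', e'⟩ := exists_s h hx0
    obtain ⟨x₃, s₃, h₃, hadd, hx₃, -⟩ := hE.add_T' hx0 hT h'
    rw [e', hadd]
    show 1 ≤ v x₃
    rw [hx₃, map_div₀]
    exact (one_le_div₀ ((Valuation.pos_iff v).mpr hx0)).mpr hx

/-- Good reduction: `τ P - P` always lies in the kernel of reduction. -/
theorem IsM1.good_sub_mem_E1 {E : WeierstrassCurve.Affine K} (hE : IsM1 E)
    (hc : v E.a₁ ≤ 1) (hU : v E.a₂ ≤ 1) (hW : v E.a₄ = 1)
    (hdisc : v ((E.a₁ ^ 2 + 4 * E.a₂) ^ 2 - 64 * E.a₄) = 1)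
    {σ : K →+* K} {τ : E.Point →+ E.Point} (hτ : InertiaAct v E σ τ)
    (P : E.Point) : InE1 v (τ P - P) := by
  have hW0 : E.a₄ ≠ 0 := by
    intro h0; rw [h0] at hW; simp at hW
  have hT := hE.nonsingular_T hW0
  by_cases hP : InE0 v P
  · exact hE.sub_mem_E1_of_E0 hc hU hW.le hdisc hτ P hP
  · apply hE.sub_mem_E1_of_E0_T hc hU hW.le hdisc hτ hT P 1
    rw [one_nsmul]
    rcases P with _ | ⟨x, y, h⟩
    · exact absurd trivial hP
    · apply hE.E0_add_T_of_le
      rw [hW]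
      exact (not_le.1 hP).le

/-- Good reduction: inertia acts trivially on torsion of order prime to the residue
characteristic. -/
theorem IsM1.good_fixed {E : WeierstrassCurve.Affine K} (hE : IsM1 E)
    (hc : v E.a₁ ≤ 1) (hU : v E.a₂ ≤ 1) (hW : v E.a₄ = 1)
    (hdisc : v ((E.a₁ ^ 2 + 4 * E.a₂) ^ 2 - 64 * E.a₄) = 1)
    {σ : K →+* K} {τ : E.Point →+ E.Point} (hτ : InertiaAct v E σ τ)
    (P : E.Point) (p : ℕ) (hp : v (p : K) = 1) (hpP : p • P = 0) : τ P = P :=
  hE.fixed_of_sub_mem_E1 hc hU hW.le P p hp hpP (hE.good_sub_mem_E1 hc hU hW hdisc hτ P)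

end Fermat.Agent.S13
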