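import Mathlib

/-!
# S13, block L2f: the curves `y² + a₁ x y = x³ + a₂ x² + a₄ x` and explicit addition formulas
in the coordinates `(x, s)` with `y = x * s` (port of the `S05` formulas to `a₁ ≠ 0`).
-/

set_option autoImplicit false

namespace Fermat.Agent.S13.NoRat

open WeierstrassCurve WeierstrassCurve.Affine

variable {K : Type*} [Field K]

/-- The Weierstrass curve is of the shape `y² + a₁ x y = x³ + a₂ x² + a₄ x`. -/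
structure IsM1 (E : WeierstrassCurve.Affine K) : Prop where
  a₃ : E.a₃ = 0
  a₆ : E.a₆ = 0

theorem IsM1.equation_iff {E : WeierstrassCurve.Affine K} (hE : IsM1 E) (x y : K) :
    E.Equation x y ↔ y ^ 2 + E.a₁ * x * y = x ^ 3 + E.a₂ * x ^ 2 + E.a₄ * x := by
  rw [WeierstrassCurve.Affine.equation_iff, hE.a₃, hE.a₆]
  constructor <;> intro h <;> linear_combination h

theorem IsM1.equation_s {E : WeierstrassCurve.Affine K} (hE : IsM1 E) {x s : K} (hx : x ≠ 0)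
    (h : E.Equation x (x * s)) : x * (s ^ 2 + E.a₁ * s) = x ^ 2 + E.a₂ * x + E.a₄ := by
  rw [hE.equation_iff] at h
  apply mul_left_cancel₀ hx
  linear_combination h

theorem IsM1.negY {E : WeierstrassCurve.Affine K} (hE : IsM1 E) (x y : K) :
    E.negY x y = -y - E.a₁ * x := by
  simp [WeierstrassCurve.Affine.negY, hE.a₃]

theorem exists_some_eq {E : WeierstrassCurve.Affine K} {x y x' y' : K} (h : E.Nonsingular x y)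
    (hx : x = x') (hy : y = y') :
    ∃ h' : E.Nonsingular x' y', Point.some x y h = Point.some x' y' h' := by
  subst hx hy
  exact ⟨h, rfl⟩

theorem exists_some_eq_x {E : WeierstrassCurve.Affine K} {x y x' : K} (h : E.Nonsingular x y)
    (hx : x = x') :
    ∃ (y' : K) (h' : E.Nonsingular x' y'), Point.some x y h = Point.some x' y' h' := by
  subst hx
  exact ⟨y, h, rfl⟩

/-! ### pure field identities -/

theorem alg_I2 {c U W x₁ x₂ s₁ s₂ : K} (hx₁ : x₁ ≠ 0) (hx₂ : x₂ ≠ 0) (hD : s₁ + s₂ + c ≠ 0)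
    (e₁ : x₁ * (s₁ ^ 2 + c * s₁) = x₁ ^ 2 + U * x₁ + W)
    (e₂ : x₂ * (s₂ ^ 2 + c * s₂) = x₂ ^ 2 + U * x₂ + W) :
    (s₁ + (x₁ * x₂ - W) / (x₁ * (s₁ + s₂ + c))) ^ 2
        + c * (s₁ + (x₁ * x₂ - W) / (x₁ * (s₁ + s₂ + c))) - U - x₁ - x₂
      = (x₁ * x₂ - W) ^ 2 / (x₁ * x₂ * (s₁ + s₂ + c) ^ 2) := by
  field_simp
  grind

/-- the `y`-coordinate of the sum, `M ≠ 0`. -/
theorem alg_I3 {c W x₁ x₂ s₁ s₂ : K} (hx₁ : x₁ ≠ 0) (hx₂ : x₂ ≠ 0) (hD : s₁ + s₂ + c ≠ 0)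
    (hM : x₁ * x₂ - W ≠ 0) :
    -((s₁ + (x₁ * x₂ - W) / (x₁ * (s₁ + s₂ + c))) *
        ((x₁ * x₂ - W) ^ 2 / (x₁ * x₂ * (s₁ + s₂ + c) ^ 2) - x₁) + x₁ * s₁)
        - c * ((x₁ * x₂ - W) ^ 2 / (x₁ * x₂ * (s₁ + s₂ + c) ^ 2))
      = (x₁ * x₂ - W) ^ 2 / (x₁ * x₂ * (s₁ + s₂ + c) ^ 2) *
        (-c - s₁ - (x₁ * x₂ - W) / (x₁ * (s₁ + s₂ + c))
          + x₁ * x₂ * (s₁ + s₂ + c) / (x₁ * x₂ - W)) := by
  field_simp
  ring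

/-- difference of the two curve equations -/
theorem alg_diff {c U W x₁ x₂ s₁ s₂ : K}
    (e₁ : x₁ * (s₁ ^ 2 + c * s₁) = x₁ ^ 2 + U * x₁ + W)
    (e₂ : x₂ * (s₂ ^ 2 + c * s₂) = x₂ ^ 2 + U * x₂ + W) :
    x₁ * x₂ * ((s₁ - s₂) * (s₁ + s₂ + c)) = (x₁ - x₂) * (x₁ * x₂ - W) := by
  linear_combination x₂ * e₁ - x₁ * e₂

variable [DecidableEq K]

theorem IsM1.slope_plus {E : WeierstrassCurve.Affine K} (hE : IsM1 E) {x₁ x₂ s₁ s₂ : K}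
    (hx₁ : x₁ ≠ 0) (hx₂ : x₂ ≠ 0) (hD : s₁ + s₂ + E.a₁ ≠ 0)
    (e₁ : x₁ * (s₁ ^ 2 + E.a₁ * s₁) = x₁ ^ 2 + E.a₂ * x₁ + E.a₄)
    (e₂ : x₂ * (s₂ ^ 2 + E.a₁ * s₂) = x₂ ^ 2 + E.a₂ * x₂ + E.a₄) :
    E.slope x₁ x₂ (x₁ * s₁) (x₂ * s₂) = s₁ + (x₁ * x₂ - E.a₄) / (x₁ * (s₁ + s₂ + E.a₁)) := by
  by_cases hx : x₁ = x₂
  · subst hx
    have hs : s₁ = s₂ := by
      have h : x₁ * ((s₁ - s₂) * (s₁ + s₂ + E.a₁)) = 0 := by linear_combination e₁ - e₂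
      rcases mul_eq_zero.1 h with h | h
      · exact absurd h hx₁
      · rcases mul_eq_zero.1 h with h | h
        · exact sub_eq_zero.1 h
        · exact absurd h hD
    subst hs
    have h2 : x₁ * s₁ ≠ E.negY x₁ (x₁ * s₁) := by
      rw [hE.negY]
      intro h
      apply hD
      apply mul_left_cancel₀ hx₁
      linear_combination h
    rw [slope_of_Y_ne rfl h2, hE.negY]
    have e3 : x₁ * s₁ - (-(x₁ * s₁) - E.a₁ * x₁) = x₁ * (s₁ + s₁ + E.a₁) := by ring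
    rw [e3]
    have hxD : x₁ * (s₁ + s₁ + E.a₁) ≠ 0 := mul_ne_zero hx₁ hD
    rw [div_eq_iff hxD, add_mul, div_mul_cancel₀ _ hxD]
    linear_combination (-2 : K) * e₁
  · rw [slope_of_X_ne hx]
    have hx' : x₁ - x₂ ≠ 0 := sub_ne_zero.2 hx
    field_simp
    grind

omit [DecidableEq K] in
theorem IsM1.not_neg_of_D {E : WeierstrassCurve.Affine K} (hE : IsM1 E) {x₁ x₂ s₁ s₂ : K}
    (hx₁ : x₁ ≠ 0) (hD : s₁ + s₂ + E.a₁ ≠ 0) :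
    ¬(x₁ = x₂ ∧ x₁ * s₁ = E.negY x₂ (x₂ * s₂)) := by
  rintro ⟨rfl, h⟩
  rw [hE.negY] at h
  apply hD
  apply mul_left_cancel₀ hx₁
  linear_combination h

theorem IsM1.add_plus_x {E : WeierstrassCurve.Affine K} (hE : IsM1 E) {x₁ x₂ s₁ s₂ : K}
    (hx₁ : x₁ ≠ 0) (hx₂ : x₂ ≠ 0) (hD : s₁ + s₂ + E.a₁ ≠ 0)
    (h₁ : E.Nonsingular x₁ (x₁ * s₁)) (h₂ : E.Nonsingular x₂ (x₂ * s₂)) :
    ∃ (y₃ : K) (h₃ : E.Nonsingular ((x₁ * x₂ - E.a₄) ^ 2 / (x₁ * x₂ * (s₁ + s₂ + E.a₁) ^ 2)) y₃),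
      Point.some _ _ h₁ + Point.some _ _ h₂ = Point.some _ _ h₃ := by
  have e₁ := hE.equation_s hx₁ h₁.1
  have e₂ := hE.equation_s hx₂ h₂.1
  rw [Point.add_some (hE.not_neg_of_D hx₁ hD)]
  apply exists_some_eq_x
  rw [hE.slope_plus hx₁ hx₂ hD e₁ e₂, addX, ← alg_I2 hx₁ hx₂ hD e₁ e₂]

theorem IsM1.add_plus {E : WeierstrassCurve.Affine K} (hE : IsM1 E) {x₁ x₂ s₁ s₂ : K}
    (hx₁ : x₁ ≠ 0) (hx₂ : x₂ ≠ 0) (hD : s₁ + s₂ + E.a₁ ≠ 0) (hM : x₁ * x₂ - E.a₄ ≠ 0)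
    (h₁ : E.Nonsingular x₁ (x₁ * s₁)) (h₂ : E.Nonsingular x₂ (x₂ * s₂)) :
    ∃ (h₃ : E.Nonsingular ((x₁ * x₂ - E.a₄) ^ 2 / (x₁ * x₂ * (s₁ + s₂ + E.a₁) ^ 2))
        ((x₁ * x₂ - E.a₄) ^ 2 / (x₁ * x₂ * (s₁ + s₂ + E.a₁) ^ 2) *
        (-E.a₁ - s₁ - (x₁ * x₂ - E.a₄) / (x₁ * (s₁ + s₂ + E.a₁))
          + x₁ * x₂ * (s₁ + s₂ + E.a₁) / (x₁ * x₂ - E.a₄)))),
      Point.some _ _ h₁ + Point.some _ _ h₂ = Point.some _ _ h₃ := by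
  have e₁ := hE.equation_s hx₁ h₁.1
  have e₂ := hE.equation_s hx₂ h₂.1
  rw [Point.add_some (hE.not_neg_of_D hx₁ hD)]
  have hX : E.addX x₁ x₂ (E.slope x₁ x₂ (x₁ * s₁) (x₂ * s₂)) =
      (x₁ * x₂ - E.a₄) ^ 2 / (x₁ * x₂ * (s₁ + s₂ + E.a₁) ^ 2) := by
    rw [hE.slope_plus hx₁ hx₂ hD e₁ e₂, addX, ← alg_I2 hx₁ hx₂ hD e₁ e₂]
  apply exists_some_eq _ hX
  rw [addY, negAddY, hX, hE.negY, hE.slope_plus hx₁ hx₂ hD e₁ e₂]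
  exact alg_I3 hx₁ hx₂ hD hM

theorem IsM1.add_T {E : WeierstrassCurve.Affine K} (hE : IsM1 E) {x s : K}
    (hx : x ≠ 0) (hT : E.Nonsingular 0 0) (h : E.Nonsingular x (x * s)) :
    ∃ (h₃ : E.Nonsingular (E.a₄ / x) (E.a₄ / x * (-s - E.a₁))),
      Point.some _ _ h + Point.some _ _ hT = Point.some _ _ h₃ := by
  have e := hE.equation_s hx h.1
  rw [Point.add_of_X_ne hx]
  have hsl : E.slope x 0 (x * s) 0 = s := by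
    rw [slope_of_X_ne hx, sub_zero, sub_zero, mul_div_cancel_left₀ _ hx]
  have hX : E.addX x 0 (E.slope x 0 (x * s) 0) = E.a₄ / x := by
    rw [hsl, addX, eq_div_iff hx]
    linear_combination e
  apply exists_some_eq _ hX
  rw [addY, negAddY, hX, hE.negY, hsl]
  ring

/-! ### the same statements with opaque coordinates -/

theorem IsM1.add_plus_x' {E : WeierstrassCurve.Affine K} (hE : IsM1 E) {x₁ x₂ s₁ s₂ : K}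
    (hx₁ : x₁ ≠ 0) (hx₂ : x₂ ≠ 0) (hD : s₁ + s₂ + E.a₁ ≠ 0)
    (h₁ : E.Nonsingular x₁ (x₁ * s₁)) (h₂ : E.Nonsingular x₂ (x₂ * s₂)) :
    ∃ (x₃ y₃ : K) (h₃ : E.Nonsingular x₃ y₃),
      Point.some _ _ h₁ + Point.some _ _ h₂ = Point.some _ _ h₃ ∧
      x₃ = (x₁ * x₂ - E.a₄) ^ 2 / (x₁ * x₂ * (s₁ + s₂ + E.a₁) ^ 2) := by
  obtain ⟨y₃, h₃, h⟩ := hE.add_plus_x hx₁ hx₂ hD h₁ h₂
  exact ⟨_, _, h₃, h, rfl⟩

theorem IsM1.add_plus' {E : WeierstrassCurve.Affine K} (hE : IsM1 E) {x₁ x₂ s₁ s₂ : K}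
    (hx₁ : x₁ ≠ 0) (hx₂ : x₂ ≠ 0) (hD : s₁ + s₂ + E.a₁ ≠ 0) (hM : x₁ * x₂ - E.a₄ ≠ 0)
    (h₁ : E.Nonsingular x₁ (x₁ * s₁)) (h₂ : E.Nonsingular x₂ (x₂ * s₂)) :
    ∃ (x₃ s₃ : K) (h₃ : E.Nonsingular x₃ (x₃ * s₃)),
      Point.some _ _ h₁ + Point.some _ _ h₂ = Point.some _ _ h₃ ∧
      x₃ = (x₁ * x₂ - E.a₄) ^ 2 / (x₁ * x₂ * (s₁ + s₂ + E.a₁) ^ 2) ∧
      s₃ = -E.a₁ - s₁ - (x₁ * x₂ - E.a₄) / (x₁ * (s₁ + s₂ + E.a₁))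
        + x₁ * x₂ * (s₁ + s₂ + E.a₁) / (x₁ * x₂ - E.a₄) := by
  obtain ⟨h₃, h⟩ := hE.add_plus hx₁ hx₂ hD hM h₁ h₂
  exact ⟨_, _, h₃, h, rfl, rfl⟩

theorem IsM1.add_T' {E : WeierstrassCurve.Affine K} (hE : IsM1 E) {x s : K}
    (hx : x ≠ 0) (hT : E.Nonsingular 0 0) (h : E.Nonsingular x (x * s)) :
    ∃ (x₃ s₃ : K) (h₃ : E.Nonsingular x₃ (x₃ * s₃)),
      Point.some _ _ h + Point.some _ _ hT = Point.some _ _ h₃ ∧ x₃ = E.a₄ / x ∧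
        s₃ = -s - E.a₁ := by
  obtain ⟨h₃, h⟩ := hE.add_T hx hT h
  exact ⟨_, _, h₃, h, rfl, rfl⟩

omit [DecidableEq K] in
theorem IsM1.neg_s {E : WeierstrassCurve.Affine K} (hE : IsM1 E) (x s : K)
    (h : E.Nonsingular x (x * s)) :
    ∃ h' : E.Nonsingular x (x * (-s - E.a₁)), -Point.some _ _ h = Point.some _ _ h' := by
  rw [Point.neg_some]
  apply exists_some_eq _ rfl
  rw [hE.negY]; ring

omit [DecidableEq K] in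
theorem exists_s {E : WeierstrassCurve.Affine K} {x y : K} (h : E.Nonsingular x y) (hx : x ≠ 0) :
    ∃ (s : K) (h' : E.Nonsingular x (x * s)), Point.some _ _ h = Point.some _ _ h' := by
  refine ⟨y / x, ?_⟩
  apply exists_some_eq h rfl
  field_simp

end Fermat.Agent.S13.NoRat
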