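import Fermat.Agent.S13.NoRatMult

/-!
# S13, block L2f: a curve `y² + a₁ x y = x³ + a₂ x² + a₄ x` with multiplicative reduction over a
valued field with residue field `𝔽₂` has no `p`-torsion if `p ∤ v(a₄)`.
-/

set_option autoImplicit false

namespace Fermat.Agent.S13.NoRat

open WeierstrassCurve WeierstrassCurve.Affine

theorem eq_zero_of_coprime_nsmul {A : Type*} [AddMonoid A] {P : A} {m n : ℕ} (h : Nat.Coprime m n)
    (hm : m • P = 0) (hn : n • P = 0) : P = 0 := by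
  have h1 := addOrderOf_dvd_of_nsmul_eq_zero hm
  have h2 := addOrderOf_dvd_of_nsmul_eq_zero hn
  have h3 := Nat.dvd_gcd h1 h2
  rw [h] at h3
  exact AddMonoid.addOrderOf_eq_one_iff.1 (Nat.dvd_one.1 h3)

variable {K : Type*} [Field K]
variable {Γ₀ : Type*} [LinearOrderedCommGroupWithZero Γ₀] {v : Valuation K Γ₀}

/-- integrality of a root of `s² + c s = r`. -/
theorem v_s_le_one {c s r : K} (hc : v c ≤ 1) (hr : v r ≤ 1) (e : s ^ 2 + c * s = r) :
    v s ≤ 1 := by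
  by_contra h
  rw [not_le] at h
  have h0 : 0 < v s := lt_trans zero_lt_one h
  have h1 : v (c * s) < v (s ^ 2) := by
    rw [map_mul, map_pow, sq]
    calc v c * v s ≤ 1 * v s := by gcongr
      _ < v s * v s := by gcongr
  have h2 : v (s ^ 2 + c * s) = v (s ^ 2) := Valuation.map_add_eq_of_lt_left v h1
  rw [e, map_pow] at h2
  have h3 : 1 < v s ^ 2 := one_lt_pow₀ h two_ne_zero
  rw [← h2] at h3
  exact absurd hr (not_le.2 h3)

/-- `P = (x, x s)` with `x` a unit. -/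
def Good (v : Valuation K Γ₀) {E : WeierstrassCurve.Affine K} (P : E.Point) (s : K) : Prop :=
  ∃ (x : K) (h : E.Nonsingular x (x * s)), P = Point.some _ _ h ∧ v x = 1

theorem ne_zero_of_v_eq_one {x : K} (h : v x = 1) : x ≠ 0 := by
  rintro rfl
  simp at h

theorem IsM1.good_v_s {E : WeierstrassCurve.Affine K} (hE : IsM1 E)
    (hc : v E.a₁ ≤ 1) (hU : v E.a₂ ≤ 1) (hW : v E.a₄ ≤ 1) {P : E.Point} {s : K}
    (hP : Good v P s) : v s ≤ 1 := by
  obtain ⟨x, h, -, hx⟩ := hP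
  have hx0 : x ≠ 0 := ne_zero_of_v_eq_one hx
  have e := hE.equation_s hx0 h.1
  have e' : s ^ 2 + E.a₁ * s = x + E.a₂ + E.a₄ / x := by
    field_simp
    linear_combination e
  refine v_s_le_one hc ?_ e'
  refine Valuation.map_add_le v (Valuation.map_add_le v hx.le hU) ?_
  rw [map_div₀, hx, div_one]
  exact hW

theorem v_two_mul_add {c s : K} (h2 : v (2 : K) < 1) (hc : v c = 1) (hs : v s ≤ 1) :
    v (2 * s + c) = 1 := by
  rw [← hc]
  apply Valuation.map_add_eq_of_lt_right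
  rw [hc, map_mul]
  exact mul_lt_one_of_lt_of_le h2 hs

variable [DecidableEq K]

theorem IsM1.good_dbl {E : WeierstrassCurve.Affine K} (hE : IsM1 E)
    (h2 : v (2 : K) < 1) (hc : v E.a₁ = 1) (hU : v E.a₂ ≤ 1) (hW : v E.a₄ < 1) {P : E.Point} {s : K}
    (hP : Good v P s) : ∃ s' : K, Good v (2 • P) s' := by
  have hs := hE.good_v_s hc.le hU hW.le hP
  obtain ⟨x, h, rfl, hx⟩ := hP
  have hx0 : x ≠ 0 := ne_zero_of_v_eq_one hx
  have hDv : v (s + s + E.a₁) = 1 := by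
    rw [← two_mul]; exact v_two_mul_add h2 hc hs
  have hD : s + s + E.a₁ ≠ 0 := ne_zero_of_v_eq_one hDv
  have hxx : v (x * x) = 1 := by rw [map_mul, hx, one_mul]
  have hMv : v (x * x - E.a₄) = 1 := by
    rw [← hxx]
    exact Valuation.map_sub_eq_of_lt_left v (hxx ▸ hW)
  have hM : x * x - E.a₄ ≠ 0 := ne_zero_of_v_eq_one hMv
  obtain ⟨x₃, s₃, h₃, hadd, hx₃, -⟩ := hE.add_plus' hx0 hx0 hD hM h h
  refine ⟨s₃, x₃, h₃, by rw [two_nsmul, hadd], ?_⟩
  rw [hx₃, map_div₀, map_pow, map_mul v (x * x), map_pow, hMv, hDv, hxx]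
  simp

theorem IsM1.good_same_red {E : WeierstrassCurve.Affine K} (hE : IsM1 E)
    (hW : v E.a₄ < 1) {P₁ P₂ : E.Point} {s₁ s₂ : K}
    (hP₁ : Good v P₁ s₁) (hP₂ : Good v P₂ s₂) (hs : v (s₁ - s₂) < 1) : InE1 v (P₁ - P₂) := by
  obtain ⟨x₁, h₁, rfl, hx₁⟩ := hP₁
  obtain ⟨x₂, h₂, rfl, hx₂⟩ := hP₂
  have hx₁0 : x₁ ≠ 0 := ne_zero_of_v_eq_one hx₁
  have hx₂0 : x₂ ≠ 0 := ne_zero_of_v_eq_one hx₂
  have hxx : v (x₁ * x₂) = 1 := by rw [map_mul, hx₁, hx₂, one_mul]
  have hMv : v (x₁ * x₂ - E.a₄) = 1 := by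
    rw [← hxx]
    exact Valuation.map_sub_eq_of_lt_left v (hxx ▸ hW)
  have hM : x₁ * x₂ - E.a₄ ≠ 0 := ne_zero_of_v_eq_one hMv
  by_cases hD : s₁ - s₂ = 0
  · have hss : s₁ = s₂ := sub_eq_zero.1 hD
    subst hss
    have hd := alg_diff (hE.equation_s hx₁0 h₁.1) (hE.equation_s hx₂0 h₂.1)
    rw [sub_self, zero_mul, mul_zero] at hd
    have hxx' : x₁ = x₂ := by
      rcases mul_eq_zero.1 hd.symm with h | h
      · exact sub_eq_zero.1 h
      · exact absurd h hM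
    subst hxx'
    rw [sub_self]
    trivial
  · obtain ⟨h₂', hneg⟩ := hE.neg_s x₂ s₂ h₂
    have eD : s₁ + (-s₂ - E.a₁) + E.a₁ = s₁ - s₂ := by ring
    have hD' : s₁ + (-s₂ - E.a₁) + E.a₁ ≠ 0 := by rwa [eD]
    obtain ⟨x₃, y₃, h₃, hadd, hx₃⟩ := hE.add_plus_x' hx₁0 hx₂0 hD' h₁ h₂'
    rw [sub_eq_add_neg, hneg, hadd]
    show 1 < v x₃
    rw [hx₃, eD, map_div₀, map_pow, map_mul v (x₁ * x₂), map_pow, hMv, hxx, one_pow, one_mul]
    have h0 : 0 < v (s₁ - s₂) := (Valuation.pos_iff v).mpr hD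
    rw [one_lt_div₀ (pow_pos h0 2)]
    exact pow_lt_one₀ zero_le hs two_ne_zero

omit [DecidableEq K] in
theorem Good.not_InE1 {E : WeierstrassCurve.Affine K} {P : E.Point} {s : K} (hP : Good v P s) :
    ¬ InE1 v P := by
  obtain ⟨x, h, rfl, hx⟩ := hP
  intro h1
  have : 1 < v x := h1
  rw [hx] at this
  exact lt_irrefl _ this

omit [DecidableEq K] in
theorem Good.ne_zero {E : WeierstrassCurve.Affine K} {P : E.Point} {s : K} (hP : Good v P s) :
    P ≠ 0 := by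
  intro h
  apply hP.not_InE1
  rw [h]; trivial

omit [DecidableEq K] in
theorem v_sub_lt_of_res {a b : K} (ha : v a < 1 ∨ v (a - 1) < 1) (hb : v b < 1 ∨ v (b - 1) < 1)
    (hab : ¬ v (a - b) < 1) : (v a < 1 ∧ v (b - 1) < 1) ∨ (v (a - 1) < 1 ∧ v b < 1) := by
  rcases ha with ha | ha <;> rcases hb with hb | hb
  · exact absurd (Valuation.map_sub_lt v ha hb) hab
  · exact Or.inl ⟨ha, hb⟩
  · exact Or.inr ⟨ha, hb⟩
  · exfalso
    apply hab
    have : a - b = (a - 1) - (b - 1) := by ring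
    rw [this]
    exact Valuation.map_sub_lt v ha hb

/-- Claim B: a point with unit `x`-coordinate is not `p`-torsion. -/
theorem IsM1.good_not_torsion {E : WeierstrassCurve.Affine K} (hE : IsM1 E)
    (h2 : v (2 : K) < 1) (hc : v E.a₁ = 1) (hU : v E.a₂ ≤ 1) (hW : v E.a₄ < 1)
    (hR1 : ∀ x : K, v x ≤ 1 → v x < 1 ∨ v (x - 1) < 1)
    {p : ℕ} (hp3 : Nat.Coprime 3 p) (hvp : v (p : K) = 1)
    {P : E.Point} {s : K} (hP : Good v P s) (hpP : p • P = 0) : False := by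
  obtain ⟨s₂, hP₂⟩ := hE.good_dbl h2 hc hU hW hP
  obtain ⟨s₄, hP₄⟩ := hE.good_dbl h2 hc hU hW hP₂
  have r₁ := hR1 s (hE.good_v_s hc.le hU hW.le hP)
  have r₂ := hR1 s₂ (hE.good_v_s hc.le hU hW.le hP₂)
  have r₄ := hR1 s₄ (hE.good_v_s hc.le hU hW.le hP₄)
  by_cases h12 : v (s - s₂) < 1
  · have h := hE.good_same_red hW hP hP₂ h12
    have e : P - (2 : ℕ) • P = -P := by rw [two_nsmul]; abel
    rw [e] at h
    have h' := InE1_neg _ h
    rw [neg_neg] at h'
    exact hP.not_InE1 h'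
  by_cases h24 : v (s₂ - s₄) < 1
  · have h := hE.good_same_red hW hP₂ hP₄ h24
    have e : (2 : ℕ) • P - (2 : ℕ) • (2 : ℕ) • P = -((2 : ℕ) • P) := by
      rw [two_nsmul ((2 : ℕ) • P)]; abel
    rw [e] at h
    have h' := InE1_neg _ h
    rw [neg_neg] at h'
    exact hP₂.not_InE1 h'
  have h14 : v (s - s₄) < 1 := by
    rcases v_sub_lt_of_res r₁ r₂ h12 with ⟨a, b⟩ | ⟨a, b⟩ <;>
      rcases v_sub_lt_of_res r₂ r₄ h24 with ⟨c, d⟩ | ⟨c, d⟩
    · exfalso
      have : v ((s₂ - (s₂ - 1))) < 1 := Valuation.map_sub_lt v c b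
      simp at this
    · exact Valuation.map_sub_lt v a d
    · have : s - s₄ = (s - 1) - (s₄ - 1) := by ring
      rw [this]
      exact Valuation.map_sub_lt v a d
    · exfalso
      have : v ((s₂ - (s₂ - 1))) < 1 := Valuation.map_sub_lt v b c
      simp at this
  have h := hE.good_same_red hW hP hP₄ h14
  have e : P - (2 : ℕ) • (2 : ℕ) • P = -((3 : ℕ) • P) := by
    rw [two_nsmul ((2 : ℕ) • P), two_nsmul, succ_nsmul, two_nsmul]; abel
  rw [e] at h
  have h' := InE1_neg _ h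
  rw [neg_neg] at h'
  have h3 : 3 • P = 0 := by
    apply hE.E1_torsion_free hc.le hU hW.le _ h' p hvp
    rw [smul_comm, hpP, smul_zero]
  exact hP.ne_zero (eq_zero_of_coprime_nsmul hp3 h3 hpP)

/-- Lemma C. -/
theorem IsM1.E0_two_nsmul {E : WeierstrassCurve.Affine K} (hE : IsM1 E)
    (h2 : v (2 : K) < 1) (hc : v E.a₁ = 1) (hU : v E.a₂ ≤ 1) (hW : v E.a₄ < 1)
    (hR1 : ∀ x : K, v x ≤ 1 → v x < 1 ∨ v (x - 1) < 1)
    {p : ℕ} (hp3 : Nat.Coprime 3 p) (hvp : v (p : K) = 1)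
    {R : E.Point} (hR : InE0 v R) (hpR : p • (2 • R) = 0) : 2 • R = 0 := by
  rcases R with _ | ⟨x, y, h⟩
  · rw [← Point.zero_def, smul_zero]
  have hx : 1 ≤ v x := hR
  rcases hx.lt_or_eq with hx | hx
  · have h1 : InE1 v (Point.some x y h) := hx
    have h2' : InE1 v (2 • Point.some x y h) := by
      rw [two_nsmul]
      exact (hE.E1_add hc.le hU hW.le _ _ h1 h1).1
    exact hE.E1_torsion_free hc.le hU hW.le _ h2' p hvp hpR
  · exfalso
    have hx0 : x ≠ 0 := ne_zero_of_v_eq_one hx.symm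
    obtain ⟨s, h', e'⟩ := exists_s h hx0
    have hg : Good v (Point.some x y h) s := ⟨x, h', e', hx.symm⟩
    obtain ⟨s₂, hg₂⟩ := hE.good_dbl h2 hc hU hW hg
    exact hE.good_not_torsion h2 hc hU hW hR1 hp3 hvp hg₂ hpR

/-- The local theorem. -/
theorem IsM1.no_torsion {E : WeierstrassCurve.Affine K} (hE : IsM1 E)
    (h2 : v (2 : K) < 1) (hc : v E.a₁ = 1) (hU : v E.a₂ ≤ 1) (hW : v E.a₄ < 1) (hW0 : E.a₄ ≠ 0)
    (hR1 : ∀ x : K, v x ≤ 1 → v x < 1 ∨ v (x - 1) < 1)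
    {p : ℕ} (hp : p.Prime) (hp5 : 5 ≤ p) (hvp : v (p : K) = 1)
    (hH : ∀ (x : K) (j : ℕ), v x ^ p = v E.a₄ ^ j → p ∣ j)
    (P : E.Point) (hpP : p • P = 0) : P = 0 := by
  have hp3 : Nat.Coprime 3 p := by
    rw [Nat.coprime_primes Nat.prime_three hp]; omega
  have hT : E.Nonsingular 0 0 := hE.nonsingular_T hW0
  have h2T : ∀ j : ℕ, 2 • (j • Point.some 0 0 hT) = 0 := by
    intro j
    rw [smul_comm, two_nsmul, hE.T_add_T, smul_zero]
  -- the key reduction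
  have key : ∀ (k j : ℕ), 1 ≤ k → k < p → InE0 v (k • P + j • Point.some 0 0 hT) → P = 0 := by
    intro k j hk1 hkp hR
    have e : 2 • (k • P + j • Point.some 0 0 hT) = (2 * k) • P := by
      rw [smul_add, h2T, add_zero, mul_smul]
    have h0 := hE.E0_two_nsmul h2 hc hU hW hR1 hp3 hvp hR
      (by rw [e, smul_comm, hpP, smul_zero])
    rw [e] at h0
    refine eq_zero_of_coprime_nsmul ?_ h0 hpP
    apply Nat.Coprime.symm
    rw [Nat.Prime.coprime_iff_not_dvd hp, Nat.Prime.dvd_mul hp]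
    rintro (h | h)
    · have := Nat.le_of_dvd (by norm_num) h; omega
    · have := Nat.le_of_dvd (by omega) h; omega
  have hp1 : 1 < p := by omega
  rcases hPe : P with _ | ⟨x, y, h⟩
  · rfl
  rw [← hPe]
  by_cases hx1 : 1 ≤ v x
  · apply key 1 0 le_rfl hp1
    rw [one_smul, zero_smul, add_zero, hPe]
    exact hx1
  rw [not_le] at hx1
  by_cases hx2 : v x ≤ v E.a₄
  · apply key 1 1 le_rfl hp1
    rw [one_smul, one_smul, hPe]
    exact hE.E0_add_T_of_le hT h hx2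
  rw [not_le] at hx2
  have hx0 : x ≠ 0 := by
    rintro rfl
    rw [map_zero] at hx2
    simp at hx2
  obtain ⟨s, h', e'⟩ := exists_s h hx0
  have hvs : v s ≤ 1 := by
    have e := hE.equation_s hx0 h'.1
    have e'' : s ^ 2 + E.a₁ * s = x + E.a₂ + E.a₄ / x := by
      field_simp
      linear_combination e
    refine v_s_le_one hc.le ?_ e''
    refine Valuation.map_add_le v (Valuation.map_add_le v hx1.le hU) ?_
    rw [map_div₀]
    exact div_le_one_of_le₀ hx2.le zero_le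
  have hpos : IsPos v s P x := ⟨hx2, hx1, x, s, h', by rw [hPe, e'], rfl, by simp⟩
  rcases hE.mult_induction hT (v_two_mul_add h2 hc hvs) hpos p hp1.le with
    ⟨j, hj⟩ | ⟨k', hk1, hk2, j, hR, hv⟩
  · exfalso
    rw [hpP, zero_add] at hj
    obtain ⟨ht1, -, x', s', h'', hj', hx', -⟩ := hj
    rcases hE.nsmul_T hT j with h0 | h0
    · rw [h0] at hj'
      exact Point.some_ne_zero h'' hj'.symm
    · rw [h0] at hj'
      have this : (0 : K) = x' := by
        injection hj'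
      rw [← this, map_zero] at hx'
      rw [← hx'] at ht1
      simp at ht1
  · rcases hk2.lt_or_eq with hk2 | rfl
    · exact key k' j hk1 hk2 hR
    · exfalso
      rw [map_pow, map_pow] at hv
      obtain ⟨j', rfl⟩ := hH x j hv
      rw [pow_mul', ] at hv
      have hv' : v x = v E.a₄ ^ j' :=
        (pow_left_inj₀ zero_le zero_le (by omega : k' ≠ 0)).1 hv
      rcases Nat.eq_zero_or_pos j' with rfl | hj'
      · rw [pow_zero] at hv'
        exact hx1.ne hv'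
      · have : v E.a₄ ^ j' ≤ v E.a₄ := by
          calc v E.a₄ ^ j' ≤ v E.a₄ ^ 1 := pow_le_pow_of_le_one zero_le hW.le hj'
            _ = v E.a₄ := pow_one _
        rw [← hv'] at this
        exact absurd this (not_le.2 hx2)

end Fermat.Agent.S13.NoRat
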