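import Fermat.Agent.S13.NoRatE1

/-!
# S13, block L2f: multiplicative reduction, component bookkeeping for
`y² + a₁ x y = x³ + a₂ x² + a₄ x` (port of `S05/Mult` to `a₁ ≠ 0`).
-/

set_option autoImplicit false

namespace Fermat.Agent.S13.NoRat

open WeierstrassCurve WeierstrassCurve.Affine

variable {K : Type*} [Field K] [DecidableEq K]
variable {Γ₀ : Type*} [LinearOrderedCommGroupWithZero Γ₀] {v : Valuation K Γ₀}

/-- Points not reducing to `(0,0)`. -/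
def InE0 (v : Valuation K Γ₀) {E : WeierstrassCurve.Affine K} (P : E.Point) : Prop :=
  match P with
  | .zero => True
  | .some x _ _ => 1 ≤ v x

omit [DecidableEq K] in
theorem IsM1.nonsingular_T {E : WeierstrassCurve.Affine K} (hE : IsM1 E) (hW : E.a₄ ≠ 0) :
    E.Nonsingular 0 0 := by
  rw [nonsingular_zero]
  exact ⟨hE.a₆, Or.inr hW⟩

theorem IsM1.T_add_T {E : WeierstrassCurve.Affine K} (hE : IsM1 E) (hT : E.Nonsingular 0 0) :
    Point.some 0 0 hT + Point.some 0 0 hT = 0 := by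
  apply Point.add_of_Y_eq rfl
  rw [hE.negY]; simp

theorem IsM1.nsmul_T {E : WeierstrassCurve.Affine K} (hE : IsM1 E) (hT : E.Nonsingular 0 0)
    (j : ℕ) : j • Point.some 0 0 hT = 0 ∨ j • Point.some 0 0 hT = Point.some 0 0 hT := by
  induction j with
  | zero => left; simp
  | succ j ih =>
    rw [succ_nsmul]
    rcases ih with h | h
    · right; rw [h, zero_add]
    · left; rw [h, hE.T_add_T]

omit [DecidableEq K] in
theorem IsM1.eq_T_of_x_zero {E : WeierstrassCurve.Affine K} (hE : IsM1 E) {y : K}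
    (h : E.Nonsingular 0 y) : y = 0 := by
  have := (hE.equation_iff 0 y).1 h.1
  simpa using this

theorem IsM1.E0_add_T_of_le {E : WeierstrassCurve.Affine K} (hE : IsM1 E)
    (hT : E.Nonsingular 0 0) {x y : K} (h : E.Nonsingular x y) (hx : v x ≤ v E.a₄) :
    InE0 v (Point.some x y h + Point.some 0 0 hT) := by
  by_cases hx0 : x = 0
  · subst hx0
    obtain rfl := hE.eq_T_of_x_zero h
    rw [hE.T_add_T]; trivial
  · obtain ⟨s, h', e'⟩ := exists_s h hx0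
    obtain ⟨x₃, s₃, h₃, hadd, hx₃, -⟩ := hE.add_T' hx0 hT h'
    rw [e', hadd]
    show 1 ≤ v x₃
    rw [hx₃, map_div₀]
    exact (one_le_div₀ ((Valuation.pos_iff v).mpr hx0)).mpr hx

/-- `P` lies on the "positive" component at depth `v t`. -/
def IsPos (v : Valuation K Γ₀) {E : WeierstrassCurve.Affine K} (γ : K) (P : E.Point) (t : K) :
    Prop :=
  v E.a₄ < v t ∧ v t < 1 ∧
    ∃ (x s : K) (h : E.Nonsingular x (x * s)), P = Point.some _ _ h ∧ v x = v t ∧ v (s - γ) < 1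

omit [DecidableEq K] in
theorem alg_s3a {c W x₁ x₂ s₁ s₂ γ : K} (hM : x₁ * x₂ - W ≠ 0) :
    (-c - s₁ - (x₁ * x₂ - W) / (x₁ * (s₁ + s₂ + c)) + x₁ * x₂ * (s₁ + s₂ + c) / (x₁ * x₂ - W)) - γ
      = (s₂ - γ) + (s₁ + s₂ + c) * W / (x₁ * x₂ - W) - (x₁ * x₂ - W) / (x₁ * (s₁ + s₂ + c)) := by
  field_simp
  ring

theorem IsM1.pos_add_pos {E : WeierstrassCurve.Affine K} (hE : IsM1 E)
    (hT : E.Nonsingular 0 0) {γ : K} (hγ : v (2 * γ + E.a₁) = 1)
    {Q P : E.Point} {t t' : K} (hQ : IsPos v γ Q t) (hP : IsPos v γ P t') :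
    (v E.a₄ < v (t * t') → IsPos v γ (Q + P) (t * t')) ∧
    (v (t * t') = v E.a₄ → InE0 v (Q + P + Point.some 0 0 hT)) ∧
    (v (t * t') < v E.a₄ → IsPos v γ (Q + P + Point.some 0 0 hT) (t * t' / E.a₄)) := by
  obtain ⟨ht1, ht2, x₁, s₁, h₁, rfl, hx₁, hs₁⟩ := hQ
  obtain ⟨ht1', ht2', x₂, s₂, h₂, rfl, hx₂, hs₂⟩ := hP
  have hx₁0 : x₁ ≠ 0 := by
    rintro rfl
    rw [map_zero] at hx₁; rw [← hx₁] at ht1; simp at ht1
  have hx₂0 : x₂ ≠ 0 := by
    rintro rfl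
    rw [map_zero] at hx₂; rw [← hx₂] at ht1'; simp at ht1'
  have hx12 : v (x₁ * x₂) = v (t * t') := by rw [map_mul, map_mul, hx₁, hx₂]
  have hvx₁ : 0 < v x₁ := (Valuation.pos_iff v).mpr hx₁0
  have hvx₂ : 0 < v x₂ := (Valuation.pos_iff v).mpr hx₂0
  have hvx12 : 0 < v (x₁ * x₂) := (Valuation.pos_iff v).mpr (mul_ne_zero hx₁0 hx₂0)
  have hDv : v (s₁ + s₂ + E.a₁) = 1 := by
    have : s₁ + s₂ + E.a₁ = (2 * γ + E.a₁) + ((s₁ - γ) + (s₂ - γ)) := by ring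
    rw [this, ← hγ]
    exact Valuation.map_add_eq_of_lt_left v (hγ ▸ Valuation.map_add_lt v hs₁ hs₂)
  have hD : s₁ + s₂ + E.a₁ ≠ 0 := by
    intro h0; rw [h0] at hDv; simp at hDv
  refine ⟨fun hlt => ?_, fun heq => ?_, fun hlt => ?_⟩
  · -- case (a)
    have hvM : v (x₁ * x₂ - E.a₄) = v (x₁ * x₂) :=
      Valuation.map_sub_eq_of_lt_left v (hx12 ▸ hlt)
    have hM : x₁ * x₂ - E.a₄ ≠ 0 := by
      intro h0; rw [h0, map_zero] at hvM; exact hvx12.ne hvM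
    obtain ⟨x₃, s₃, h₃, hadd, hx₃, hs₃⟩ := hE.add_plus' hx₁0 hx₂0 hD hM h₁ h₂
    refine ⟨hlt, ?_, x₃, s₃, h₃, hadd, ?_, ?_⟩
    · rw [map_mul]; exact mul_lt_one_of_lt_of_le ht2 ht2'.le
    · rw [hx₃, map_div₀, map_pow, map_mul v (x₁ * x₂), map_pow, hvM, hDv, one_pow, mul_one, ← hx12, sq,
        mul_div_assoc, div_self hvx12.ne', mul_one]
    · rw [hs₃, alg_s3a hM]
      refine Valuation.map_sub_lt v (Valuation.map_add_lt v hs₂ ?_) ?_
      · rw [map_div₀, map_mul, hDv, one_mul, hvM, hx12]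
        exact (div_lt_one₀ (hx12 ▸ hvx12)).mpr hlt
      · rw [map_div₀, hvM, map_mul, map_mul, hDv, mul_one, mul_comm, mul_div_assoc,
          div_self hvx₁.ne', mul_one, hx₂]
        exact ht2'
  · -- case (b)
    obtain ⟨x₃, y₃, h₃, hadd, hx₃⟩ := hE.add_plus_x' hx₁0 hx₂0 hD h₁ h₂
    rw [hadd]
    apply hE.E0_add_T_of_le
    have hvM : v (x₁ * x₂ - E.a₄) ≤ v E.a₄ :=
      Valuation.map_sub_le v (by rw [hx12, heq]) le_rfl
    have hW0 : 0 < v E.a₄ := by rw [← heq, ← hx12]; exact hvx12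
    rw [hx₃, map_div₀, map_pow, map_mul v (x₁ * x₂), map_pow, hDv, one_pow, mul_one, hx12, heq,
      div_le_iff₀ hW0, sq]
    exact mul_le_mul' hvM hvM
  · -- case (c)
    have hvM : v (x₁ * x₂ - E.a₄) = v E.a₄ :=
      Valuation.map_sub_eq_of_lt_right v (hx12 ▸ hlt)
    have hW0 : 0 < v E.a₄ := lt_of_le_of_lt zero_le hlt
    have hM : x₁ * x₂ - E.a₄ ≠ 0 := by
      intro h0; rw [h0, map_zero] at hvM; exact hW0.ne hvM
    obtain ⟨x₃, s₃, h₃, hadd, hx₃, hs₃⟩ := hE.add_plus' hx₁0 hx₂0 hD hM h₁ h₂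
    have hvx₃ : v x₃ = v E.a₄ ^ 2 / v (x₁ * x₂) := by
      rw [hx₃, map_div₀, map_pow, map_mul v (x₁ * x₂), map_pow, hvM, hDv, one_pow, mul_one]
    have hx₃0 : x₃ ≠ 0 := by
      intro h0
      rw [h0, map_zero] at hvx₃
      exact (div_pos (pow_pos hW0 2) hvx12).ne hvx₃
    obtain ⟨x₄, s₄, h₄, hadd', hx₄, hs₄⟩ := hE.add_T' hx₃0 hT h₃
    refine ⟨?_, ?_, x₄, s₄, h₄, by rw [hadd, hadd'], ?_, ?_⟩
    · rw [map_div₀, lt_div_iff₀ hW0, map_mul]
      exact mul_lt_mul'' ht1 ht1' zero_le zero_le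
    · rw [map_div₀]
      exact (div_lt_one₀ hW0).mpr hlt
    · rw [hx₄, map_div₀, hvx₃, map_div₀, hx12, sq]
      field_simp
    · rw [hs₄, hs₃]
      have : -(-E.a₁ - s₁ - (x₁ * x₂ - E.a₄) / (x₁ * (s₁ + s₂ + E.a₁))
            + x₁ * x₂ * (s₁ + s₂ + E.a₁) / (x₁ * x₂ - E.a₄)) - E.a₁ - γ
          = (s₁ - γ) + (x₁ * x₂ - E.a₄) / (x₁ * (s₁ + s₂ + E.a₁))
            - x₁ * x₂ * (s₁ + s₂ + E.a₁) / (x₁ * x₂ - E.a₄) := by ring
      rw [this]
      refine Valuation.map_sub_lt v (Valuation.map_add_lt v hs₁ ?_) ?_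
      · rw [map_div₀, hvM, map_mul, hDv, mul_one, hx₁]
        exact (div_lt_one₀ (hx₁ ▸ hvx₁)).mpr ht1
      · rw [map_div₀, hvM, map_mul, hDv, mul_one, hx12]
        exact (div_lt_one₀ hW0).mpr hlt

theorem IsM1.mult_induction {E : WeierstrassCurve.Affine K} (hE : IsM1 E)
    (hT : E.Nonsingular 0 0) {γ : K} (hγ : v (2 * γ + E.a₁) = 1)
    {P : E.Point} {x₀ : K} (hP : IsPos v γ P x₀) (k : ℕ) (hk : 1 ≤ k) :
    (∃ j : ℕ, IsPos v γ (k • P + j • Point.some 0 0 hT) (x₀ ^ k / E.a₄ ^ j)) ∨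
    ∃ k' : ℕ, 1 ≤ k' ∧ k' ≤ k ∧ ∃ j : ℕ, InE0 v (k' • P + j • Point.some 0 0 hT) ∧
      v (x₀ ^ k') = v (E.a₄ ^ j) := by
  have hW0 : E.a₄ ≠ 0 := by
    have := (nonsingular_zero.1 hT).2
    rcases this with h | h
    · exact absurd hE.a₃ h
    · exact h
  induction k, hk using Nat.le_induction with
  | base =>
    left
    refine ⟨0, ?_⟩
    simpa using hP
  | succ k hk ih =>
    rcases ih with ⟨j, hQ⟩ | ⟨k', h1, h2', j, h3, h4⟩
    · obtain ⟨ha, hb, hc⟩ := hE.pos_add_pos hT hγ hQ hP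
      have et : x₀ ^ k / E.a₄ ^ j * x₀ = x₀ ^ (k + 1) / E.a₄ ^ j := by
        rw [pow_succ]; ring
      have eP : k • P + j • Point.some 0 0 hT + P = (k + 1) • P + j • Point.some 0 0 hT := by
        rw [succ_nsmul]; abel
      have eP' : k • P + j • Point.some 0 0 hT + P + Point.some 0 0 hT
          = (k + 1) • P + (j + 1) • Point.some 0 0 hT := by
        rw [succ_nsmul, succ_nsmul]; abel
      rw [et, eP] at ha
      rw [et, eP'] at hb hc
      rcases lt_trichotomy (v (x₀ ^ (k + 1) / E.a₄ ^ j)) (v E.a₄) with h | h | h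
      · left
        refine ⟨j + 1, ?_⟩
        have := hc h
        rwa [div_div, ← pow_succ] at this
      · right
        refine ⟨k + 1, by omega, le_rfl, j + 1, hb h, ?_⟩
        rw [map_div₀, div_eq_iff ((Valuation.ne_zero_iff v).mpr (pow_ne_zero j hW0))] at h
        rw [h, pow_succ, map_mul, mul_comm]
      · left
        exact ⟨j, ha h⟩
    · right
      exact ⟨k', h1, by omega, j, h3, h4⟩

end Fermat.Agent.S13.NoRat
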