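import Fermat.Agent.S13.Interface
import Fermat.Agent.S54.Frob95

/-!
# S13 / T4 : infinitely many non-torsion points on the model curve `y² = x³ + u x² + w x`
-/

set_option autoImplicit false

namespace Fermat.Agent.S13

open WeierstrassCurve WeierstrassCurve.Affine WeierstrassCurve.Affine.Point

/-- valuation of a natural number prime to the residue characteristic. -/
theorem T4_val_natCast_eq_one (V : ValuationSubring Qb) {l : ℕ} (hl : l.Prime)
    (hlV : (l : Qb) ∈ V.nonunits) {m : ℕ} (hm : ¬ l ∣ m) : V.valuation (m : Qb) = 1 := by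
  apply S54.Frob95.val_eq_one V (natCast_mem V m)
  have := S54.Frob95.intCast_not_mem_nonunits V hl hlV (c := (m : ℤ)) (by exact_mod_cast hm)
  simpa using this

theorem T4_val_intCast_le_one (V : ValuationSubring Qb) (c : ℤ) :
    V.valuation (algebraMap ℚ Qb (c : ℚ)) ≤ 1 := by
  rw [ValuationSubring.valuation_le_one_iff]
  simp

/-- A point in the kernels of reduction at `3` and at `5` is not torsion. -/
theorem T4_nonTorsion (u w : ℤ) (V3 V5 : ValuationSubring Qb)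
    (h3 : ((3 : ℕ) : Qb) ∈ V3.nonunits) (h5 : ((5 : ℕ) : Qb) ∈ V5.nonunits)
    (P : ((S05.mcQ u w)⁄Qb).Point) (hP3 : S05.InE1 V3.valuation P) (hP5 : S05.InE1 V5.valuation P)
    (n : ℕ) (hn : 0 < n) (hnP : n • P = 0) : P = 0 := by
  have hE := S05.isMC_mcQ (u : ℚ) (w : ℚ)
  have hU : ∀ V : ValuationSubring Qb, V.valuation ((S05.mcQ u w)⁄Qb).a₂ ≤ 1 := fun V => by
    rw [S05.mcQ_a₂]; exact T4_val_intCast_le_one V u
  have hW : ∀ V : ValuationSubring Qb, V.valuation ((S05.mcQ u w)⁄Qb).a₄ ≤ 1 := fun V => by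
    rw [S05.mcQ_a₄]; exact T4_val_intCast_le_one V w
  obtain ⟨a, m, hm, rfl⟩ := Nat.exists_eq_pow_mul_and_not_dvd hn.ne' 3 (by norm_num)
  have h1 : (3 ^ a) • P = 0 := by
    apply hE.E1_torsion_free (hU V3) (hW V3) _ (hE.E1_nsmul (hU V3) (hW V3) P hP3 _).1 m
      (T4_val_natCast_eq_one V3 Nat.prime_three h3 hm)
    rw [← mul_smul, mul_comm]
    exact hnP
  apply hE.E1_torsion_free (hU V5) (hW V5) P hP5 (3 ^ a) _ h1
  apply T4_val_natCast_eq_one V5 Nat.prime_five h5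
  intro h
  have := Nat.Prime.dvd_of_dvd_pow Nat.prime_five h
  omega

theorem exists_infinite_nonTorsion (u w : ℤ) (hw : w ≠ 0) (hd : u ^ 2 - 4 * w ≠ 0) :
    ∃ S : Set Qb, S.Infinite ∧ ∀ x ∈ S, ∃ (y : Qb) (h : ((S05.mcQ u w)⁄Qb).Nonsingular x y),
      ∀ n : ℕ, 0 < n → n • (Point.some x y h : ((S05.mcQ u w)⁄Qb).Point) ≠ 0 := by
  obtain ⟨V3, h3⟩ := S54.Frob95.exists_valuationSubring 3 Nat.prime_three
  obtain ⟨V5, h5⟩ := S54.Frob95.exists_valuationSubring 5 Nat.prime_five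
  have hinj : Function.Injective (fun k : ℕ => ((15 : Qb) ^ (k + 1))⁻¹) := by
    intro a b hab
    have h1 : ((15 : Qb) ^ (a + 1)) = (15 : Qb) ^ (b + 1) := inv_injective hab
    have h2 : (15 : ℕ) ^ (a + 1) = 15 ^ (b + 1) := by exact_mod_cast h1
    have := Nat.pow_right_injective (a := 15) (by norm_num) h2
    omega
  refine ⟨Set.range (fun k : ℕ => ((15 : Qb) ^ (k + 1))⁻¹), Set.infinite_range_of_injective hinj, ?_⟩
  rintro _ ⟨k, rfl⟩
  set x : Qb := ((15 : Qb) ^ (k + 1))⁻¹ with hx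
  have hE := S05.isMC_mcQ (u : ℚ) (w : ℚ)
  obtain ⟨y, hy⟩ := IsAlgClosed.exists_pow_nat_eq
    (x ^ 3 + ((S05.mcQ u w)⁄Qb).a₂ * x ^ 2 + ((S05.mcQ u w)⁄Qb).a₄ * x) (n := 2) (by norm_num)
  have heq : ((S05.mcQ u w)⁄Qb).Equation x y := (hE.equation_iff x y).2 hy
  have hΔ : ((S05.mcQ u w)⁄Qb).Δ ≠ 0 := by
    have : ((S05.mcQ u w)⁄Qb).Δ = algebraMap ℚ Qb ((16 * w ^ 2 * (u ^ 2 - 4 * w) : ℤ) : ℚ) := by
      refine (WeierstrassCurve.map_Δ (S05.mcQ u w) (algebraMap ℚ Qb)).trans ?_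
      congr 1
      simp [S05.mcQ, WeierstrassCurve.Δ, WeierstrassCurve.b₂, WeierstrassCurve.b₄,
        WeierstrassCurve.b₆, WeierstrassCurve.b₈]
      ring
    rw [this]
    simp only [ne_eq, map_eq_zero, Int.cast_eq_zero]
    positivity
  have hns : ((S05.mcQ u w)⁄Qb).Nonsingular x y :=
    (WeierstrassCurve.Affine.equation_iff_nonsingular_of_Δ_ne_zero hΔ).1 heq
  have hval : ∀ (V : ValuationSubring Qb) (l : ℕ), (l : Qb) ∈ V.nonunits → l ∣ 15 →
      1 < V.valuation x := by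
    intro V l hl ⟨c, hc⟩
    have h15 : V.valuation (15 : Qb) < 1 := by
      have : (15 : Qb) = (l : Qb) * (c : Qb) := by exact_mod_cast congrArg (Nat.cast : ℕ → Qb) hc
      rw [this, ← ValuationSubring.mem_nonunits_iff]
      exact S54.Frob95.mul_mem_nonunits V hl (natCast_mem V c)
    rw [hx, map_inv₀, map_pow]
    apply (one_lt_inv₀ _).2
    · exact pow_lt_one₀ zero_le h15 (by omega)
    · apply pow_pos
      rw [Valuation.pos_iff]
      norm_num
  refine ⟨y, hns, fun n hn hnP => ?_⟩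
  have := T4_nonTorsion u w V3 V5 h3 h5 (Point.some x y hns) (hval V3 3 h3 (by norm_num))
    (hval V5 5 h5 (by norm_num)) n hn hnP
  exact Point.some_ne_zero _ this

end Fermat.Agent.S13
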