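import Fermat.Agent.S13.Interface

/-!
# S13, package T5: polynomial identities for `Φ`, `ΨSq` on the model `y² = x³ + a₂ x² + a₄ x`
-/

set_option autoImplicit false

namespace Fermat.Agent.S13

open WeierstrassCurve WeierstrassCurve.Affine Polynomial

section General

variable {F : Type*} [Field F] [DecidableEq F]

/-- `x` is the abscissa of a point all of whose non-zero multiples are computed by the division
polynomials (this is what T3 gives for a non-torsion point). -/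
def PolyIdGood (E : WeierstrassCurve.Affine F) (x : F) : Prop :=
  ∃ (y : F) (h : E.Nonsingular x y), ∀ n : ℤ, n ≠ 0 →
    (E.ΨSq n).eval x ≠ 0 ∧
      ∃ (y' : F) (h' : E.Nonsingular ((E.Φ n).eval x / (E.ΨSq n).eval x) y'),
        n • (Point.some x y h) = Point.some _ y' h'

/-- (I0), valid for every Weierstrass curve over a commutative ring, directly from the definitions. -/
theorem polyId_I0 {R : Type*} [CommRing R] (E : WeierstrassCurve R) (n : ℤ) :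
    E.ΨSq (n + 1) * E.ΨSq (n - 1) = (E.Φ n - X * E.ΨSq n) ^ 2 := by
  rw [WeierstrassCurve.Φ, WeierstrassCurve.ΨSq, WeierstrassCurve.ΨSq]
  by_cases h : Even n
  · have h1 : ¬ Even (n + 1) := by
      rw [Int.even_add_one]; simpa using h
    have h2 : ¬ Even (n - 1) := by
      rw [Int.even_sub_one]; simpa using h
    rw [if_pos h, if_neg h1, if_neg h2]
    ring
  · have h1 : Even (n + 1) := by
      rw [Int.even_add_one]; exact h
    have h2 : Even (n - 1) := by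
      rw [Int.even_sub_one]; exact h
    rw [if_neg h, if_pos h1, if_pos h2]
    ring

/-- abscissae of `A + B` and `A - B` on the model curve (`x_A ≠ x_B`). -/
theorem polyId_add_sub {E : WeierstrassCurve.Affine F} (hE : S05.IsMC E) {x₁ y₁ x₂ y₂ xp yp xm ym : F}
    (h₁ : E.Nonsingular x₁ y₁) (h₂ : E.Nonsingular x₂ y₂) (hp : E.Nonsingular xp yp)
    (hm : E.Nonsingular xm ym) (hx : x₁ ≠ x₂)
    (hadd : Point.some x₁ y₁ h₁ + Point.some x₂ y₂ h₂ = Point.some xp yp hp)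
    (hsub : Point.some x₁ y₁ h₁ - Point.some x₂ y₂ h₂ = Point.some xm ym hm) :
    (xp + xm) * (x₁ - x₂) ^ 2 = 2 * ((x₂ * x₁ + E.a₄) * (x₁ + x₂) + 2 * E.a₂ * x₂ * x₁) ∧
      xp * xm * (x₁ - x₂) ^ 2 = (x₂ * x₁ - E.a₄) ^ 2 := by
  have e₁ := (hE.equation_iff x₁ y₁).mp h₁.1
  have e₂ := (hE.equation_iff x₂ y₂).mp h₂.1
  have hd : x₁ - x₂ ≠ 0 := sub_ne_zero.mpr hx
  rw [Point.add_of_X_ne hx] at hadd
  rw [sub_eq_add_neg, Point.neg_some, Point.add_of_X_ne hx] at hsub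
  injection hadd with hxp _
  injection hsub with hxm _
  rw [slope_of_X_ne hx] at hxp hxm
  simp only [addX, hE.a₁, hE.negY] at hxp hxm
  have hp' : xp * (x₁ - x₂) ^ 2 = (y₁ - y₂) ^ 2 - (E.a₂ + x₁ + x₂) * (x₁ - x₂) ^ 2 := by
    rw [← hxp]; field_simp; ring
  have hm' : xm * (x₁ - x₂) ^ 2 = (y₁ + y₂) ^ 2 - (E.a₂ + x₁ + x₂) * (x₁ - x₂) ^ 2 := by
    rw [← hxm]; field_simp; ring
  constructor
  · linear_combination hp' + hm' + 2 * e₁ + 2 * e₂
  · apply mul_right_cancel₀ (pow_ne_zero 2 hd)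
    linear_combination (xm * (x₁ - x₂) ^ 2) * hp' +
      ((y₁ - y₂) ^ 2 - (E.a₂ + x₁ + x₂) * (x₁ - x₂) ^ 2) * hm' +
      (y₁ ^ 2 + (x₁ ^ 3 + E.a₂ * x₁ ^ 2 + E.a₄ * x₁) - 2 * y₂ ^ 2
        - 2 * (E.a₂ + x₁ + x₂) * (x₁ - x₂) ^ 2) * e₁ +
      (y₂ ^ 2 + (x₂ ^ 3 + E.a₂ * x₂ ^ 2 + E.a₄ * x₂) - 2 * (x₁ ^ 3 + E.a₂ * x₁ ^ 2 + E.a₄ * x₁)
        - 2 * (E.a₂ + x₁ + x₂) * (x₁ - x₂) ^ 2) * e₂

/-- the three consecutive multiples `(n-1)P, nP, (n+1)P`. -/
theorem polyId_point {E : WeierstrassCurve.Affine F} (hE : S05.IsMC E) {x y : F}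
    (h : E.Nonsingular x y) {n : ℤ} {xn yn xp yp xm ym : F}
    (hn : E.Nonsingular xn yn) (hp : E.Nonsingular xp yp) (hm : E.Nonsingular xm ym)
    (Hn : n • Point.some x y h = Point.some xn yn hn)
    (Hp : (n + 1) • Point.some x y h = Point.some xp yp hp)
    (Hm : (n - 1) • Point.some x y h = Point.some xm ym hm) :
    (xp + xm) * (xn - x) ^ 2 = 2 * ((x * xn + E.a₄) * (xn + x) + 2 * E.a₂ * x * xn) ∧
      xp * xm * (xn - x) ^ 2 = (x * xn - E.a₄) ^ 2 := by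
  have hx : xn ≠ x := by
    intro hx
    subst hx
    rcases Y_eq_of_X_eq hn.1 h.1 rfl with hy | hy
    · subst hy
      rw [sub_smul, one_smul, Hn, sub_self] at Hm
      exact Point.some_ne_zero hm Hm.symm
    · subst hy
      have : Point.some xn (E.negY xn y) hn = - Point.some xn y h := by
        rw [Point.neg_some]
      rw [add_smul, one_smul, Hn, this, neg_add_cancel] at Hp
      exact Point.some_ne_zero hp Hp.symm
  refine polyId_add_sub hE hn h hp hm hx ?_ ?_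
  · rw [← Hn, ← Hp, add_smul, one_smul]
  · rw [← Hn, ← Hm, sub_smul, one_smul]

/-- evaluated forms of (I1), (I2) at a good abscissa. -/
theorem polyId_eval {E : WeierstrassCurve.Affine F} (hE : S05.IsMC E) {x : F}
    (hx : PolyIdGood E x) {n : ℤ} (h0 : n ≠ 0) (h1 : n + 1 ≠ 0) (h2 : n - 1 ≠ 0) :
    (E.Φ (n + 1)).eval x * (E.ΨSq (n - 1)).eval x + (E.Φ (n - 1)).eval x * (E.ΨSq (n + 1)).eval x
      = 2 * ((x * (E.Φ n).eval x + E.a₄ * (E.ΨSq n).eval x) *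
          ((E.Φ n).eval x + x * (E.ΨSq n).eval x)
          + 2 * E.a₂ * x * (E.Φ n).eval x * (E.ΨSq n).eval x) ∧
    (E.Φ (n + 1)).eval x * (E.Φ (n - 1)).eval x
      = (x * (E.Φ n).eval x - E.a₄ * (E.ΨSq n).eval x) ^ 2 := by
  obtain ⟨y, h, H⟩ := hx
  obtain ⟨hZn, yn, hn, Hn⟩ := H n h0
  obtain ⟨hZp, yp, hp, Hp⟩ := H (n + 1) h1
  obtain ⟨hZm, ym, hm, Hm⟩ := H (n - 1) h2
  obtain ⟨e1, e2⟩ := polyId_point hE h hn hp hm Hn Hp Hm
  have e0 := congrArg (Polynomial.eval x) (polyId_I0 E n)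
  simp only [eval_mul, eval_pow, eval_sub, eval_X] at e0
  set Xn := (E.Φ n).eval x
  set Zn := (E.ΨSq n).eval x
  set Xp := (E.Φ (n + 1)).eval x
  set Zp := (E.ΨSq (n + 1)).eval x
  set Xm := (E.Φ (n - 1)).eval x
  set Zm := (E.ΨSq (n - 1)).eval x
  have e0' : (Xn / Zn - x) ^ 2 * Zn ^ 2 = Zp * Zm := by
    rw [e0]; field_simp
  constructor
  · have : (Xp / Zp + Xm / Zm) * (Zp * Zm) = Xp * Zm + Xm * Zp := by field_simp
    rw [← this, ← e0', ← mul_assoc, e1]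
    field_simp
  · have : (Xp / Zp * (Xm / Zm)) * (Zp * Zm) = Xp * Xm := by field_simp
    rw [← this, ← e0', ← mul_assoc, e2]
    field_simp

omit [DecidableEq F] in
/-- (I1) and (I2) for `n = 1`. -/
theorem polyId_one {E : WeierstrassCurve.Affine F} (hE : S05.IsMC E) :
    E.Φ 2 * E.ΨSq 0 + E.Φ 0 * E.ΨSq 2
      = 2 * ((X * E.Φ 1 + C E.a₄ * E.ΨSq 1) * (E.Φ 1 + X * E.ΨSq 1)
          + 2 * C E.a₂ * X * E.Φ 1 * E.ΨSq 1) ∧
    E.Φ 2 * E.Φ 0 = (X * E.Φ 1 - C E.a₄ * E.ΨSq 1) ^ 2 := by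
  simp only [Φ_two, Φ_zero, Φ_one, ΨSq_zero, ΨSq_one, ΨSq_two, WeierstrassCurve.Ψ₂Sq,
    WeierstrassCurve.b₂, WeierstrassCurve.b₄, WeierstrassCurve.b₆, WeierstrassCurve.b₈,
    hE.a₁, hE.a₃, hE.a₆]
  constructor
  · simp only [map_mul, map_add, map_zero, map_pow, map_ofNat]
    ring
  · simp only [map_mul, map_add, map_sub, map_zero, map_pow, map_ofNat]
    ring

/-- **T5**, identities (I1) and (I2): for every integer `n`. -/
theorem polyId_I1_I2 {E : WeierstrassCurve.Affine F} (hE : S05.IsMC E)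
    (hinf : {x : F | PolyIdGood E x}.Infinite) (n : ℤ) :
    E.Φ (n + 1) * E.ΨSq (n - 1) + E.Φ (n - 1) * E.ΨSq (n + 1)
      = 2 * ((X * E.Φ n + C E.a₄ * E.ΨSq n) * (E.Φ n + X * E.ΨSq n)
          + 2 * C E.a₂ * X * E.Φ n * E.ΨSq n) ∧
    E.Φ (n + 1) * E.Φ (n - 1) = (X * E.Φ n - C E.a₄ * E.ΨSq n) ^ 2 := by
  by_cases h0 : n = 0
  · subst h0
    have h1 : E.Φ (0 - 1) = X := by rw [zero_sub, Φ_neg, Φ_one]
    have h2 : E.ΨSq (0 - 1) = 1 := by rw [zero_sub, ΨSq_neg, ΨSq_one]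
    simp only [zero_add, h1, h2, Φ_one, ΨSq_one, Φ_zero, ΨSq_zero]
    constructor <;> ring
  by_cases h1 : n = 1
  · subst h1
    simpa using polyId_one hE
  by_cases h2 : n = -1
  · subst h2
    have := polyId_one hE
    have e1 : E.Φ (-1 - 1) = E.Φ 2 := by rw [← Φ_neg]; norm_num
    have e2 : E.ΨSq (-1 - 1) = E.ΨSq 2 := by rw [← ΨSq_neg]; norm_num
    rw [neg_add_cancel, e1, e2, Φ_neg, ΨSq_neg]
    refine ⟨?_, ?_⟩
    · rw [← this.1]; ring
    · rw [← this.2]; ring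
  have h1' : n - 1 ≠ 0 := sub_ne_zero.mpr h1
  have h2' : n + 1 ≠ 0 := fun h => h2 (by omega)
  constructor
  · apply Polynomial.eq_of_infinite_eval_eq
    refine hinf.mono fun x hx => ?_
    have := (polyId_eval hE hx h0 h2' h1').1
    simpa using this
  · apply Polynomial.eq_of_infinite_eval_eq
    refine hinf.mono fun x hx => ?_
    have := (polyId_eval hE hx h0 h2' h1').2
    simpa using this

/-- packaging as one identity in an auxiliary variable `t` (here: an arbitrary element of a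
commutative `F[X]`-algebra, e.g. `F[X][T]`). -/
theorem polyId_theta {E : WeierstrassCurve.Affine F} (hE : S05.IsMC E)
    (hinf : {x : F | PolyIdGood E x}.Infinite) (n : ℤ) (t : F[X]) :
    (t * E.ΨSq (n + 1) - E.Φ (n + 1)) * (t * E.ΨSq (n - 1) - E.Φ (n - 1))
      = (E.Φ n - X * E.ΨSq n) ^ 2 * t ^ 2
        - 2 * ((X * E.Φ n + C E.a₄ * E.ΨSq n) * (E.Φ n + X * E.ΨSq n)
          + 2 * C E.a₂ * X * E.Φ n * E.ΨSq n) * t
        + (X * E.Φ n - C E.a₄ * E.ΨSq n) ^ 2 := by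
  obtain ⟨h1, h2⟩ := polyId_I1_I2 hE hinf n
  rw [← polyId_I0, ← h1, ← h2]
  ring

end General

/-- **T5** on the model `(S05.mcQ u w)⁄Qb`: the three identities, for every integer `n`, assuming
that infinitely many abscissae are good (T3 + T4). -/
theorem polyId_model (u w : ℚ)
    (hinf : {x : Qb | PolyIdGood ((S05.mcQ u w)⁄Qb) x}.Infinite) (n : ℤ) :
    let E := (S05.mcQ u w)⁄Qb
    E.ΨSq (n + 1) * E.ΨSq (n - 1) = (E.Φ n - X * E.ΨSq n) ^ 2 ∧
    E.Φ (n + 1) * E.ΨSq (n - 1) + E.Φ (n - 1) * E.ΨSq (n + 1)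
      = 2 * ((X * E.Φ n + C (algebraMap ℚ Qb w) * E.ΨSq n) * (E.Φ n + X * E.ΨSq n)
          + 2 * C (algebraMap ℚ Qb u) * X * E.Φ n * E.ΨSq n) ∧
    E.Φ (n + 1) * E.Φ (n - 1) = (X * E.Φ n - C (algebraMap ℚ Qb w) * E.ΨSq n) ^ 2 := by
  intro E
  have h := polyId_I1_I2 (S05.isMC_mcQ u w) hinf n
  rw [S05.mcQ_a₂, S05.mcQ_a₄] at h
  exact ⟨polyId_I0 E n, h.1, h.2⟩

end Fermat.Agent.S13
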