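import Mathlib
import Fermat.Agent.S05.Alg

/-!
# S13, package T6: multiplication by `n` on ALL points, on the projective `x`-line

For a curve `y² = x³ + a₂ x² + a₄ x` and sequences `a n`, `c n` satisfying the three
"Theta" recurrences, `(a n : c n)` is the projective `x`-coordinate of `n • P`, for every point
`P` (torsion or not).
-/

set_option autoImplicit false

namespace Fermat.Agent.S13

open WeierstrassCurve WeierstrassCurve.Affine

variable {K : Type*} [Field K] [DecidableEq K]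

/-- The relation between the projective `x`-coordinates of `A`, `A + B`, `A - B` where `B` has
`x`-coordinate `w`. -/
def RobustRel (E : WeierstrassCurve.Affine K) (w : K) (A Pp Pm : E.Point) : Prop :=
  ∃ l : K, l ≠ 0 ∧
    l * (Pp.xRep 1 * Pm.xRep 1) = (A.xRep 0 - w * A.xRep 1) ^ 2 ∧
    l * (Pp.xRep 0 * Pm.xRep 1 + Pm.xRep 0 * Pp.xRep 1) =
      2 * ((A.xRep 0 * w + E.a₄ * A.xRep 1) * (A.xRep 0 + w * A.xRep 1)
        + 2 * E.a₂ * A.xRep 0 * w * A.xRep 1) ∧
    l * (Pp.xRep 0 * Pm.xRep 0) = (A.xRep 0 * w - E.a₄ * A.xRep 1) ^ 2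

omit [DecidableEq K] in
theorem RobustRel.swap {E : WeierstrassCurve.Affine K} {w : K} {A Pp Pm : E.Point}
    (h : RobustRel E w A Pp Pm) : RobustRel E w A Pm Pp := by
  obtain ⟨l, hl, h0, h1, h2⟩ := h
  refine ⟨l, hl, ?_, ?_, ?_⟩
  · rw [← h0]; ring
  · rw [← h1]; ring
  · rw [← h2]; ring

/-! ### pure algebra -/

omit [DecidableEq K] in
theorem robust_alg_sum {a2 a4 u w yA yB : K} (hd : u - w ≠ 0)
    (e₁ : yA ^ 2 = u ^ 3 + a2 * u ^ 2 + a4 * u) (e₂ : yB ^ 2 = w ^ 3 + a2 * w ^ 2 + a4 * w) :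
    (u - w) ^ 2 * ((((yA - yB) / (u - w)) ^ 2 - a2 - u - w)
      + (((yA + yB) / (u - w)) ^ 2 - a2 - u - w))
      = 2 * ((u * w + a4) * (u + w) + 2 * a2 * u * w) := by
  field_simp
  linear_combination 2 * e₁ + 2 * e₂

omit [DecidableEq K] in
theorem robust_alg_prod {a2 a4 u w yA yB : K} (hd : u - w ≠ 0)
    (e₁ : yA ^ 2 = u ^ 3 + a2 * u ^ 2 + a4 * u) (e₂ : yB ^ 2 = w ^ 3 + a2 * w ^ 2 + a4 * w) :
    (u - w) ^ 2 * ((((yA - yB) / (u - w)) ^ 2 - a2 - u - w)
      * (((yA + yB) / (u - w)) ^ 2 - a2 - u - w))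
      = (u * w - a4) ^ 2 := by
  have key : ((yA - yB) ^ 2 - (a2 + u + w) * (u - w) ^ 2)
      * ((yA + yB) ^ 2 - (a2 + u + w) * (u - w) ^ 2) = (u - w) ^ 2 * (u * w - a4) ^ 2 := by
    have h1 : ((yA - yB) ^ 2 - (a2 + u + w) * (u - w) ^ 2)
      * ((yA + yB) ^ 2 - (a2 + u + w) * (u - w) ^ 2)
      = (yA ^ 2 + yB ^ 2 - (a2 + u + w) * (u - w) ^ 2) ^ 2 - 4 * yA ^ 2 * yB ^ 2 := by ring
    rw [h1, e₁, e₂]
    ring
  have h2 : (u - w) ^ 2 * ((((yA - yB) / (u - w)) ^ 2 - a2 - u - w)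
      * (((yA + yB) / (u - w)) ^ 2 - a2 - u - w))
      = (((yA - yB) ^ 2 - (a2 + u + w) * (u - w) ^ 2)
      * ((yA + yB) ^ 2 - (a2 + u + w) * (u - w) ^ 2)) / (u - w) ^ 2 := by
    field_simp
    ring
  rw [h2, key]
  field_simp

omit [DecidableEq K] in
theorem robust_alg_dbl {a2 a4 w y : K} (hy : y - -y ≠ 0)
    (e : y ^ 2 = w ^ 3 + a2 * w ^ 2 + a4 * w) :
    4 * y ^ 2 * (((3 * w ^ 2 + 2 * a2 * w + a4) / (y - -y)) ^ 2 - a2 - w - w)
      = (w * w - a4) ^ 2 := by
  have h2 : y - -y = 2 * y := by ring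
  rw [h2] at hy ⊢
  have h20 : (2 : K) ≠ 0 := left_ne_zero_of_mul hy
  have hy0 : y ≠ 0 := right_ne_zero_of_mul hy
  field_simp
  linear_combination (-(16 * a2) - 32 * w) * e

/-! ### Lemma R -/

omit [DecidableEq K] in
theorem RobustRel.congr {E : WeierstrassCurve.Affine K} {w : K} {A Pp Pm A' Pp' Pm' : E.Point}
    (h : RobustRel E w A Pp Pm) (hA : A.xRep = A'.xRep) (hp : Pp.xRep = Pp'.xRep)
    (hm : Pm.xRep = Pm'.xRep) : RobustRel E w A' Pp' Pm' := by
  unfold RobustRel at h ⊢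
  rw [← hA, ← hp, ← hm]
  exact h

theorem robust_rel_generic {E : WeierstrassCurve.Affine K} (hE : S05.IsMC E) {u yA w yB : K}
    (hA : E.Nonsingular u yA) (hB : E.Nonsingular w yB) (hne : u ≠ w) :
    RobustRel E w (Point.some u yA hA) (Point.some u yA hA + Point.some w yB hB)
      (Point.some u yA hA - Point.some w yB hB) := by
  have e₁ := (hE.equation_iff u yA).mp hA.1
  have e₂ := (hE.equation_iff w yB).mp hB.1
  have hd : u - w ≠ 0 := sub_ne_zero.2 hne
  rw [sub_eq_add_neg, Point.neg_some, Point.add_of_X_ne hne, Point.add_of_X_ne hne]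
  refine ⟨(u - w) ^ 2, pow_ne_zero _ hd, ?_, ?_, ?_⟩
  · simp
  · simp only [Point.xRep_some, Matrix.cons_val_zero, Matrix.cons_val_one, Matrix.cons_val_fin_one,
      mul_one, addX, slope_of_X_ne hne, hE.a₁, hE.negY, zero_mul, add_zero, sub_neg_eq_add]
    rw [robust_alg_sum hd e₁ e₂]
  · simp only [Point.xRep_some, Matrix.cons_val_zero, Matrix.cons_val_one, Matrix.cons_val_fin_one,
      mul_one, addX, slope_of_X_ne hne, hE.a₁, hE.negY, zero_mul, add_zero, sub_neg_eq_add]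
    rw [robust_alg_prod hd e₁ e₂]

theorem robust_rel_self {E : WeierstrassCurve.Affine K} (hE : S05.IsMC E) {w yB : K}
    (hB : E.Nonsingular w yB) :
    RobustRel E w (Point.some w yB hB) (Point.some w yB hB + Point.some w yB hB)
      (Point.some w yB hB - Point.some w yB hB) := by
  have e₂ := (hE.equation_iff w yB).mp hB.1
  rw [sub_self]
  by_cases hy : yB = E.negY w yB
  · rw [Point.add_self_of_Y_eq hy]
    have hy' : 2 * yB = 0 := by
      rw [hE.negY] at hy
      linear_combination hy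
    have hns := ((nonsingular_iff w yB).mp hB).2
    rw [hE.a₁, hE.a₃] at hns
    have hf : 3 * w ^ 2 + 2 * E.a₂ * w + E.a₄ ≠ 0 := by
      rcases hns with h | h
      · intro h0
        apply h
        rw [h0]; ring
      · exfalso
        apply h
        linear_combination hy'
    have hl : (w * w - E.a₄) ^ 2 = (3 * w ^ 2 + 2 * E.a₂ * w + E.a₄) ^ 2 := by
      linear_combination (4 * E.a₂ + 8 * w) * e₂ - (E.a₂ + 2 * w) * 2 * yB * hy'
    refine ⟨(w * w - E.a₄) ^ 2, ?_, ?_, ?_, ?_⟩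
    · rw [hl]; exact pow_ne_zero _ hf
    · simp
    · simp only [Point.xRep_some, Point.xRep_zero, Matrix.cons_val_zero, Matrix.cons_val_one,
        Matrix.cons_val_fin_one, mul_one, mul_zero, add_zero]
      linear_combination 4 * e₂ - 2 * yB * hy'
    · simp
  · rw [Point.add_self_of_Y_ne hy]
    have hy' : yB - -yB ≠ 0 := by
      rw [hE.negY] at hy
      exact sub_ne_zero.2 hy
    have hy2 : 4 * yB ^ 2 ≠ 0 := by
      have : 4 * yB ^ 2 = (yB - -yB) ^ 2 := by ring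
      rw [this]
      exact pow_ne_zero _ hy'
    refine ⟨4 * yB ^ 2, hy2, ?_, ?_, ?_⟩
    · simp
    · simp only [Point.xRep_some, Point.xRep_zero, Matrix.cons_val_zero, Matrix.cons_val_one,
        Matrix.cons_val_fin_one, mul_one, mul_zero, zero_add]
      linear_combination 4 * e₂
    · simp only [Point.xRep_some, Point.xRep_zero, Matrix.cons_val_zero, Matrix.cons_val_one,
        Matrix.cons_val_fin_one, mul_one, addX, slope_of_Y_ne rfl hy, hE.a₁, hE.negY, zero_mul,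
        add_zero, sub_zero]
      rw [robust_alg_dbl hy' e₂]

/-- **Lemma R.** -/
theorem robust_rel {E : WeierstrassCurve.Affine K} (hE : S05.IsMC E) (A : E.Point) {w yB : K}
    (hB : E.Nonsingular w yB) :
    RobustRel E w A (A + Point.some w yB hB) (A - Point.some w yB hB) := by
  match A with
  | 0 =>
    rw [zero_add, zero_sub]
    refine ⟨1, one_ne_zero, ?_, ?_, ?_⟩
    · simp
    · simp only [Point.xRep_neg, Point.xRep_some, Point.xRep_zero, Matrix.cons_val_zero,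
        Matrix.cons_val_one, Matrix.cons_val_fin_one]
      ring
    · simp only [Point.xRep_neg, Point.xRep_some, Point.xRep_zero, Matrix.cons_val_zero,
        Matrix.cons_val_one, Matrix.cons_val_fin_one]
      ring
  | Point.some u yA hA =>
    by_cases hne : u = w
    · rcases (Point.X_eq_iff (h₁ := hA) (h₂ := hB)).mp hne with h | h
      · rw [h]
        exact robust_rel_self hE hB
      · rw [h]
        refine (robust_rel_self hE hB).swap.congr (Point.xRep_neg _).symm ?_ ?_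
        · rw [sub_self, neg_add_cancel]
        · rw [← Point.xRep_neg, neg_add, sub_eq_add_neg]
    · exact robust_rel_generic hE hA hB hne

/-! ### the induction -/

omit [DecidableEq K] in
/-- cancellation of the known linear factor. -/
theorem robust_cancel {E : WeierstrassCurve.Affine K} (Q : E.Point) {u v : K}
    (h2 : u * Q.xRep 1 = 0) (h1 : v * Q.xRep 1 + Q.xRep 0 * u = 0) (h0 : v * Q.xRep 0 = 0) :
    u = 0 ∧ v = 0 := by
  match Q with
  | 0 =>
    simp only [Point.xRep_zero, Matrix.cons_val_zero, Matrix.cons_val_one,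
      Matrix.cons_val_fin_one, mul_zero, mul_one, zero_add, one_mul] at h2 h1 h0
    exact ⟨h1, h0⟩
  | Point.some x y h =>
    simp only [Point.xRep_some, Matrix.cons_val_zero, Matrix.cons_val_one,
      Matrix.cons_val_fin_one, mul_one] at h2 h1 h0
    refine ⟨h2, ?_⟩
    rw [h2] at h1
    simpa using h1

/-- **T6, sequence form.**  `(a n : c n)` is the projective `x`-coordinate of `n • P`. -/
theorem robust_seq {E : WeierstrassCurve.Affine K} (hE : S05.IsMC E) {x y : K}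
    (h : E.Nonsingular x y) (a c : ℕ → K)
    (a0 : a 0 = 1) (c0 : c 0 = 0) (a1 : a 1 = x) (c1 : c 1 = 1)
    (I0 : ∀ n, c (n + 2) * c n = (a (n + 1) - x * c (n + 1)) ^ 2)
    (I1 : ∀ n, a (n + 2) * c n + a n * c (n + 2) =
      2 * ((x * a (n + 1) + E.a₄ * c (n + 1)) * (a (n + 1) + x * c (n + 1))
        + 2 * E.a₂ * x * a (n + 1) * c (n + 1)))
    (I2 : ∀ n, a (n + 2) * a n = (x * a (n + 1) - E.a₄ * c (n + 1)) ^ 2) (n : ℕ) :
    ∃ μ : K, μ ≠ 0 ∧ a n = μ * (n • Point.some x y h).xRep 0 ∧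
      c n = μ * (n • Point.some x y h).xRep 1 := by
  set P : E.Point := Point.some x y h with hP
  suffices H : ∀ n : ℕ, (∃ μ : K, μ ≠ 0 ∧ a n = μ * (n • P).xRep 0 ∧ c n = μ * (n • P).xRep 1) ∧
      (∃ μ : K, μ ≠ 0 ∧ a (n + 1) = μ * ((n + 1) • P).xRep 0 ∧
        c (n + 1) = μ * ((n + 1) • P).xRep 1) from (H n).1
  intro n
  induction n with
  | zero =>
    refine ⟨⟨1, one_ne_zero, ?_, ?_⟩, ⟨1, one_ne_zero, ?_, ?_⟩⟩
    · simp [a0]
    · simp [c0]
    · simp [a1, hP]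
    · simp [c1, hP]
  | succ n ih =>
    refine ⟨ih.2, ?_⟩
    obtain ⟨⟨μ', hμ', ha', hc'⟩, ⟨μ, hμ, ha, hc⟩⟩ := ih
    obtain ⟨l, hl, R0, R1, R2⟩ := robust_rel hE ((n + 1) • P) h
    have hplus : (n + 1) • P + Point.some x y h = (n + 1 + 1) • P := by
      rw [← hP, succ_nsmul ((P)) (n + 1)]
    have hminus : (n + 1) • P - Point.some x y h = n • P := by
      rw [← hP, succ_nsmul P n, add_sub_cancel_right]
    rw [hplus, hminus] at R0 R1 R2
    set ap := ((n + 1 + 1) • P).xRep 0 with hap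
    set cp := ((n + 1 + 1) • P).xRep 1 with hcp
    set am := (n • P).xRep 0 with ham
    set cm := (n • P).xRep 1 with hcm
    set aA := ((n + 1) • P).xRep 0 with haA
    set cA := ((n + 1) • P).xRep 1 with hcA
    have J0 := I0 n
    have J1 := I1 n
    have J2 := I2 n
    rw [ha, hc, hc'] at J0
    rw [ha, hc, ha', hc'] at J1
    rw [ha, hc, ha'] at J2
    -- `κ = μ² l`
    have key := robust_cancel (n • P) (u := μ' * c (n + 2) - μ ^ 2 * l * cp)
      (v := μ' * a (n + 2) - μ ^ 2 * l * ap) ?_ ?_ ?_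
    · obtain ⟨hu, hv⟩ := key
      refine ⟨μ ^ 2 * l / μ', div_ne_zero (mul_ne_zero (pow_ne_zero _ hμ) hl) hμ', ?_, ?_⟩
      · rw [div_mul_eq_mul_div, eq_div_iff hμ']
        linear_combination hv
      · rw [div_mul_eq_mul_div, eq_div_iff hμ']
        linear_combination hu
    · rw [← hcm]
      linear_combination J0 - μ ^ 2 * R0
    · rw [← hcm, ← ham]
      linear_combination J1 - μ ^ 2 * R1
    · rw [← ham]
      linear_combination J2 - μ ^ 2 * R2

/-- consequences of the projective statement. -/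
theorem robust_seq' {E : WeierstrassCurve.Affine K} (hE : S05.IsMC E) {x y : K}
    (h : E.Nonsingular x y) (a c : ℕ → K)
    (a0 : a 0 = 1) (c0 : c 0 = 0) (a1 : a 1 = x) (c1 : c 1 = 1)
    (I0 : ∀ n, c (n + 2) * c n = (a (n + 1) - x * c (n + 1)) ^ 2)
    (I1 : ∀ n, a (n + 2) * c n + a n * c (n + 2) =
      2 * ((x * a (n + 1) + E.a₄ * c (n + 1)) * (a (n + 1) + x * c (n + 1))
        + 2 * E.a₂ * x * a (n + 1) * c (n + 1)))
    (I2 : ∀ n, a (n + 2) * a n = (x * a (n + 1) - E.a₄ * c (n + 1)) ^ 2) (n : ℕ) :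
    (a n ≠ 0 ∨ c n ≠ 0) ∧ (n • Point.some x y h = 0 ↔ c n = 0) ∧
      (∀ (x' y' : K) (h' : E.Nonsingular x' y'), n • Point.some x y h = Point.some x' y' h' →
        x' * c n = a n) := by
  obtain ⟨μ, hμ, ha, hc⟩ := robust_seq hE h a c a0 c0 a1 c1 I0 I1 I2 n
  generalize n • Point.some x y h = Q at ha hc
  match Q with
  | 0 =>
    simp only [Point.xRep_zero, Matrix.cons_val_zero, Matrix.cons_val_one,
      Matrix.cons_val_fin_one, mul_zero, mul_one] at ha hc
    refine ⟨Or.inl (ha ▸ hμ), ⟨fun _ => hc, fun _ => rfl⟩, ?_⟩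
    intro x' y' h' h0
    exact absurd h0.symm (Point.some_ne_zero h')
  | Point.some x₁ y₁ h₁ =>
    simp only [Point.xRep_some, Matrix.cons_val_zero, Matrix.cons_val_one,
      Matrix.cons_val_fin_one, mul_one] at ha hc
    refine ⟨Or.inr (hc ▸ hμ), ⟨fun h0 => absurd h0 (Point.some_ne_zero h₁),
      fun h0 => absurd (hc ▸ h0) hμ⟩, ?_⟩
    intro x' y' h' h0
    have hx : x₁ = x' := by
      injection h0
    rw [ha, hc, hx]
    ring

/-- **T6, polynomial form** (the statement of the work package). -/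
theorem robust_poly {E : WeierstrassCurve.Affine K} (hE : S05.IsMC E)
    (X Z : ℕ → Polynomial K)
    (X0 : X 0 = 1) (Z0 : Z 0 = 0) (X1 : X 1 = Polynomial.X) (Z1 : Z 1 = 1)
    (I0 : ∀ n, Z (n + 2) * Z n = (X (n + 1) - Polynomial.X * Z (n + 1)) ^ 2)
    (I1 : ∀ n, X (n + 2) * Z n + X n * Z (n + 2) =
      2 * ((Polynomial.X * X (n + 1) + Polynomial.C E.a₄ * Z (n + 1))
          * (X (n + 1) + Polynomial.X * Z (n + 1))
        + 2 * Polynomial.C E.a₂ * Polynomial.X * X (n + 1) * Z (n + 1)))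
    (I2 : ∀ n, X (n + 2) * X n = (Polynomial.X * X (n + 1) - Polynomial.C E.a₄ * Z (n + 1)) ^ 2)
    {x y : K} (h : E.Nonsingular x y) (n : ℕ) :
    ((X n).eval x ≠ 0 ∨ (Z n).eval x ≠ 0) ∧
      (n • Point.some x y h = 0 ↔ (Z n).eval x = 0) ∧
      (∀ (x' y' : K) (h' : E.Nonsingular x' y'), n • Point.some x y h = Point.some x' y' h' →
        x' * (Z n).eval x = (X n).eval x) := by
  refine robust_seq' hE h (fun n => (X n).eval x) (fun n => (Z n).eval x) ?_ ?_ ?_ ?_ ?_ ?_ ?_ n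
  · simp [X0]
  · simp [Z0]
  · simp [X1]
  · simp [Z1]
  · intro n
    have := congrArg (Polynomial.eval x) (I0 n)
    simpa using this
  · intro n
    have := congrArg (Polynomial.eval x) (I1 n)
    simpa using this
  · intro n
    have := congrArg (Polynomial.eval x) (I2 n)
    simpa using this

/-- The three polynomial identities of package T5 for Mathlib's `Φ`, `ΨSq`. -/
def RobustIds (E : WeierstrassCurve.Affine K) : Prop :=
  (∀ n : ℕ, E.ΨSq ((n : ℤ) + 2) * E.ΨSq n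
      = (E.Φ ((n : ℤ) + 1) - Polynomial.X * E.ΨSq ((n : ℤ) + 1)) ^ 2) ∧
  (∀ n : ℕ, E.Φ ((n : ℤ) + 2) * E.ΨSq n + E.Φ n * E.ΨSq ((n : ℤ) + 2) =
      2 * ((Polynomial.X * E.Φ ((n : ℤ) + 1) + Polynomial.C E.a₄ * E.ΨSq ((n : ℤ) + 1))
          * (E.Φ ((n : ℤ) + 1) + Polynomial.X * E.ΨSq ((n : ℤ) + 1))
        + 2 * Polynomial.C E.a₂ * Polynomial.X * E.Φ ((n : ℤ) + 1) * E.ΨSq ((n : ℤ) + 1))) ∧
  (∀ n : ℕ, E.Φ ((n : ℤ) + 2) * E.Φ n
      = (Polynomial.X * E.Φ ((n : ℤ) + 1) - Polynomial.C E.a₄ * E.ΨSq ((n : ℤ) + 1)) ^ 2)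

/-- **T6 for Mathlib's division polynomials.** -/
theorem robust_divPoly {E : WeierstrassCurve.Affine K} (hE : S05.IsMC E) (hI : RobustIds E)
    {x y : K} (h : E.Nonsingular x y) (n : ℕ) :
    ((E.Φ n).eval x ≠ 0 ∨ (E.ΨSq n).eval x ≠ 0) ∧
      (n • Point.some x y h = 0 ↔ (E.ΨSq n).eval x = 0) ∧
      (∀ (x' y' : K) (h' : E.Nonsingular x' y'), n • Point.some x y h = Point.some x' y' h' →
        x' * (E.ΨSq n).eval x = (E.Φ n).eval x) := by
  obtain ⟨I0, I1, I2⟩ := hI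
  refine robust_poly hE (fun n => E.Φ n) (fun n => E.ΨSq n) ?_ ?_ ?_ ?_ ?_ ?_ ?_ h n
  · simp
  · simp
  · simp
  · simp
  · intro n
    have := I0 n
    push_cast
    exact this
  · intro n
    have := I1 n
    push_cast
    exact this
  · intro n
    have := I2 n
    push_cast
    exact this

end Fermat.Agent.S13
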