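import Fermat.Agent.S13.PolyId
import Fermat.Agent.S13.Robust
import Fermat.Agent.S13.NonTorsion
import Fermat.Agent.S13.Count

/-!
# S13: glue T3 + T4 ⟹ T5 (`RobustIds`) ⟹ T6 (`Stmt_mulBy`) ⟹ T7 (`Stmt_model_card`)
-/

set_option autoImplicit false

namespace Fermat.Agent.S13

open WeierstrassCurve WeierstrassCurve.Affine Polynomial

section General

variable {F : Type*} [Field F] [DecidableEq F]

/-- the statement of package T3 for a curve `E`. -/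
def StmtT3 (E : WeierstrassCurve.Affine F) : Prop :=
  ∀ (x y : F) (h : E.Nonsingular x y), (∀ n : ℕ, 0 < n → n • (Point.some x y h) ≠ 0) →
    ∀ n : ℕ, 1 ≤ n → (E.ΨSq n).eval x ≠ 0 ∧
      ∃ (xn yn : F) (hn : E.Nonsingular xn yn), n • (Point.some x y h) = Point.some xn yn hn ∧
        xn * (E.ΨSq n).eval x = (E.Φ n).eval x

theorem polyIdGood_of_T3 {E : WeierstrassCurve.Affine F} (hT3 : StmtT3 E) {x y : F}
    (h : E.Nonsingular x y) (hnt : ∀ n : ℕ, 0 < n → n • (Point.some x y h) ≠ 0) :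
    PolyIdGood E x := by
  refine ⟨y, h, ?_⟩
  have key : ∀ n : ℕ, 1 ≤ n → (E.ΨSq n).eval x ≠ 0 ∧
      ∃ (y' : F) (h' : E.Nonsingular ((E.Φ n).eval x / (E.ΨSq n).eval x) y'),
        (n : ℤ) • (Point.some x y h) = Point.some _ y' h' := by
    intro n hn
    obtain ⟨hZ, xn, yn, hn', e1, e2⟩ := hT3 x y h hnt n hn
    refine ⟨hZ, ?_⟩
    have hx : xn = (E.Φ n).eval x / (E.ΨSq n).eval x := by
      rw [← e2]; field_simp
    subst hx
    exact ⟨yn, hn', by rw [natCast_zsmul]; exact e1⟩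
  intro n hn
  rcases lt_or_gt_of_ne hn with hneg | hpos
  · obtain ⟨m, rfl⟩ : ∃ m : ℕ, n = -(m : ℤ) := ⟨(-n).toNat, by omega⟩
    obtain ⟨hZ, y', h', e⟩ := key m (by omega)
    rw [ΨSq_neg, Φ_neg]
    refine ⟨hZ, _, (nonsingular_neg ..).mpr h', ?_⟩
    rw [neg_smul, e, Point.neg_some]
  · obtain ⟨m, rfl⟩ : ∃ m : ℕ, n = (m : ℤ) := ⟨n.toNat, by omega⟩
    exact key m (by omega)

theorem robustIds_of_good {E : WeierstrassCurve.Affine F} (hE : S05.IsMC E)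
    (hinf : {x : F | PolyIdGood E x}.Infinite) : RobustIds E := by
  refine ⟨fun n => ?_, fun n => ?_, fun n => ?_⟩
  · have := polyId_I0 E ((n : ℤ) + 1)
    rwa [add_assoc, one_add_one_eq_two, add_sub_cancel_right] at this
  · have := (polyId_I1_I2 hE hinf ((n : ℤ) + 1)).1
    rwa [add_assoc, one_add_one_eq_two, add_sub_cancel_right] at this
  · have := (polyId_I1_I2 hE hinf ((n : ℤ) + 1)).2
    rwa [add_assoc, one_add_one_eq_two, add_sub_cancel_right] at this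

end General

/-- T3 + T4 ⟹ T5 in the shape wanted by T6. -/
theorem robustIds_model (u w : ℤ) (hw : w ≠ 0) (hd : u ^ 2 - 4 * w ≠ 0)
    (hT3 : StmtT3 ((S05.mcQ (u : ℚ) (w : ℚ))⁄Qb)) :
    RobustIds ((S05.mcQ (u : ℚ) (w : ℚ))⁄Qb) := by
  obtain ⟨S, hS, hgood⟩ := exists_infinite_nonTorsion u w hw hd
  refine robustIds_of_good (S05.isMC_mcQ u w) (hS.mono fun x hx => ?_)
  obtain ⟨y, h, hnt⟩ := hgood x hx
  exact polyIdGood_of_T3 hT3 h hnt

/-- T3 ⟹ `Stmt_mulBy`. -/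
theorem stmt_mulBy_of_T3
    (hT3 : ∀ u w : ℤ, w ≠ 0 → u ^ 2 - 4 * w ≠ 0 → StmtT3 ((S05.mcQ (u : ℚ) (w : ℚ))⁄Qb)) :
    Stmt_mulBy := by
  intro u w hw hd n x y h
  obtain ⟨h1, h2, h3⟩ := robust_divPoly (S05.isMC_mcQ u w) (robustIds_model u w hw hd (hT3 u w hw hd))
    h n
  refine ⟨?_, h2, h3⟩
  intro h0
  rw [Prod.mk.injEq] at h0
  rcases h1 with h1 | h1
  · exact h1 h0.1
  · exact h1 h0.2

/-- T3 ⟹ `Stmt_model_card`. -/
theorem stmt_model_card_of_T3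
    (hT3 : ∀ u w : ℤ, w ≠ 0 → u ^ 2 - 4 * w ≠ 0 → StmtT3 ((S05.mcQ (u : ℚ) (w : ℚ))⁄Qb)) :
    Stmt_model_card :=
  model_card_of_mulBy (stmt_mulBy_of_T3 hT3)

end Fermat.Agent.S13
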