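import Fermat.Agent.S05.Inertia

/-!
# S13, prime `2`: explicit addition on `y² + a₁ x y = x³ + a₂ x² + a₄ x`
in the coordinates `(x, s)`, `y = x * s`.
-/

set_option autoImplicit false

namespace Fermat.Agent.S13.Two

open WeierstrassCurve WeierstrassCurve.Affine
open Fermat.Agent.S05

variable {K : Type*} [Field K]

/-- The Weierstrass curve is of the shape `y² + a₁ x y = x³ + a₂ x² + a₄ x`. -/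
structure IsM1 (E : WeierstrassCurve.Affine K) : Prop where
  a₃ : E.a₃ = 0
  a₆ : E.a₆ = 0

theorem IsM1.equation_iff {E : WeierstrassCurve.Affine K} (hE : IsM1 E) (x y : K) :
    E.Equation x y ↔ y ^ 2 + E.a₁ * x * y = x ^ 3 + E.a₂ * x ^ 2 + E.a₄ * x := by
  rw [WeierstrassCurve.Affine.equation_iff, hE.a₃, hE.a₆]
  constructor <;> intro h <;> linear_combination h

theorem IsM1.equation_s {E : WeierstrassCurve.Affine K} (hE : IsM1 E) {x s : K} (hx : x ≠ 0)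
    (h : E.Equation x (x * s)) : x * (s ^ 2 + E.a₁ * s) = x ^ 2 + E.a₂ * x + E.a₄ := by
  rw [hE.equation_iff] at h
  apply mul_left_cancel₀ hx
  linear_combination h

theorem IsM1.negY {E : WeierstrassCurve.Affine K} (hE : IsM1 E) (x y : K) :
    E.negY x y = -y - E.a₁ * x := by
  simp [WeierstrassCurve.Affine.negY, hE.a₃]

/-! ### pure field identities -/

theorem alg_I2 {A U W x₁ x₂ s₁ s₂ : K} (hx₁ : x₁ ≠ 0) (hx₂ : x₂ ≠ 0) (hD : s₁ + s₂ + A ≠ 0)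
    (e₁ : x₁ * (s₁ ^ 2 + A * s₁) = x₁ ^ 2 + U * x₁ + W)
    (e₂ : x₂ * (s₂ ^ 2 + A * s₂) = x₂ ^ 2 + U * x₂ + W) :
    (s₁ + (x₁ * x₂ - W) / (x₁ * (s₁ + s₂ + A))) ^ 2
        + A * (s₁ + (x₁ * x₂ - W) / (x₁ * (s₁ + s₂ + A))) - U - x₁ - x₂
      = (x₁ * x₂ - W) ^ 2 / (x₁ * x₂ * (s₁ + s₂ + A) ^ 2) := by
  field_simp
  grind

theorem alg_I3 {A W x₁ x₂ s₁ s₂ : K} (hx₁ : x₁ ≠ 0) (hx₂ : x₂ ≠ 0) (hD : s₁ + s₂ + A ≠ 0)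
    (hM : x₁ * x₂ - W ≠ 0) :
    -((s₁ + (x₁ * x₂ - W) / (x₁ * (s₁ + s₂ + A))) *
        ((x₁ * x₂ - W) ^ 2 / (x₁ * x₂ * (s₁ + s₂ + A) ^ 2) - x₁) + x₁ * s₁)
        - A * ((x₁ * x₂ - W) ^ 2 / (x₁ * x₂ * (s₁ + s₂ + A) ^ 2))
      = (x₁ * x₂ - W) ^ 2 / (x₁ * x₂ * (s₁ + s₂ + A) ^ 2) *
        (-s₁ - A - (x₁ * x₂ - W) / (x₁ * (s₁ + s₂ + A))
          + x₁ * x₂ * (s₁ + s₂ + A) / (x₁ * x₂ - W)) := by
  field_simp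
  ring

theorem alg_I4 {A U W x₁ x₂ s₁ s₂ : K} (hx₁ : x₁ ≠ 0) (hx₂ : x₂ ≠ 0) (hD : s₁ + s₂ + A ≠ 0)
    (hM : x₁ * x₂ - W ≠ 0)
    (e₂ : x₂ * (s₂ ^ 2 + A * s₂) = x₂ ^ 2 + U * x₂ + W) :
    (s₁ + s₂ + A) * (-s₁ - A - (x₁ * x₂ - W) / (x₁ * (s₁ + s₂ + A))
        + x₁ * x₂ * (s₁ + s₂ + A) / (x₁ * x₂ - W))
      = s₁ * s₂ + U + W / x₁ + W / x₂ + (s₁ + s₂ + A) ^ 2 * W / (x₁ * x₂ - W) := by
  field_simp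
  grind

theorem alg_I5 {A U W x₁ x₂ s₁ s₂ : K} (hx : x₁ - x₂ ≠ 0)
    (e₁ : x₁ * (s₁ ^ 2 + A * s₁) = x₁ ^ 2 + U * x₁ + W)
    (e₂ : x₂ * (s₂ ^ 2 + A * s₂) = x₂ ^ 2 + U * x₂ + W) :
    ((x₁ * s₁ - x₂ * s₂) / (x₁ - x₂)) ^ 2 + A * ((x₁ * s₁ - x₂ * s₂) / (x₁ - x₂)) - U - x₁ - x₂
      = x₁ * x₂ * (s₁ - s₂) ^ 2 / (x₁ - x₂) ^ 2 := by
  field_simp
  grind

/-- difference of the two curve equations -/
theorem alg_diff {A U W x₁ x₂ s₁ s₂ : K}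
    (e₁ : x₁ * (s₁ ^ 2 + A * s₁) = x₁ ^ 2 + U * x₁ + W)
    (e₂ : x₂ * (s₂ ^ 2 + A * s₂) = x₂ ^ 2 + U * x₂ + W) :
    x₁ * x₂ * ((s₁ - s₂) * (s₁ + s₂ + A)) = (x₁ - x₂) * (x₁ * x₂ - W) := by
  linear_combination x₂ * e₁ - x₁ * e₂

section points

variable [DecidableEq K]

theorem IsM1.slope_plus {E : WeierstrassCurve.Affine K} (hE : IsM1 E) {x₁ x₂ s₁ s₂ : K}
    (hx₁ : x₁ ≠ 0) (hx₂ : x₂ ≠ 0) (hD : s₁ + s₂ + E.a₁ ≠ 0)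
    (e₁ : x₁ * (s₁ ^ 2 + E.a₁ * s₁) = x₁ ^ 2 + E.a₂ * x₁ + E.a₄)
    (e₂ : x₂ * (s₂ ^ 2 + E.a₁ * s₂) = x₂ ^ 2 + E.a₂ * x₂ + E.a₄) :
    E.slope x₁ x₂ (x₁ * s₁) (x₂ * s₂) = s₁ + (x₁ * x₂ - E.a₄) / (x₁ * (s₁ + s₂ + E.a₁)) := by
  by_cases hx : x₁ = x₂
  · subst hx
    have hs : s₁ = s₂ := by
      have h : x₁ * ((s₁ - s₂) * (s₁ + s₂ + E.a₁)) = 0 := by linear_combination e₁ - e₂
      rcases mul_eq_zero.1 h with h | h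
      · exact absurd h hx₁
      · rcases mul_eq_zero.1 h with h | h
        · exact sub_eq_zero.1 h
        · exact absurd h hD
    subst hs
    have h2 : x₁ * s₁ ≠ E.negY x₁ (x₁ * s₁) := by
      rw [hE.negY]
      intro h
      apply hD
      apply mul_left_cancel₀ hx₁
      linear_combination h
    rw [slope_of_Y_ne rfl h2, hE.negY]
    have e3 : x₁ * s₁ - (-(x₁ * s₁) - E.a₁ * x₁) = x₁ * (s₁ + s₁ + E.a₁) := by ring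
    rw [e3]
    have hxD : x₁ * (s₁ + s₁ + E.a₁) ≠ 0 := mul_ne_zero hx₁ hD
    rw [div_eq_iff hxD, add_mul, div_mul_cancel₀ _ hxD]
    linear_combination (-2 : K) * e₁
  · rw [slope_of_X_ne hx]
    have hx' : x₁ - x₂ ≠ 0 := sub_ne_zero.2 hx
    field_simp
    grind

omit [DecidableEq K] in
theorem IsM1.not_neg_of_D {E : WeierstrassCurve.Affine K} (hE : IsM1 E) {x₁ x₂ s₁ s₂ : K}
    (hx₁ : x₁ ≠ 0) (hD : s₁ + s₂ + E.a₁ ≠ 0) :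
    ¬(x₁ = x₂ ∧ x₁ * s₁ = E.negY x₂ (x₂ * s₂)) := by
  rintro ⟨rfl, h⟩
  rw [hE.negY] at h
  apply hD
  apply mul_left_cancel₀ hx₁
  linear_combination h

theorem IsM1.add_plus_x {E : WeierstrassCurve.Affine K} (hE : IsM1 E) {x₁ x₂ s₁ s₂ : K}
    (hx₁ : x₁ ≠ 0) (hx₂ : x₂ ≠ 0) (hD : s₁ + s₂ + E.a₁ ≠ 0)
    (h₁ : E.Nonsingular x₁ (x₁ * s₁)) (h₂ : E.Nonsingular x₂ (x₂ * s₂)) :
    ∃ (x₃ y₃ : K) (h₃ : E.Nonsingular x₃ y₃),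
      Point.some _ _ h₁ + Point.some _ _ h₂ = Point.some _ _ h₃ ∧
      x₃ = (x₁ * x₂ - E.a₄) ^ 2 / (x₁ * x₂ * (s₁ + s₂ + E.a₁) ^ 2) := by
  have e₁ := hE.equation_s hx₁ h₁.1
  have e₂ := hE.equation_s hx₂ h₂.1
  rw [Point.add_some (hE.not_neg_of_D hx₁ hD)]
  refine ⟨_, _, _, rfl, ?_⟩
  rw [hE.slope_plus hx₁ hx₂ hD e₁ e₂, addX, ← alg_I2 hx₁ hx₂ hD e₁ e₂]

theorem IsM1.add_plus {E : WeierstrassCurve.Affine K} (hE : IsM1 E) {x₁ x₂ s₁ s₂ : K}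
    (hx₁ : x₁ ≠ 0) (hx₂ : x₂ ≠ 0) (hD : s₁ + s₂ + E.a₁ ≠ 0) (hM : x₁ * x₂ - E.a₄ ≠ 0)
    (h₁ : E.Nonsingular x₁ (x₁ * s₁)) (h₂ : E.Nonsingular x₂ (x₂ * s₂)) :
    ∃ (x₃ s₃ : K) (h₃ : E.Nonsingular x₃ (x₃ * s₃)),
      Point.some _ _ h₁ + Point.some _ _ h₂ = Point.some _ _ h₃ ∧
      x₃ = (x₁ * x₂ - E.a₄) ^ 2 / (x₁ * x₂ * (s₁ + s₂ + E.a₁) ^ 2) ∧
      s₃ = -s₁ - E.a₁ - (x₁ * x₂ - E.a₄) / (x₁ * (s₁ + s₂ + E.a₁))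
        + x₁ * x₂ * (s₁ + s₂ + E.a₁) / (x₁ * x₂ - E.a₄) := by
  have e₁ := hE.equation_s hx₁ h₁.1
  have e₂ := hE.equation_s hx₂ h₂.1
  rw [Point.add_some (hE.not_neg_of_D hx₁ hD)]
  have hX : E.addX x₁ x₂ (E.slope x₁ x₂ (x₁ * s₁) (x₂ * s₂)) =
      (x₁ * x₂ - E.a₄) ^ 2 / (x₁ * x₂ * (s₁ + s₂ + E.a₁) ^ 2) := by
    rw [hE.slope_plus hx₁ hx₂ hD e₁ e₂, addX, ← alg_I2 hx₁ hx₂ hD e₁ e₂]
  have hY : E.addY x₁ x₂ (x₁ * s₁) (E.slope x₁ x₂ (x₁ * s₁) (x₂ * s₂)) =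
      (x₁ * x₂ - E.a₄) ^ 2 / (x₁ * x₂ * (s₁ + s₂ + E.a₁) ^ 2) *
        (-s₁ - E.a₁ - (x₁ * x₂ - E.a₄) / (x₁ * (s₁ + s₂ + E.a₁))
          + x₁ * x₂ * (s₁ + s₂ + E.a₁) / (x₁ * x₂ - E.a₄)) := by
    rw [addY, negAddY, hX, hE.negY, hE.slope_plus hx₁ hx₂ hD e₁ e₂]
    exact alg_I3 hx₁ hx₂ hD hM
  obtain ⟨h₃, e⟩ := exists_some_eq (nonsingular_add h₁ h₂ (hE.not_neg_of_D hx₁ hD)) hX hY
  exact ⟨_, _, h₃, e, rfl, rfl⟩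

theorem IsM1.add_minus_x {E : WeierstrassCurve.Affine K} (hE : IsM1 E) {x₁ x₂ s₁ s₂ : K}
    (hx₁ : x₁ ≠ 0) (hx₂ : x₂ ≠ 0) (hx : x₁ ≠ x₂)
    (h₁ : E.Nonsingular x₁ (x₁ * s₁)) (h₂ : E.Nonsingular x₂ (x₂ * s₂)) :
    ∃ (x₃ y₃ : K) (h₃ : E.Nonsingular x₃ y₃),
      Point.some _ _ h₁ + Point.some _ _ h₂ = Point.some _ _ h₃ ∧
      x₃ = x₁ * x₂ * (s₁ - s₂) ^ 2 / (x₁ - x₂) ^ 2 := by
  have e₁ := hE.equation_s hx₁ h₁.1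
  have e₂ := hE.equation_s hx₂ h₂.1
  rw [Point.add_of_X_ne hx]
  refine ⟨_, _, _, rfl, ?_⟩
  rw [slope_of_X_ne hx, addX, ← alg_I5 (sub_ne_zero.2 hx) e₁ e₂]

theorem IsM1.add_T_x {E : WeierstrassCurve.Affine K} (hE : IsM1 E) {x s : K}
    (hx : x ≠ 0) (hT : E.Nonsingular 0 0) (h : E.Nonsingular x (x * s)) :
    ∃ (x₃ y₃ : K) (h₃ : E.Nonsingular x₃ y₃),
      Point.some _ _ h + Point.some _ _ hT = Point.some _ _ h₃ ∧ x₃ = E.a₄ / x := by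
  have e := hE.equation_s hx h.1
  rw [Point.add_of_X_ne hx]
  have hsl : E.slope x 0 (x * s) 0 = s := by
    rw [slope_of_X_ne hx, sub_zero, sub_zero, mul_div_cancel_left₀ _ hx]
  refine ⟨_, _, _, rfl, ?_⟩
  rw [hsl, addX, eq_div_iff hx]
  linear_combination e

omit [DecidableEq K] in
theorem IsM1.neg_s {E : WeierstrassCurve.Affine K} (hE : IsM1 E) (x s : K)
    (h : E.Nonsingular x (x * s)) :
    ∃ h' : E.Nonsingular x (x * (-s - E.a₁)),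
      -(Point.some x (x * s) h) = Point.some x (x * (-s - E.a₁)) h' := by
  rw [Point.neg_some]
  apply exists_some_eq _ rfl
  rw [hE.negY]; ring

end points

end Fermat.Agent.S13.Two
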