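import Fermat.Agent.S13.TwoAdd

/-!
# S13, prime `2`: the kernel of reduction of `y² + a₁ x y = x³ + a₂ x² + a₄ x`
has no torsion prime to the residue characteristic.
-/

set_option autoImplicit false

namespace Fermat.Agent.S13.Two

open WeierstrassCurve WeierstrassCurve.Affine
open Fermat.Agent.S05

variable {K : Type*} [Field K]
variable {Γ₀ : Type*} [LinearOrderedCommGroupWithZero Γ₀] {v : Valuation K Γ₀}

/-- For a point in `E₁`, `1 < v s` and `v s ^ 2 = v x`. -/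
theorem v_s_sq {A U W x s : K} (hA : v A ≤ 1) (hU : v U ≤ 1) (hW : v W ≤ 1) (hx : 1 < v x)
    (e : x * (s ^ 2 + A * s) = x ^ 2 + U * x + W) : 1 < v s ∧ v s ^ 2 = v x := by
  have hx0 : x ≠ 0 := ne_zero_of_one_lt hx
  have e' : s ^ 2 + A * s = x + (U + W / x) := by
    field_simp
    linear_combination e
  have h1 : v (s ^ 2 + A * s) = v x := by
    rw [e']
    apply Valuation.map_add_eq_of_lt_left
    refine lt_of_le_of_lt ?_ hx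
    apply Valuation.map_add_le v hU
    rw [map_div₀]
    exact div_le_one_of_le₀ (hW.trans hx.le) zero_le
  have hs : 1 < v s := by
    by_contra hc
    have hc' : v s ≤ 1 := not_lt.1 hc
    have : v (s ^ 2 + A * s) ≤ 1 := by
      apply Valuation.map_add_le v
      · rw [map_pow]; exact pow_le_one₀ zero_le hc'
      · rw [map_mul]; exact mul_le_one₀ hA zero_le hc'
    rw [h1] at this
    exact absurd hx (not_lt.2 this)
  refine ⟨hs, ?_⟩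
  rw [← h1, ← map_pow]
  symm
  apply Valuation.map_add_eq_of_lt_left
  rw [map_mul, map_pow, sq]
  have h0 : 0 < v s := zero_lt_one.trans hs
  exact mul_lt_mul_of_pos_right (lt_of_le_of_lt hA hs) h0

theorem zc_final {A X s₁ s₂ s₃ x₁ x₂ : K} (hX : X ≠ 0) (hx₁ : x₁ ≠ 0) (hx₂ : x₂ ≠ 0)
    (hs₁ : s₁ ≠ 0) (hs₂ : s₂ ≠ 0) (hs₃ : s₃ ≠ 0) (hD : s₁ + s₂ + A ≠ 0) :
    X / (X * s₃) = (x₁ / (x₁ * s₁) + x₂ / (x₂ * s₂) + A * (x₁ / (x₁ * s₁)) * (x₂ / (x₂ * s₂))) *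
      (1 + -((s₁ + s₂ + A) * s₃ - s₁ * s₂) / ((s₁ + s₂ + A) * s₃)) := by
  field_simp
  ring

variable [DecidableEq K]

/-- core computation for two affine points of `E₁` with `s₁ + s₂ + a₁ ≠ 0`. -/
theorem IsM1.E1_add_core {E : WeierstrassCurve.Affine K} (hE : IsM1 E)
    (hA : v E.a₁ ≤ 1) (hU : v E.a₂ ≤ 1) (hW : v E.a₄ ≤ 1) {x₁ x₂ s₁ s₂ : K}
    (hx₁ : 1 < v x₁) (hx₂ : 1 < v x₂) (hD : s₁ + s₂ + E.a₁ ≠ 0)
    (h₁ : E.Nonsingular x₁ (x₁ * s₁)) (h₂ : E.Nonsingular x₂ (x₂ * s₂)) :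
    InE1 v (Point.some _ _ h₁ + Point.some _ _ h₂) ∧
      ∃ δ : K, v δ < 1 ∧ zc (Point.some _ _ h₁ + Point.some _ _ h₂) =
        (zc (Point.some _ _ h₁) + zc (Point.some _ _ h₂)
          + E.a₁ * zc (Point.some _ _ h₁) * zc (Point.some _ _ h₂)) * (1 + δ) := by
  have hx₁0 : x₁ ≠ 0 := ne_zero_of_one_lt hx₁
  have hx₂0 : x₂ ≠ 0 := ne_zero_of_one_lt hx₂
  have e₁ := hE.equation_s hx₁0 h₁.1
  have e₂ := hE.equation_s hx₂0 h₂.1
  obtain ⟨ha, hs₁⟩ := v_s_sq hA hU hW hx₁ e₁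
  obtain ⟨hb, hs₂⟩ := v_s_sq hA hU hW hx₂ e₂
  have hs₁0 : s₁ ≠ 0 := ne_zero_of_one_lt ha
  have hs₂0 : s₂ ≠ 0 := ne_zero_of_one_lt hb
  have hab : 1 < v s₁ * v s₂ := one_lt_mul_of_lt_of_le ha hb.le
  -- valuation of M
  have hx12 : 1 < v (x₁ * x₂) := by
    rw [map_mul]; exact one_lt_mul_of_lt_of_le hx₁ hx₂.le
  have hvM : v (x₁ * x₂ - E.a₄) = v (x₁ * x₂) :=
    Valuation.map_sub_eq_of_lt_left v (lt_of_le_of_lt hW hx12)
  have hM : x₁ * x₂ - E.a₄ ≠ 0 := ne_zero_of_one_lt (hvM ▸ hx12)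
  -- valuation of D
  have hvD : v (s₁ + s₂ + E.a₁) < v s₁ * v s₂ := by
    refine Valuation.map_add_lt v (Valuation.map_add_lt v ?_ ?_) (lt_of_le_of_lt hA hab)
    · exact (lt_mul_iff_one_lt_right (zero_lt_one.trans ha)).mpr hb
    · exact (lt_mul_iff_one_lt_left (zero_lt_one.trans hb)).mpr ha
  have hvD0 : 0 < v (s₁ + s₂ + E.a₁) := (Valuation.pos_iff v).mpr hD
  have hvD2 : v (s₁ + s₂ + E.a₁) ^ 2 < v (x₁ * x₂) := by
    rw [map_mul, ← hs₁, ← hs₂, ← mul_pow]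
    exact pow_lt_pow_left₀ hvD zero_le two_ne_zero
  obtain ⟨x₃, s₃, h₃, hadd, hx₃def, hs₃def⟩ := hE.add_plus hx₁0 hx₂0 hD hM h₁ h₂
  rw [hadd]
  have hx₃ : 1 < v x₃ := by
    rw [hx₃def, map_div₀, map_pow, map_mul, map_pow, hvM,
      one_lt_div₀ (mul_pos (zero_lt_one.trans hx12) (pow_pos hvD0 2)), sq (v (x₁ * x₂))]
    exact mul_lt_mul' le_rfl hvD2 zero_le (zero_lt_one.trans hx12)
  refine ⟨hx₃, ?_⟩
  have hx₃0 := ne_zero_of_one_lt hx₃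
  obtain ⟨R, hRdef⟩ : ∃ R, R = E.a₂ + E.a₄ / x₁ + E.a₄ / x₂ +
    (s₁ + s₂ + E.a₁) ^ 2 * E.a₄ / (x₁ * x₂ - E.a₄) := ⟨_, rfl⟩
  have hI4 : (s₁ + s₂ + E.a₁) * s₃ = s₁ * s₂ + R := by
    rw [hs₃def, alg_I4 hx₁0 hx₂0 hD hM e₂, hRdef]; ring
  have hR : v R ≤ 1 := by
    rw [hRdef]
    refine Valuation.map_add_le v (Valuation.map_add_le v (Valuation.map_add_le v hU ?_) ?_) ?_
    · rw [map_div₀]; exact div_le_one_of_le₀ (hW.trans hx₁.le) zero_le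
    · rw [map_div₀]; exact div_le_one_of_le₀ (hW.trans hx₂.le) zero_le
    · rw [map_div₀, map_mul, map_pow, hvM]
      refine div_le_one_of_le₀ ?_ zero_le
      calc v (s₁ + s₂ + E.a₁) ^ 2 * v E.a₄ ≤ v (s₁ + s₂ + E.a₁) ^ 2 * 1 := by gcongr
        _ ≤ v (x₁ * x₂) := by rw [mul_one]; exact hvD2.le
  have hvDs : v ((s₁ + s₂ + E.a₁) * s₃) = v s₁ * v s₂ := by
    rw [hI4, ← map_mul]
    exact Valuation.map_add_eq_of_lt_left v (lt_of_le_of_lt hR (by rw [map_mul]; exact hab))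
  have hDs0 : (s₁ + s₂ + E.a₁) * s₃ ≠ 0 := ne_zero_of_one_lt (hvDs ▸ hab)
  have hs₃0 : s₃ ≠ 0 := right_ne_zero_of_mul hDs0
  refine ⟨-R / ((s₁ + s₂ + E.a₁) * s₃), ?_, ?_⟩
  · rw [map_div₀, Valuation.map_neg, hvDs]
    exact (div_lt_one₀ (zero_lt_one.trans hab)).mpr (lt_of_le_of_lt hR hab)
  · simp only [zc_some]
    have hR' : R = (s₁ + s₂ + E.a₁) * s₃ - s₁ * s₂ := by rw [hI4]; ring
    rw [hR']
    exact zc_final hx₃0 hx₁0 hx₂0 hs₁0 hs₂0 hs₃0 hD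

theorem IsM1.E1_add {E : WeierstrassCurve.Affine K} (hE : IsM1 E)
    (hA : v E.a₁ ≤ 1) (hU : v E.a₂ ≤ 1) (hW : v E.a₄ ≤ 1) (P₁ P₂ : E.Point)
    (hP₁ : InE1 v P₁) (hP₂ : InE1 v P₂) :
    InE1 v (P₁ + P₂) ∧
      ∃ δ : K, v δ < 1 ∧ zc (P₁ + P₂) = (zc P₁ + zc P₂ + E.a₁ * zc P₁ * zc P₂) * (1 + δ) := by
  rcases P₁ with _ | ⟨x₁, y₁, h₁⟩
  · rw [← Point.zero_def, zero_add]
    exact ⟨hP₂, 0, by simp, by simp⟩
  rcases P₂ with _ | ⟨x₂, y₂, h₂⟩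
  · rw [← Point.zero_def, add_zero]
    exact ⟨hP₁, 0, by simp, by simp⟩
  have hx₁ : 1 < v x₁ := hP₁
  have hx₂ : 1 < v x₂ := hP₂
  have hx₁0 : x₁ ≠ 0 := ne_zero_of_one_lt hx₁
  have hx₂0 : x₂ ≠ 0 := ne_zero_of_one_lt hx₂
  obtain ⟨s₁, h₁', e₁'⟩ := exists_s h₁ hx₁0
  obtain ⟨s₂, h₂', e₂'⟩ := exists_s h₂ hx₂0
  rw [e₁', e₂']
  by_cases hD : s₁ + s₂ + E.a₁ = 0
  · have e₁ := hE.equation_s hx₁0 h₁'.1
    have e₂ := hE.equation_s hx₂0 h₂'.1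
    have hx12 : 1 < v (x₁ * x₂) := by
      rw [map_mul]; exact one_lt_mul_of_lt_of_le hx₁ hx₂.le
    have hvM : v (x₁ * x₂ - E.a₄) = v (x₁ * x₂) :=
      Valuation.map_sub_eq_of_lt_left v (lt_of_le_of_lt hW hx12)
    have hM : x₁ * x₂ - E.a₄ ≠ 0 := ne_zero_of_one_lt (hvM ▸ hx12)
    have hd := alg_diff e₁ e₂
    rw [hD, mul_zero, mul_zero] at hd
    have hxx : x₁ = x₂ := by
      rcases mul_eq_zero.1 hd.symm with h | h
      · exact sub_eq_zero.1 h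
      · exact absurd h hM
    have hy : x₁ * s₁ = E.negY x₂ (x₂ * s₂) := by
      rw [hE.negY, hxx]; linear_combination x₂ * hD
    rw [Point.add_of_Y_eq hxx hy]
    refine ⟨trivial, 0, by simp, ?_⟩
    simp only [zc_zero, zc_some]
    obtain ⟨ha, -⟩ := v_s_sq hA hU hW hx₁ e₁
    obtain ⟨hb, -⟩ := v_s_sq hA hU hW hx₂ e₂
    have hs₁0 : s₁ ≠ 0 := ne_zero_of_one_lt ha
    have hs₂0 : s₂ ≠ 0 := ne_zero_of_one_lt hb
    field_simp
    linear_combination -hD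
  · exact hE.E1_add_core hA hU hW hx₁ hx₂ hD h₁' h₂'

omit [DecidableEq K] in
theorem IsM1.v_zc_lt_one {E : WeierstrassCurve.Affine K} (hE : IsM1 E)
    (hA : v E.a₁ ≤ 1) (hU : v E.a₂ ≤ 1) (hW : v E.a₄ ≤ 1) (P : E.Point) (hP : InE1 v P) :
    v (zc P) < 1 ∧ (zc P = 0 → P = 0) := by
  rcases P with _ | ⟨x, y, h⟩
  · exact ⟨by simp [← Point.zero_def], fun _ => rfl⟩
  have hx : 1 < v x := hP
  have hx0 : x ≠ 0 := ne_zero_of_one_lt hx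
  obtain ⟨s, h', e'⟩ := exists_s h hx0
  rw [e']
  obtain ⟨ha, -⟩ := v_s_sq hA hU hW hx (hE.equation_s hx0 h'.1)
  have hs0 : s ≠ 0 := ne_zero_of_one_lt ha
  have hz : zc (Point.some _ _ h') = s⁻¹ := by
    rw [zc_some]; field_simp
  rw [hz]
  refine ⟨?_, fun h0 => absurd h0 (inv_ne_zero hs0)⟩
  rw [map_inv₀]
  exact inv_lt_one_of_one_lt₀ ha

theorem IsM1.E1_nsmul {E : WeierstrassCurve.Affine K} (hE : IsM1 E)
    (hA : v E.a₁ ≤ 1) (hU : v E.a₂ ≤ 1) (hW : v E.a₄ ≤ 1) (P : E.Point) (hP : InE1 v P) (k : ℕ) :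
    InE1 v (k • P) ∧ ∃ ε : K, v ε < 1 ∧ zc (k • P) = zc P * (k + ε) := by
  have hz1 := (hE.v_zc_lt_one hA hU hW P hP).1
  induction k with
  | zero => exact ⟨by simp, 0, by simp, by simp⟩
  | succ k ih =>
    obtain ⟨h1, ε, hε, hz⟩ := ih
    obtain ⟨h2, δ, hδ, hz'⟩ := hE.E1_add hA hU hW (k • P) P h1 hP
    rw [succ_nsmul]
    have hk : v ((k : K) + ε) ≤ 1 := Valuation.map_add_le v (v_natCast_le_one v k) hε.le
    have h3 : v (E.a₁ * zc P * (k + ε)) < 1 := by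
      rw [map_mul, map_mul]
      exact mul_lt_one_of_lt_of_le (Right.mul_lt_one_of_le_of_lt hA hz1) hk
    refine ⟨h2, ε + E.a₁ * zc P * (k + ε) + δ * (k + 1 + ε + E.a₁ * zc P * (k + ε)), ?_, ?_⟩
    · apply Valuation.map_add_lt v (Valuation.map_add_lt v hε h3)
      rw [map_mul]
      apply mul_lt_one_of_lt_of_le hδ
      apply Valuation.map_add_le v _ h3.le
      apply Valuation.map_add_le v _ hε.le
      have := v_natCast_le_one v (k + 1)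
      rwa [Nat.cast_succ] at this
    · rw [hz', hz]
      push_cast
      ring

/-- `E₁` has no torsion of order a unit. -/
theorem IsM1.E1_torsion_free {E : WeierstrassCurve.Affine K} (hE : IsM1 E)
    (hA : v E.a₁ ≤ 1) (hU : v E.a₂ ≤ 1) (hW : v E.a₄ ≤ 1) (P : E.Point) (hP : InE1 v P) (p : ℕ)
    (hp : v (p : K) = 1) (hpP : p • P = 0) : P = 0 := by
  obtain ⟨-, ε, hε, hz⟩ := hE.E1_nsmul hA hU hW P hP p
  rw [hpP, zc_zero] at hz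
  have h1 : v ((p : K) + ε) = 1 := by
    rw [← hp]
    exact Valuation.map_add_eq_of_lt_left v (hp ▸ hε)
  have h2 : (p : K) + ε ≠ 0 := by
    intro h0
    rw [h0] at h1
    simp at h1
  apply (hE.v_zc_lt_one hA hU hW P hP).2
  rcases mul_eq_zero.1 hz.symm with h | h
  · exact h
  · exact absurd h h2

end Fermat.Agent.S13.Two
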